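import Fermat.Agent.H22.ES.Interfaces
import Fermat.Prelude.Def_ModularCurve_HeckeModule
import Fermat.Agent.H27.Igusa.Defs

/-!
# P-ES / ES-E, row Q-ES: the torsion Hecke datum — interfaces

Target (architect's row 365): `D : Fermat.Agent.H22.ES.TorsionHeckeDatum N n` whose operators are
the restrictions of the prelude Hecke operators `heckeOperatorBar N ℓ` to `J₀(N)[n]`.

Inputs (statement `Prop`s below, one row each):

* `NormSeriesStatement N` (**Q-ES-1**, = old E3 + E4): the `q`-expansion of the multiplicative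
  Hecke operator `Tm f = Norm_{F_{Nℓ} / α F_N} (β f)`:
  `(Tm f)(q^ℓ) = f(q^{ℓ²}) ∏_{b < ℓ} f(ζ^b q)`.
* `NormCongruenceStatement N` (**Q-ES-2**, = Q-ES-1 + E5 `H42.ESEKron`): `Tm` preserves
  `A`-integrality and `(Tm a)‾ (q^ℓ) = abar (q^{ℓ²}) · abar (q)^ℓ`.
* `HeckeGaloisTorsionStatement N` (**Q-ES-3**): `T_ℓ` commutes with `G_ℚ` on torsion.
* `EichlerShimuraRelStatement N` (**Q-ES-4**): `σ² - T_ℓ σ + ℓ = 0` on prime-to-`ℓ` torsion for
  Frobenius elements `σ` at `ℓ ∤ N`.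
-/

set_option autoImplicit false

noncomputable section

namespace Fermat.Agent.H36

open ModularCurve AlgebraicCurve HahnSeries IntermediateField

/-- The multiplicative Hecke operator `Tm_ℓ f = Norm_{F_{Nℓ} / α F_N} (β f)` on the function
field of `X₀(N)` over `L`. -/
def heckeTm (L : Type*) [Field L] [Algebra ℚ L] (N ℓ : ℕ) [NeZero N] [NeZero ℓ]
    (f : laurentBaseChange L (modularFunctionFieldFull N)) :
    laurentBaseChange L (modularFunctionFieldFull N) :=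
  letI := algebraAlong (heckeAlphaBar L N ℓ)
  Algebra.norm (laurentBaseChange L (modularFunctionFieldFull N)) (heckeBetaBar L N ℓ f)

/-- **Q-ES-1.**  `q`-expansion of the multiplicative Hecke operator:
`(Tm f)(q^ℓ) = f(q^{ℓ²}) ∏_{b < ℓ} f(ζ^b q)` for a primitive `ℓ`-th root of unity `ζ`. -/
def NormSeriesStatement (N : ℕ) [NeZero N] : Prop :=
  ∀ (ℓ : ℕ) [NeZero ℓ], ℓ.Prime → ¬ ℓ ∣ N →
    ∀ ζ : (AlgebraicClosure ℚ)ˣ, IsPrimitiveRoot (ζ : AlgebraicClosure ℚ) ℓ →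
      ∀ f : modularFunctionFieldBar N,
        qExpand (AlgebraicClosure ℚ) ℓ
            ((heckeTm (AlgebraicClosure ℚ) N ℓ f : modularFunctionFieldBar N) :
              LaurentSeries (AlgebraicClosure ℚ)) =
          qExpand (AlgebraicClosure ℚ) ℓ
              (qExpand (AlgebraicClosure ℚ) ℓ (f : LaurentSeries (AlgebraicClosure ℚ))) *
            ∏ b ∈ Finset.range ℓ,
              Fermat.Agent.H27.twist (ζ ^ b) (f : LaurentSeries (AlgebraicClosure ℚ))

/-- **Q-ES-2.**  Norm congruence: for `a ∈ F ∩ A((q))` the series `Tm a` is `A`-integral and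
its reduction `t` satisfies `t(q^ℓ) = abar(q^{ℓ²}) · abar(q)^ℓ`. -/
def NormCongruenceStatement (N : ℕ) [NeZero N] : Prop :=
  ∀ (ℓ : ℕ) [NeZero ℓ], ℓ.Prime → ¬ ℓ ∣ N →
    ∀ A : ValuationSubring (AlgebraicClosure ℚ), A.LiesOverPrime ℓ →
      ∀ (a : LaurentSeries A) (ha : coeffMap A.subtype a ∈ modularFunctionFieldBar N),
        ∃ a' : LaurentSeries A,
          coeffMap A.subtype a' =
            ((heckeTm (AlgebraicClosure ℚ) N ℓ ⟨coeffMap A.subtype a, ha⟩ :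
              modularFunctionFieldBar N) : LaurentSeries (AlgebraicClosure ℚ)) ∧
          qExpand (IsLocalRing.ResidueField A) ℓ (coeffMap (IsLocalRing.residue A) a') =
            qExpand (IsLocalRing.ResidueField A) ℓ
                (qExpand (IsLocalRing.ResidueField A) ℓ (coeffMap (IsLocalRing.residue A) a)) *
              coeffMap (IsLocalRing.residue A) a ^ ℓ

/-- **Q-ES-3.**  The prelude Hecke operator `T_ℓ` (`ℓ ∤ N` prime) commutes with the Galois action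
on torsion points of `J₀(N)`. -/
def HeckeGaloisTorsionStatement (N : ℕ) [NeZero N] : Prop :=
  ∀ (ℓ : ℕ) (hℓ : ℓ.Prime), ¬ ℓ ∣ N →
    ∀ (σ : AlgebraicClosure ℚ ≃ₐ[ℚ] AlgebraicClosure ℚ) (n : ℕ), 0 < n →
      ∀ x : JZero N, n • x = 0 →
        heckeOperatorBar N ⟨ℓ, hℓ⟩ (σ • x) = σ • heckeOperatorBar N ⟨ℓ, hℓ⟩ x

/-- **Q-ES-4.**  The Eichler–Shimura relation on torsion: for `ℓ ∤ N n` prime, `A` over `ℓ` and
`σ` a Frobenius element at `A`, `σ² - T_ℓ σ + ℓ` kills `J₀(N)[n]`. -/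
def EichlerShimuraRelStatement (N : ℕ) [NeZero N] : Prop :=
  ∀ (ℓ : ℕ) (hℓ : ℓ.Prime), ¬ ℓ ∣ N → ∀ (n : ℕ), 0 < n → ¬ ℓ ∣ n →
    ∀ A : ValuationSubring (AlgebraicClosure ℚ), A.LiesOverPrime ℓ →
      ∀ σ : AlgebraicClosure ℚ ≃ₐ[ℚ] AlgebraicClosure ℚ, A.IsFrobeniusAt σ ℓ →
        ∀ x : JZero N, n • x = 0 →
          σ • σ • x - heckeOperatorBar N ⟨ℓ, hℓ⟩ (σ • x) + ℓ • x = 0

end Fermat.Agent.H36

end
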