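import Fermat.Prelude.Def_AlgebraicCurve_Correspondence

/-!
# P-ES / ES-E: abstract lemmas on maps of places

Everything here is for *abstract* function fields `F / L` and `Fbar / k` (no Laurent series), so
that elaboration is fast; the modular instances are plugged in in `Assembly.lean`.

* `redPic0`: the map on `Pic⁰` induced by a map of places preserving degrees and principal
  divisors.
* `redPic0_smul`: equivariance on places gives equivariance on `Pic⁰`.
* `redPic0_correspondence`: a congruence relation on places gives the congruence relation on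
  `Pic⁰`.
* `eq_of_isolation` (**E6**): the isolation principle — two additive maps on divisors which agree
  (after pushing forward along `r`) on a set `PP` of divisors agree on every place which can be
  *isolated* by an element of `PP`.
-/

set_option autoImplicit false

noncomputable section

namespace Fermat.Agent.H36

open AlgebraicCurve

section RedPic0

variable {L F k Fbar : Type*} [Field L] [Field F] [Algebra L F] [Field k] [Field Fbar]
  [Algebra k Fbar]
variable (r : Place L F → Place k Fbar)

theorem degree_mapDomain_place (hdeg : ∀ P, (r P).deg = P.deg) (D : Divisor L F) :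
    Divisor.degree (Finsupp.mapDomain r D) = Divisor.degree D := by
  induction D using Finsupp.induction_linear with
  | zero => simp
  | add D E hD hE => rw [Finsupp.mapDomain_add, map_add, map_add, hD, hE]
  | single P n =>
    rw [Finsupp.mapDomain_single, Divisor.degree_single, Divisor.degree_single, hdeg]

/-- The map on degree-zero divisors induced by a degree preserving map of places. -/
def redDegZero (hdeg : ∀ P, (r P).deg = P.deg) :
    Divisor.degZero (K := L) (F := F) →+ Divisor.degZero (K := k) (F := Fbar) :=
  ((Finsupp.mapDomain.addMonoidHom r).domRestrict _).codRestrict _ fun D => by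
    rw [Divisor.mem_degZero]
    show Divisor.degree (Finsupp.mapDomain r (D : Divisor L F)) = 0
    rw [degree_mapDomain_place r hdeg]
    exact D.2

@[simp]
theorem coe_redDegZero (hdeg : ∀ P, (r P).deg = P.deg)
    (D : Divisor.degZero (K := L) (F := F)) :
    (redDegZero r hdeg D : Divisor k Fbar) = Finsupp.mapDomain r (D : Divisor L F) :=
  rfl

/-- The map on `Pic⁰` induced by a map of places preserving degrees and principal divisors. -/
def redPic0 (hdeg : ∀ P, (r P).deg = P.deg)
    (hprin : ∀ D ∈ Divisor.principal (K := L) (F := F),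
      Finsupp.mapDomain r D ∈ Divisor.principal (K := k) (F := Fbar)) :
    Pic0 L F →+ Pic0 k Fbar :=
  QuotientAddGroup.map _ _ (redDegZero r hdeg) (by
    rintro ⟨D, hD0⟩ hD
    simp only [AddSubgroup.mem_addSubgroupOf] at hD ⊢
    exact hprin D hD)

theorem redPic0_mk (hdeg : ∀ P, (r P).deg = P.deg)
    (hprin : ∀ D ∈ Divisor.principal (K := L) (F := F),
      Finsupp.mapDomain r D ∈ Divisor.principal (K := k) (F := Fbar))
    (D : Divisor.degZero (K := L) (F := F)) :
    redPic0 r hdeg hprin (Pic0.mk D) = Pic0.mk (redDegZero r hdeg D) :=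
  rfl

variable {r}

theorem mapDomain_place_smul {g : SemilinearAut L F} {gbar : SemilinearAut k Fbar}
    (hg : ∀ P, r (g • P) = gbar • r P) (D : Divisor L F) :
    Finsupp.mapDomain r (g • D) = gbar • Finsupp.mapDomain r D := by
  rw [SemilinearAut.divisor_smul_def, SemilinearAut.divisor_smul_def,
    ← Finsupp.mapDomain_comp, ← Finsupp.mapDomain_comp]
  congr 1
  funext P
  exact hg P

/-- Equivariance on places gives equivariance on `Pic⁰`. -/
theorem redPic0_smul (hdeg : ∀ P, (r P).deg = P.deg)
    (hprin : ∀ D ∈ Divisor.principal (K := L) (F := F),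
      Finsupp.mapDomain r D ∈ Divisor.principal (K := k) (F := Fbar))
    {g : SemilinearAut L F} {gbar : SemilinearAut k Fbar}
    (hg : ∀ P, r (g • P) = gbar • r P) (x : Pic0 L F) :
    redPic0 r hdeg hprin (g • x) = gbar • redPic0 r hdeg hprin x := by
  obtain ⟨D, rfl⟩ := Pic0.mk_surjective x
  rw [SemilinearAut.pic0_smul_mk, redPic0_mk, redPic0_mk, SemilinearAut.pic0_smul_mk]
  refine congrArg Pic0.mk (Subtype.ext ?_)
  rw [coe_redDegZero, SemilinearAut.coe_degZeroSMulHom, SemilinearAut.coe_degZeroSMulHom,
    coe_redDegZero]
  exact mapDomain_place_smul hg _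

theorem mapDomain_congruence {T : Divisor L F →+ Divisor L F} {gbar : SemilinearAut k Fbar}
    {ℓ : ℕ}
    (hT : ∀ P : Place L F, Finsupp.mapDomain r (T (Finsupp.single P 1)) =
      Finsupp.single (gbar • r P) 1 + Finsupp.single (gbar⁻¹ • r P) (ℓ : ℤ))
    (D : Divisor L F) :
    Finsupp.mapDomain r (T D) =
      gbar • Finsupp.mapDomain r D + (ℓ : ℤ) • (gbar⁻¹ • Finsupp.mapDomain r D) := by
  induction D using Finsupp.induction_linear with
  | zero => simp
  | add D E hD hE =>
    rw [map_add, Finsupp.mapDomain_add, hD, hE, Finsupp.mapDomain_add, smul_add, smul_add,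
      smul_add]
    abel
  | single P n =>
    have h1 : (Finsupp.single P n : Divisor L F) = n • Finsupp.single P 1 := by
      rw [Finsupp.smul_single, smul_eq_mul, mul_one]
    rw [h1, map_zsmul, Finsupp.mapDomain_smul, hT P, Finsupp.mapDomain_smul,
      Finsupp.mapDomain_single, smul_add, Finsupp.smul_single, Finsupp.smul_single,
      Finsupp.smul_single, SemilinearAut.smul_single, SemilinearAut.smul_single,
      Finsupp.smul_single]
    simp only [smul_eq_mul, mul_one]
    rw [mul_comm]

end RedPic0

section Isolation

variable {X Y : Type*} (r : X → Y)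

/-- **E6, the isolation principle.**  Let `δ` be an additive map from divisors on `X` to divisors
on `Y` (in the applications `δ = r_* ∘ τ - τbar ∘ r_*`) which vanishes on a set `PP` of divisors.
Suppose that for every point `P` the value `δ (single P 1)` is supported in a finite set
`Supp P`, that for every `P₁` there is a finite set `S` of points of `Y` such that
`Supp P'` is disjoint from `Supp P₁` whenever `r P' ∉ S`, and that every `P₁` can be isolated with
respect to every finite `S` by an element of `PP` (a divisor in `PP` with multiplicity one at `P₁`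
all of whose other points `P'` satisfy `r P' ∉ S`).  Then `δ = 0`. -/
theorem eq_zero_of_isolation (δ : (X →₀ ℤ) →+ (Y →₀ ℤ)) (PP : Set (X →₀ ℤ))
    (hPP : ∀ D ∈ PP, δ D = 0)
    (Supp : X → Finset Y)
    (hSupp : ∀ P, ((δ (Finsupp.single P 1)).support : Set Y) ⊆ Supp P)
    (hloc : ∀ P₁, ∃ S : Finset Y, ∀ P', r P' ∉ S → Disjoint (Supp P') (Supp P₁))
    (hiso : ∀ P₁, ∀ S : Finset Y, ∃ D ∈ PP, D P₁ = 1 ∧ ∀ P', P' ≠ P₁ → D P' ≠ 0 → r P' ∉ S)
    (D : X →₀ ℤ) : δ D = 0 := by
  classical
  have key : ∀ P₁, δ (Finsupp.single P₁ 1) = 0 := by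
    intro P₁
    obtain ⟨S, hS⟩ := hloc P₁
    obtain ⟨E, hEPP, hE1, hE⟩ := hiso P₁ S
    have hE0 := hPP E hEPP
    -- decompose `E = single P₁ 1 + E'`
    set E' : X →₀ ℤ := E.erase P₁ with hE'
    have hdec : E = Finsupp.single P₁ 1 + E' := by
      rw [hE', ← hE1, Finsupp.single_add_erase]
    rw [hdec, map_add] at hE0
    -- the support of `δ E'` is disjoint from `Supp P₁`
    have hsupp' : ∀ Q ∈ (δ E').support, Q ∉ Supp P₁ := by
      intro Q hQ hQ1
      have hsum : δ E' = E'.sum fun P n => n • δ (Finsupp.single P 1) := by
        conv_lhs => rw [← Finsupp.sum_single E']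
        rw [Finsupp.sum, map_sum, Finsupp.sum]
        refine Finset.sum_congr rfl fun P _ => ?_
        rw [← map_zsmul, Finsupp.smul_single, smul_eq_mul, mul_one]
      rw [hsum, Finsupp.sum] at hQ
      have hQ' := Finsupp.support_finsetSum hQ
      rw [Finset.mem_biUnion] at hQ'
      obtain ⟨P', hP', hQP'⟩ := hQ'
      have hP'ne : P' ≠ P₁ := by
        rintro rfl
        rw [hE', Finsupp.mem_support_iff, Finsupp.erase_same] at hP'
        exact hP' rfl
      have hEP' : E P' ≠ 0 := by
        rw [hE', Finsupp.mem_support_iff, Finsupp.erase_ne hP'ne] at hP'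
        exact hP'
      have hQP'' : Q ∈ (δ (Finsupp.single P' 1)).support :=
        Finsupp.support_smul hQP'
      have hdisj := hS P' (hE P' hP'ne hEP')
      exact (Finset.disjoint_left.mp hdisj) (hSupp P' hQP'') hQ1
    ext Q
    rw [Finsupp.zero_apply]
    by_contra hQ
    have hQ1 : Q ∈ (δ (Finsupp.single P₁ 1)).support := Finsupp.mem_support_iff.mpr hQ
    have hQ2 : Q ∈ (δ E').support := by
      rw [Finsupp.mem_support_iff]
      intro h0
      have := congrArg (fun f => f Q) hE0
      simp only [Finsupp.add_apply, Finsupp.zero_apply, h0, add_zero] at this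
      exact hQ this
    exact hsupp' Q hQ2 (hSupp P₁ hQ1)
  induction D using Finsupp.induction_linear with
  | zero => exact map_zero δ
  | add D E hD hE => rw [map_add, hD, hE, add_zero]
  | single P n =>
    have h1 : (Finsupp.single P n : X →₀ ℤ) = n • Finsupp.single P 1 := by
      rw [Finsupp.smul_single, smul_eq_mul, mul_one]
    rw [h1, map_zsmul, key, smul_zero]

end Isolation

end Fermat.Agent.H36

end
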