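import Fermat.Prelude.Def_ModularCurve_ReductionModL

/-!
# P-ES / ES-E (E2): coefficientwise automorphisms of the function field in characteristic `ℓ`

For a field `k`, every ring automorphism `τ` of `k` acts on `k((q))` coefficientwise and preserves
the function field `modularFunctionFieldFullC k N = k(j(q^d) : d ∣ N)`, because the generators
have coefficients in the prime ring.  This gives a group homomorphism
`coeffAutC N : (k ≃+* k) →* SemilinearAut k (modularFunctionFieldFullC k N)`, hence actions of
`k ≃+* k` on places, divisors and `Pic⁰` (the prelude instances for `SemilinearAut`).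

We also record the automorphism of the residue field of a valuation subring `A` of `L` induced
by an element of the decomposition group.
-/

set_option autoImplicit false

noncomputable section

namespace Fermat.Agent.H36

open ModularCurve AlgebraicCurve HahnSeries IntermediateField

section CoeffAut

variable {k : Type*} [Field k] (N : ℕ)

theorem mem_modularFunctionFieldFullC_iff {x : LaurentSeries k} :
    x ∈ modularFunctionFieldFullC k N ↔
      x ∈ Subfield.closure
        (Set.range (algebraMap k (LaurentSeries k)) ∪ divisorExpansionsC k N) :=
  Iff.rfl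

/-- Coefficientwise ring homomorphisms fix the generators `j(q^d)`. -/
theorem coeffMap_mem_divisorExpansionsC (f : k →+* k) {x : LaurentSeries k}
    (hx : x ∈ divisorExpansionsC k N) : coeffMap f x = x := by
  obtain ⟨d, hd, -, rfl⟩ := hx
  have := hd
  rw [coeffMap_qExpand, coeffMap_jqModC]

theorem coeffMap_mem_modularFunctionFieldFullC (f : k →+* k) {x : LaurentSeries k}
    (hx : x ∈ modularFunctionFieldFullC k N) :
    coeffMap f x ∈ modularFunctionFieldFullC k N := by
  rw [mem_modularFunctionFieldFullC_iff] at hx
  induction hx using Subfield.closure_induction with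
  | mem y hy =>
      rcases hy with ⟨a, rfl⟩ | hy
      · rw [coeffMap_algebraMap]
        exact (modularFunctionFieldFullC k N).algebraMap_mem _
      · rw [coeffMap_mem_divisorExpansionsC N f hy]
        exact IntermediateField.subset_adjoin k _ hy
  | one => simp
  | add x y _ _ hx hy => simpa using add_mem hx hy
  | neg x _ hx => simpa using neg_mem hx
  | inv x _ hx => simpa using inv_mem hx
  | mul x y _ _ hx hy => simpa using mul_mem hx hy

/-- The coefficientwise action of `τ : k ≃+* k` on the function field, as a ring automorphism. -/
def coeffRingAutC (τ : k ≃+* k) :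
    modularFunctionFieldFullC k N ≃+* modularFunctionFieldFullC k N where
  toFun x := ⟨coeffMap (τ : k →+* k) (x : LaurentSeries k),
    coeffMap_mem_modularFunctionFieldFullC N _ x.2⟩
  invFun x := ⟨coeffMap (τ.symm : k →+* k) (x : LaurentSeries k),
    coeffMap_mem_modularFunctionFieldFullC N _ x.2⟩
  left_inv x := Subtype.ext <| by
    show coeffMap (τ.symm : k →+* k) (coeffMap (τ : k →+* k) (x : LaurentSeries k))
      = (x : LaurentSeries k)
    rw [coeffMap_coeffMap,
      coeffMap_congr (g := RingHom.id k) (RingHom.ext fun a => τ.symm_apply_apply a)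
        (x : LaurentSeries k),
      coeffMap_id]
  right_inv x := Subtype.ext <| by
    show coeffMap (τ : k →+* k) (coeffMap (τ.symm : k →+* k) (x : LaurentSeries k))
      = (x : LaurentSeries k)
    rw [coeffMap_coeffMap,
      coeffMap_congr (g := RingHom.id k) (RingHom.ext fun a => τ.apply_symm_apply a)
        (x : LaurentSeries k),
      coeffMap_id]
  map_mul' x y :=
    Subtype.ext (map_mul (coeffMap (τ : k →+* k)) (x : LaurentSeries k) (y : LaurentSeries k))
  map_add' x y :=
    Subtype.ext (map_add (coeffMap (τ : k →+* k)) (x : LaurentSeries k) (y : LaurentSeries k))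

@[simp]
theorem coe_coeffRingAutC_apply (τ : k ≃+* k) (x : modularFunctionFieldFullC k N) :
    (coeffRingAutC N τ x : LaurentSeries k) = coeffMap (τ : k →+* k) (x : LaurentSeries k) :=
  rfl

theorem coeffRingAutC_algebraMap (τ : k ≃+* k) (a : k) :
    coeffRingAutC N τ (algebraMap k (modularFunctionFieldFullC k N) a)
      = algebraMap k (modularFunctionFieldFullC k N) (τ a) :=
  Subtype.ext (coeffMap_algebraMap (τ : k →+* k) a)

/-- **E2.** The coefficientwise action of the automorphism group of `k` on the function field
`k(j(q^d) : d ∣ N)`, as semilinear automorphisms. -/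
def coeffAutC : (k ≃+* k) →* SemilinearAut k (modularFunctionFieldFullC k N) where
  toFun τ := ⟨(coeffRingAutC N τ, τ), fun a => coeffRingAutC_algebraMap N τ a⟩
  map_one' := by
    refine Subtype.ext (Prod.ext (RingEquiv.ext fun x => Subtype.ext ?_) rfl)
    show coeffMap (((1 : k ≃+* k)) : k →+* k) (x : LaurentSeries k) = (x : LaurentSeries k)
    rw [show (((1 : k ≃+* k)) : k →+* k) = RingHom.id k from RingHom.ext fun _ => rfl,
      coeffMap_id]
  map_mul' σ τ := by
    refine Subtype.ext (Prod.ext (RingEquiv.ext fun x => Subtype.ext ?_) rfl)
    show coeffMap ((σ * τ : k ≃+* k) : k →+* k) (x : LaurentSeries k)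
      = coeffMap (σ : k →+* k) (coeffMap (τ : k →+* k) (x : LaurentSeries k))
    rw [coeffMap_coeffMap]
    exact coeffMap_congr (RingHom.ext fun _ => rfl) _

@[simp]
theorem toRingAut_coeffAutC (τ : k ≃+* k) :
    SemilinearAut.toRingAut (coeffAutC N τ) = coeffRingAutC N τ :=
  rfl

@[simp]
theorem baseAut_coeffAutC (τ : k ≃+* k) :
    SemilinearAut.baseAut (coeffAutC N τ) = τ :=
  rfl

theorem coe_coeffAutC_smul (τ : k ≃+* k) (x : modularFunctionFieldFullC k N) :
    ((coeffAutC N τ • x : modularFunctionFieldFullC k N) : LaurentSeries k)
      = coeffMap (τ : k →+* k) (x : LaurentSeries k) :=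
  rfl

end CoeffAut

section ResidueAut

variable {K L : Type*} [Field K] [Field L] [Algebra K L] (A : ValuationSubring L)

/-- The automorphism of the residue field of `A` induced by an element of the decomposition
group of `A`. -/
def residueAut : A.decompositionSubgroup K →* (IsLocalRing.ResidueField A ≃+* IsLocalRing.ResidueField A) :=
  MulSemiringAction.toRingAut (A.decompositionSubgroup K) (IsLocalRing.ResidueField A)

@[simp]
theorem residueAut_apply (σ : A.decompositionSubgroup K) (x : IsLocalRing.ResidueField A) :
    residueAut (K := K) A σ x = σ • x :=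
  rfl

end ResidueAut

end Fermat.Agent.H36

end
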