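import Fermat.Prelude.Def_HeckeGalois_EichlerShimura

/-!
# P-ES / ES-E: the formal part of the Eichler–Shimura specialization (`S37`)

`SpecializationExists` (prelude) asks, for every prime `ℓ ∤ N p` and every place `A` over `ℓ`,
for a `HeckeAlg`-module `J'`, a homomorphism `sp : J → J'` and an endomorphism `F` of `J'` with
Hecke/inertia/Frobenius compatibility, injectivity on `p`-power torsion and
`F² - T_ℓ F + ℓ = 0`.

Here we show that all of this follows *formally* from a **reduction datum**: a homomorphism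
`red : J → J₀` to any abelian group with an endomorphism `frob` having a left inverse `ver`, such
that `red` is inertia invariant, turns Frobenius elements into `frob`, satisfies the congruence
relation `red (T_ℓ x) = frob (red x) + ℓ • ver (red x)` and is injective on `p`-power torsion.
No Hecke-module structure on `J₀` is needed: `J'` is the quotient of `J` by the largest
`HeckeAlg`-submodule contained in the kernel of `red`.
-/

set_option autoImplicit false

namespace Fermat.Agent.H36

open ModularCurve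

section Formal

variable {K L : Type*} [Field K] [Field L] [Algebra K L]
variable (p : ℕ) (J : Type*) [AddCommGroup J] [Module HeckeAlg J]
  [DistribMulAction (L ≃ₐ[K] L) J] [SMulCommClass (L ≃ₐ[K] L) HeckeAlg J]

/-- A reduction datum at the place `A` over `ℓ` (see the module docstring). -/
structure ReductionDatum (A : ValuationSubring L) (ℓ : ℕ) (hℓ : ℓ.Prime)
    (J₀ : Type*) [AddCommGroup J₀] where
  /-- the reduction map -/
  red : J →+ J₀
  /-- the Frobenius on the reduction -/
  frob : J₀ →+ J₀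
  /-- a left inverse of the Frobenius -/
  ver : J₀ →+ J₀
  ver_frob : ∀ y : J₀, ver (frob y) = y
  red_inertia : ∀ σ ∈ A.inertiaSubgroupIn K, ∀ x : J, red (σ • x) = red x
  red_frobenius : ∀ σ : L ≃ₐ[K] L, A.IsFrobeniusAt σ ℓ → ∀ x : J, red (σ • x) = frob (red x)
  red_hecke : ∀ x : J, red (heckeGen ⟨ℓ, hℓ⟩ • x) = frob (red x) + ℓ • ver (red x)
  red_injective : ∀ x : J, (∃ n : ℕ, p ^ n • x = 0) → red x = 0 → x = 0

variable {p J}

/-- The largest `HeckeAlg`-submodule contained in the kernel of an additive map. -/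
def heckeCore {J₀ : Type*} [AddCommGroup J₀] (red : J →+ J₀) : Submodule HeckeAlg J where
  carrier := {x | ∀ t : HeckeAlg, red (t • x) = 0}
  zero_mem' := fun t => by rw [smul_zero, map_zero]
  add_mem' := by
    intro x y hx hy t
    rw [smul_add, map_add, hx t, hy t, add_zero]
  smul_mem' := by
    intro c x hx t
    rw [smul_smul]
    exact hx (t * c)

theorem mem_heckeCore {J₀ : Type*} [AddCommGroup J₀] (red : J →+ J₀) (x : J) :
    x ∈ heckeCore red ↔ ∀ t : HeckeAlg, red (t • x) = 0 := Iff.rfl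

theorem red_eq_zero_of_mem_heckeCore {J₀ : Type*} [AddCommGroup J₀] (red : J →+ J₀) {x : J}
    (hx : x ∈ heckeCore red) : red x = 0 := by
  have := hx 1
  rwa [one_smul] at this

end Formal

section Main

variable {K L : Type*} [Field K] [Field L] [Algebra K L]
variable {p : ℕ} {J : Type} [AddCommGroup J] [Module HeckeAlg J]
  [DistribMulAction (L ≃ₐ[K] L) J] [SMulCommClass (L ≃ₐ[K] L) HeckeAlg J]

/-- **ES-E, formal part.**  A reduction datum at `A` together with the existence of a Frobenius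
element at `A` yields the specialization data required by `SpecializationExists`. -/
theorem exists_specialization_of_reductionDatum {A : ValuationSubring L} {ℓ : ℕ} {hℓ : ℓ.Prime}
    {J₀ : Type*} [AddCommGroup J₀] (D : ReductionDatum (K := K) p J A ℓ hℓ J₀)
    (hF : ∃ σ : L ≃ₐ[K] L, A.IsFrobeniusAt σ ℓ) :
    ∃ (J' : Type) (_ : AddCommGroup J') (_ : Module HeckeAlg J') (sp : J →+ J')
      (F : J' →+ J'),
      IsSpecialization (K := K) p J J' A ℓ sp F ∧ SpecialFibreRelation J' ℓ hℓ F := by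
  classical
  have : SMulCommClass HeckeAlg (L ≃ₐ[K] L) J := SMulCommClass.symm _ _ _
  obtain ⟨σ₀, hσ₀⟩ := hF
  set C : Submodule HeckeAlg J := heckeCore D.red with hC
  -- the action of `σ₀` as an additive endomorphism of `J`
  let s₀ : J →+ J := DistribSMul.toAddMonoidHom J σ₀
  have hs₀ : ∀ x, s₀ x = σ₀ • x := fun _ => rfl
  have hσC : ∀ x ∈ C, σ₀ • x ∈ C := by
    intro x hx t
    rw [smul_comm t σ₀ x, D.red_frobenius σ₀ hσ₀, hx t, map_zero]
  -- `F` is induced by `σ₀`
  let F : (J ⧸ C) →+ (J ⧸ C) :=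
    QuotientAddGroup.map C.toAddSubgroup C.toAddSubgroup s₀ (fun x hx => hσC x hx)
  have hFmk : ∀ x : J, F (Submodule.Quotient.mk x) = Submodule.Quotient.mk (σ₀ • x) :=
    fun x => rfl
  let sp : J →+ (J ⧸ C) := (C.mkQ : J →ₗ[HeckeAlg] J ⧸ C).toAddMonoidHom
  have hsp : ∀ x : J, sp x = Submodule.Quotient.mk x := fun _ => rfl
  have hsp0 : ∀ x : J, sp x = 0 ↔ x ∈ C := fun x => by
    rw [hsp]; exact Submodule.Quotient.mk_eq_zero C
  refine ⟨J ⧸ C, inferInstance, inferInstance, sp, F, ⟨?_, ?_, ?_, ?_⟩, ?_⟩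
  · -- Hecke
    intro T x
    rfl
  · -- inertia
    intro σ hσ x
    rw [← sub_eq_zero, ← map_sub, hsp0]
    intro t
    rw [smul_sub, smul_comm t σ x, map_sub, D.red_inertia σ hσ, sub_self]
  · -- Frobenius
    intro σ hσ x
    rw [hsp x, hFmk, ← hsp, ← sub_eq_zero, ← map_sub, hsp0]
    intro t
    rw [smul_sub, smul_comm t σ x, smul_comm t σ₀ x, map_sub, D.red_frobenius σ hσ,
      D.red_frobenius σ₀ hσ₀, sub_self]
  · -- injectivity on torsion
    intro x hx hx0
    rw [hsp0] at hx0
    exact D.red_injective x hx (red_eq_zero_of_mem_heckeCore D.red hx0)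
  · -- the quadratic relation
    intro y
    obtain ⟨x, rfl⟩ := Submodule.Quotient.mk_surjective C y
    rw [hFmk, hFmk]
    have h1 : (heckeGen ⟨ℓ, hℓ⟩ • (Submodule.Quotient.mk (σ₀ • x) : J ⧸ C)) =
        Submodule.Quotient.mk (heckeGen ⟨ℓ, hℓ⟩ • (σ₀ • x)) := rfl
    have h2 : (ℓ • (Submodule.Quotient.mk x : J ⧸ C)) = Submodule.Quotient.mk (ℓ • x) := rfl
    rw [h1, h2, ← Submodule.Quotient.mk_sub, ← Submodule.Quotient.mk_add,
      Submodule.Quotient.mk_eq_zero]
    intro t
    have e1 : t • (σ₀ • σ₀ • x - heckeGen ⟨ℓ, hℓ⟩ • σ₀ • x + ℓ • x) =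
        σ₀ • σ₀ • (t • x) - heckeGen ⟨ℓ, hℓ⟩ • σ₀ • (t • x) + ℓ • (t • x) := by
      rw [smul_add, smul_sub, smul_comm t σ₀ (σ₀ • x), smul_comm t σ₀ x,
        smul_comm t (heckeGen ⟨ℓ, hℓ⟩) (σ₀ • x), smul_comm t σ₀ x, smul_comm t ℓ x]
    rw [e1, map_add, map_sub, D.red_frobenius σ₀ hσ₀, D.red_frobenius σ₀ hσ₀, D.red_hecke,
      D.red_frobenius σ₀ hσ₀, D.ver_frob, map_nsmul]
    abel

end Main

end Fermat.Agent.H36
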