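import Fermat.Prelude.Def_ModularCurve_HeckeModule
import Fermat.Agent.H36.ESE.Formal
import Fermat.Agent.H53.FrobeniusExists

/-!
# P-ES / ES-E: `S37` from reduction data

`S37` (`SpecializationExists` for `JZero N`) follows from the existence, for every prime
`ℓ ∤ N p` and every place `A` of `ℚ̄` over `ℓ`, of a `JZeroReductionDatum`: a reduction map
`red : JZero N →+ J₀` to some abelian group carrying an endomorphism `frob` with a left inverse
`ver`, which is inertia invariant, Frobenius equivariant, satisfies the Eichler–Shimura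
congruence relation `red (T_ℓ x) = frob (red x) + ℓ • ver (red x)` for the prelude Hecke operator
`heckeOperatorBar N ℓ`, and is injective on `p`-power torsion.

The statement `ReductionDataStatement N p` mentions neither the `HeckeAlg`-module structure nor
the commutativity hypothesis of `S37`; those enter only in the formal assembly below.
-/

set_option autoImplicit false

namespace Fermat.Agent.H36

open ModularCurve

/-- A reduction datum for `J₀(N)` at the place `A` of `ℚ̄` over `ℓ`, stated with the prelude
Hecke operator `heckeOperatorBar N ℓ` (no `HeckeAlg`-module structure involved). -/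
structure JZeroReductionDatum (N p : ℕ) [NeZero N]
    (A : ValuationSubring (AlgebraicClosure ℚ)) (ℓ : ℕ) (hℓ : ℓ.Prime)
    (J₀ : Type) [AddCommGroup J₀] where
  /-- the reduction map -/
  red : JZero N →+ J₀
  /-- the Frobenius on the reduction -/
  frob : J₀ →+ J₀
  /-- a left inverse of the Frobenius -/
  ver : J₀ →+ J₀
  ver_frob : ∀ y : J₀, ver (frob y) = y
  red_inertia : ∀ σ ∈ A.inertiaSubgroupIn ℚ, ∀ x : JZero N, red (σ • x) = red x
  red_frobenius : ∀ σ : AlgebraicClosure ℚ ≃ₐ[ℚ] AlgebraicClosure ℚ,
    A.IsFrobeniusAt σ ℓ → ∀ x : JZero N, red (σ • x) = frob (red x)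
  red_hecke : ∀ x : JZero N,
    red (heckeOperatorBar N ⟨ℓ, hℓ⟩ x) = frob (red x) + ℓ • ver (red x)
  red_injective : ∀ x : JZero N, (∃ n : ℕ, p ^ n • x = 0) → red x = 0 → x = 0

/-- The hypothesis of the final assembly of `S37`: reduction data exist at all good places. -/
def ReductionDataStatement (N p : ℕ) [NeZero N] : Prop :=
  ∀ ℓ : ℕ, (hℓ : ℓ.Prime) → ¬ ℓ ∣ N * p →
    ∀ A : ValuationSubring (AlgebraicClosure ℚ), A.LiesOverPrime ℓ →
      ∃ (J₀ : Type) (_ : AddCommGroup J₀), Nonempty (JZeroReductionDatum N p A ℓ hℓ J₀)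

/-- A `JZeroReductionDatum` is a `ReductionDatum` for the prelude Hecke module structure, as
soon as the Hecke operators commute. -/
def JZeroReductionDatum.toReductionDatum {N p : ℕ} [NeZero N]
    (hcomm : HeckeOperatorsCommuteBar N)
    {A : ValuationSubring (AlgebraicClosure ℚ)} {ℓ : ℕ} {hℓ : ℓ.Prime}
    {J₀ : Type} [AddCommGroup J₀] (D : JZeroReductionDatum N p A ℓ hℓ J₀) :
    letI := heckeModuleBar N
    ∀ (_ : SMulCommClass (AlgebraicClosure ℚ ≃ₐ[ℚ] AlgebraicClosure ℚ) HeckeAlg (JZero N)),
      ReductionDatum (K := ℚ) p (JZero N) A ℓ hℓ J₀ :=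
  letI := heckeModuleBar N
  fun _ =>
    { red := D.red
      frob := D.frob
      ver := D.ver
      ver_frob := D.ver_frob
      red_inertia := D.red_inertia
      red_frobenius := D.red_frobenius
      red_hecke := fun x => by
        rw [heckeModuleBar_heckeGen_smul hcomm]
        exact D.red_hecke x
      red_injective := D.red_injective }

/-- **ES-E assembly**: `S37` from reduction data. -/
theorem specializationExists_of_reductionData (N p : ℕ) [NeZero N]
    (hcomm : HeckeOperatorsCommuteBar N) (h : ReductionDataStatement N p) :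
    letI := ModularCurve.heckeModuleBar N
    ∀ (_ : SMulCommClass (AlgebraicClosure ℚ ≃ₐ[ℚ] AlgebraicClosure ℚ) ModularCurve.HeckeAlg
      (ModularCurve.JZero N)),
      ModularCurve.SpecializationExists (K := ℚ) (L := AlgebraicClosure ℚ) N p
        (ModularCurve.JZero N) := by
  letI := ModularCurve.heckeModuleBar N
  intro hSC ℓ hℓ hℓNp A hA
  obtain ⟨J₀, _, ⟨D⟩⟩ := h ℓ hℓ hℓNp A hA
  exact exists_specialization_of_reductionDatum (D.toReductionDatum hcomm hSC)
    (Fermat.Agent.H53.exists_isFrobeniusAt_algebraicClosure hℓ A hA)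

end Fermat.Agent.H36
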