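import Fermat.Prelude.Def_ModularCurve_HeckeModule
import Fermat.Prelude.Def_ModularCurve_ReductionModL
import Fermat.Agent.H36.ESE.CoeffAut
import Fermat.Agent.H36.ESE.Abstract
import Fermat.Agent.H36.ESE.S37Formal

/-!
# P-ES / ES-E (E9): assembly of the reduction datum for `J₀(N)`

We construct a `JZeroReductionDatum` (hence, by `specializationExists_of_reductionData`, the
statement `S37`) from

* `h : ReductionInputsModL A N` (ES-D: a place reduction map `r` exists),
* injectivity of `reductionModL A N` on prime-to-`ℓ` torsion (ES-D: this is `S18`),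
* `HeckeInputsAlong ℚ̄ N ℓ` (ES-C),
* `GaloisEquivariantAt`: `r (σ P) = σ̄ (r P)` for `σ` in the decomposition group (ES-E, E8),
* `CongruenceRelation`: `r_* (T_ℓ P) = φ (r P) + ℓ φ⁻¹ (r P)` as divisors, where `φ`
  is the Frobenius automorphism of the residue field acting on coefficients (ES-E, E7).

The statements are formulated for a general residue map `π : A →+* k`, as in the prelude
(`IsPlaceReductionAlong`), and specialised to `k = IsLocalRing.ResidueField A` only at the end.
-/

set_option autoImplicit false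

noncomputable section

namespace Fermat.Agent.H36

open ModularCurve AlgebraicCurve HahnSeries IntermediateField

section Statements

variable {L : Type*} [Field L] [Algebra ℚ L]
variable {k : Type*} [Field k] (N : ℕ)

/-- **E8 (statement at one automorphism).** The place reduction map `r` intertwines the
coefficientwise action of `σ` on the places of `L(X₀(N))` with the coefficientwise action of
`σ̄` on the places of `k(X₀(N))`. -/
def GaloisEquivariantAt
    (r : Place L (laurentBaseChange L (modularFunctionFieldFull N)) →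
      Place k (modularFunctionFieldFullC k N))
    (σ : L ≃ₐ[ℚ] L) (σbar : k ≃+* k) : Prop :=
  ∀ P : Place L (laurentBaseChange L (modularFunctionFieldFull N)),
    r (arithmeticGalois (modularFunctionFieldFull N) σ • P) = coeffAutC N σbar • r P

/-- **E7 (statement at one place reduction map).** The Eichler–Shimura congruence relation on
places: `r_* (T_ℓ P) = φ (r P) + ℓ • φ⁻¹ (r P)`, where `T_ℓ = heckeDivBar` is the prelude
Hecke correspondence on divisors and `φ` acts through the coefficients. -/
def CongruenceRelation [NeZero N] (ℓ : ℕ) [NeZero ℓ]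
    (r : Place L (laurentBaseChange L (modularFunctionFieldFull N)) →
      Place k (modularFunctionFieldFullC k N))
    (φ : k ≃+* k) : Prop :=
  ∀ (hα : HeckeAlphaBarIntegral L N ℓ) (hβ : HeckeBetaBarIntegral L N ℓ)
    [HasPrincipalDivisors L (laurentBaseChange L (modularFunctionFieldFull (N * ℓ)))]
    (P : Place L (laurentBaseChange L (modularFunctionFieldFull N))),
    Finsupp.mapDomain r (heckeDivBar hα hβ (Finsupp.single P 1)) =
      Finsupp.single (coeffAutC N φ • r P) 1 +
        Finsupp.single ((coeffAutC N φ)⁻¹ • r P) (ℓ : ℤ)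

end Statements

section General

variable {L : Type*} [Field L] [Algebra ℚ L] {A : ValuationSubring L}
variable {k : Type*} [Field k] {π : A →+* k} {N : ℕ}
variable {r : Place L (laurentBaseChange L (modularFunctionFieldFull N)) →
      Place k (modularFunctionFieldFullC k N)}

theorem reductionPic0Along_eq_redPic0 (hr : IsPlaceReductionAlong A π N r)
    (hgen : PrincipalGeneratedByIntegral A π N) :
    reductionPic0Along r hr hgen =
      redPic0 r hr.1 (fun _ hD => hr.mapDomain_mem_principal hgen hD) :=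
  rfl

theorem reductionPic0Along_galois (hr : IsPlaceReductionAlong A π N r)
    (hgen : PrincipalGeneratedByIntegral A π N) {σ : L ≃ₐ[ℚ] L} {σbar : k ≃+* k}
    (hgal : GaloisEquivariantAt N r σ σbar)
    (x : Pic0 L (laurentBaseChange L (modularFunctionFieldFull N))) :
    reductionPic0Along r hr hgen (σ • x) = coeffAutC N σbar • reductionPic0Along r hr hgen x := by
  rw [reductionPic0Along_eq_redPic0, galois_smul_pic0_def]
  exact redPic0_smul _ _ hgal x

set_option maxHeartbeats 1600000 in
theorem reductionPic0Along_hecke [NeZero N] {ℓ : ℕ} [NeZero ℓ]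
    (hr : IsPlaceReductionAlong A π N r)
    (hgen : PrincipalGeneratedByIntegral A π N) {φ : k ≃+* k}
    (hcong : CongruenceRelation N ℓ r φ) (hH : HeckeInputsAlong L N ℓ)
    (x : Pic0 L (laurentBaseChange L (modularFunctionFieldFull N))) :
    reductionPic0Along r hr hgen (heckeOperatorAlong L N ℓ x) =
      coeffAutC N φ • reductionPic0Along r hr hgen x +
        ℓ • ((coeffAutC N φ)⁻¹ • reductionPic0Along r hr hgen x) := by
  obtain ⟨hα, hβ, hP, hfin, hFI, hNF⟩ := hH
  rw [heckeOperatorAlong_eq hα hβ hFI hfin hNF]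
  obtain ⟨D, rfl⟩ := Pic0.mk_surjective x
  have e1 : heckePic0Bar hα hβ hFI hfin hNF (Pic0.mk D) =
      Pic0.mk (Pic0.degZeroCorrespondence (heckeBetaBar L N ℓ) (heckeAlphaBar L N ℓ) hβ hα
        hFI D) := rfl
  have e2 : ((Pic0.degZeroCorrespondence (heckeBetaBar L N ℓ) (heckeAlphaBar L N ℓ) hβ hα
        hFI D : Divisor.degZero (K := L) (F := laurentBaseChange L (modularFunctionFieldFull N)))
        : Divisor L (laurentBaseChange L (modularFunctionFieldFull N))) =
      heckeDivBar hα hβ (D : Divisor L (laurentBaseChange L (modularFunctionFieldFull N))) :=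
    rfl
  rw [e1, reductionPic0Along_mk, reductionPic0Along_mk,
    SemilinearAut.pic0_smul_mk, SemilinearAut.pic0_smul_mk]
  have hmk : ∀ (n : ℕ) (E : Divisor.degZero (K := k) (F := modularFunctionFieldFullC k N)),
      n • Pic0.mk E = Pic0.mk (n • E) := fun n E => rfl
  rw [hmk, ← Pic0.mk_add]
  refine congrArg Pic0.mk (Subtype.ext ?_)
  rw [coe_reductionDegZeroAlong, e2, AddSubgroup.coe_add,
    AddSubgroup.coe_nsmul, SemilinearAut.coe_degZeroSMulHom, SemilinearAut.coe_degZeroSMulHom,
    coe_reductionDegZeroAlong]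
  have := mapDomain_congruence (r := r) (T := heckeDivBar hα hβ) (gbar := coeffAutC N φ)
    (ℓ := ℓ) (fun P => hcong hα hβ P) (D : Divisor L _)
  rw [natCast_zsmul] at this
  exact this

end General

section ModL

set_option synthInstance.maxHeartbeats 400000

variable (A : ValuationSubring (AlgebraicClosure ℚ)) (N : ℕ)

/-- The conclusion of `S18` for all `m` prime to `ℓ` (ES-D). -/
def TorsionInjective (ℓ : ℕ) : Prop :=
  ∀ (m : ℕ), ¬ ℓ ∣ m → ∀ z : JZero N, m • z = 0 → reductionModL A N z = 0 → z = 0

variable {A N}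

theorem residueAut_eq_one_of_mem_inertia {σ : AlgebraicClosure ℚ ≃ₐ[ℚ] AlgebraicClosure ℚ}
    (hσ : σ ∈ A.inertiaSubgroupIn ℚ) :
    ∃ τ : A.decompositionSubgroup ℚ, (τ : AlgebraicClosure ℚ ≃ₐ[ℚ] AlgebraicClosure ℚ) = σ ∧
      residueAut (K := ℚ) A τ = 1 := by
  obtain ⟨τ, hτ, rfl⟩ := hσ
  exact ⟨τ, rfl, hτ⟩

theorem residueAut_eq_of_isFrobeniusAt {σ : AlgebraicClosure ℚ ≃ₐ[ℚ] AlgebraicClosure ℚ} {ℓ : ℕ}
    (hσ : A.IsFrobeniusAt σ ℓ)
    {φ : IsLocalRing.ResidueField A ≃+* IsLocalRing.ResidueField A} (hφ : ∀ x, φ x = x ^ ℓ) :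
    residueAut (K := ℚ) A ⟨σ, hσ.mem_decompositionSubgroup⟩ = φ := by
  ext x
  rw [residueAut_apply, hσ.smul_residue_eq, hφ]

set_option maxHeartbeats 1600000 in
/-- **E9.** Assembly of the reduction datum at one place `A` over `ℓ`. -/
theorem jZeroReductionDatum_of_parts [NeZero N] (p : ℕ) {ℓ : ℕ} (hℓ : ℓ.Prime)
    (hℓp : ¬ ℓ ∣ N * p) (h : ReductionInputsModL A N) (hinj : TorsionInjective A N ℓ)
    (hH : haveI : NeZero ℓ := ⟨hℓ.ne_zero⟩; HeckeInputsAlong (AlgebraicClosure ℚ) N ℓ)
    (hgal : ∀ σ : A.decompositionSubgroup ℚ,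
      GaloisEquivariantAt N (placeReductionModL h)
        (σ : AlgebraicClosure ℚ ≃ₐ[ℚ] AlgebraicClosure ℚ) (residueAut (K := ℚ) A σ))
    (φ : IsLocalRing.ResidueField A ≃+* IsLocalRing.ResidueField A) (hφ : ∀ x, φ x = x ^ ℓ)
    (hcong : haveI : NeZero ℓ := ⟨hℓ.ne_zero⟩;
      CongruenceRelation N ℓ (placeReductionModL h) φ) :
    Nonempty (JZeroReductionDatum N p A ℓ hℓ (JZeroC (IsLocalRing.ResidueField A) N)) := by
  have : NeZero ℓ := ⟨hℓ.ne_zero⟩
  have hr := isPlaceReductionModL_placeReductionModL h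
  have hgen : PrincipalGeneratedByIntegral A (IsLocalRing.residue A) N := h.choose_spec.2
  have hred : reductionModL A N = reductionPic0Along (placeReductionModL h) hr hgen :=
    reductionAlong_eq h
  refine ⟨{
    red := reductionModL A N
    frob := DistribSMul.toAddMonoidHom _ (coeffAutC N φ)
    ver := DistribSMul.toAddMonoidHom _ (coeffAutC N φ)⁻¹
    ver_frob := fun y => inv_smul_smul (coeffAutC N φ) y
    red_inertia := ?_
    red_frobenius := ?_
    red_hecke := ?_
    red_injective := ?_ }⟩
  · intro σ hσ x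
    obtain ⟨τ, rfl, hτ⟩ := residueAut_eq_one_of_mem_inertia hσ
    rw [hred, reductionPic0Along_galois hr hgen (hgal τ), hτ, map_one, one_smul]
  · intro σ hσ x
    rw [hred]
    have := reductionPic0Along_galois hr hgen (hgal ⟨σ, hσ.mem_decompositionSubgroup⟩) x
    rw [residueAut_eq_of_isFrobeniusAt hσ hφ] at this
    exact this
  · intro x
    rw [hred]
    exact reductionPic0Along_hecke hr hgen hcong hH x
  · rintro x ⟨n, hn⟩ hx
    refine hinj (p ^ n) ?_ x hn hx
    intro hdvd
    exact hℓp (Dvd.dvd.mul_left (hℓ.dvd_of_dvd_pow hdvd) N)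

end ModL

end Fermat.Agent.H36

end
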