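import Fermat.Agent.H36.ESE.TorsionInterfaces
import Fermat.Agent.H42.ESEKron

/-!
# P-ES / ES-E (Q-ES): Galois action on integral Laurent series and reductions

For a valuation subring `A` of `L` and `τ` in its decomposition group we let `τ` act on
`LaurentSeries A` coefficientwise (`galSeries`).  If `τ` is a Frobenius element at `ℓ`, the
reduction of `galSeries τ y` is the coefficientwise Frobenius of the reduction of `y`.
-/

set_option autoImplicit false
set_option linter.style.haveILetI false
set_option linter.unusedSectionVars false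

noncomputable section

namespace Fermat.Agent.H36

open ModularCurve HahnSeries

section CharP

theorem charP_residueField_of_liesOver {L : Type*} [Field L] (A : ValuationSubring L)
    {ℓ : ℕ} (hℓ : ℓ.Prime) (hA : A.LiesOverPrime ℓ) :
    CharP (IsLocalRing.ResidueField A) ℓ := by
  rw [CharP.charP_iff_prime_eq_zero hℓ]
  have hnu : ((ℓ : A)) ∈ IsLocalRing.maximalIdeal A := by
    have := hA
    rw [ValuationSubring.LiesOverPrime, ValuationSubring.mem_nonunits_iff_exists_mem_maximalIdeal]
      at this
    obtain ⟨h1, h2⟩ := this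
    have he : (⟨(ℓ : L), h1⟩ : A) = (ℓ : A) := Subtype.ext (by simp)
    rw [← he]
    exact h2
  have := (IsLocalRing.residue_eq_zero_iff (ℓ : A)).mpr hnu
  rw [map_natCast] at this
  exact this

end CharP

section GalSeries

variable {K L : Type*} [Field K] [Field L] [Algebra K L] (A : ValuationSubring L)

/-- The action of an element of the decomposition group on `A`, as a ring homomorphism. -/
def galRing (τ : A.decompositionSubgroup K) : A →+* A :=
  MulSemiringAction.toRingHom (A.decompositionSubgroup K) A τ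

@[simp]
theorem coe_galRing (τ : A.decompositionSubgroup K) (a : A) :
    ((galRing A τ a : A) : L) = (τ : L ≃ₐ[K] L) (a : L) :=
  rfl

/-- The coefficientwise action of the decomposition group on integral Laurent series. -/
def galSeries (τ : A.decompositionSubgroup K) : LaurentSeries A →+* LaurentSeries A :=
  coeffMap (galRing A τ)

theorem coeffMap_subtype_galSeries (τ : A.decompositionSubgroup K) (y : LaurentSeries A) :
    coeffMap A.subtype (galSeries A τ y) =
      coeffMap ((τ : L ≃ₐ[K] L) : L →+* L) (coeffMap A.subtype y) := by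
  ext n
  rfl

theorem residue_comp_galRing (τ : A.decompositionSubgroup K) :
    (IsLocalRing.residue A).comp (galRing A τ) =
      (MulSemiringAction.toRingHom (A.decompositionSubgroup K)
        (IsLocalRing.ResidueField A) τ).comp (IsLocalRing.residue A) := by
  ext a
  exact IsLocalRing.ResidueField.residue_smul (A.decompositionSubgroup K) τ a

theorem coeffMap_residue_galSeries (τ : A.decompositionSubgroup K) (y : LaurentSeries A) :
    coeffMap (IsLocalRing.residue A) (galSeries A τ y) =
      coeffMap (MulSemiringAction.toRingHom (A.decompositionSubgroup K)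
        (IsLocalRing.ResidueField A) τ) (coeffMap (IsLocalRing.residue A) y) := by
  rw [galSeries, coeffMap_coeffMap, coeffMap_coeffMap, residue_comp_galRing]

/-- For a Frobenius element, the reduction of `galSeries τ y` is the coefficientwise Frobenius
of the reduction of `y`. -/
theorem coeffMap_residue_galSeries_of_isFrobeniusAt {ℓ : ℕ} [Fact ℓ.Prime]
    [CharP (IsLocalRing.ResidueField A) ℓ] {σ : L ≃ₐ[K] L} (hσ : A.IsFrobeniusAt σ ℓ)
    (y : LaurentSeries A) :
    coeffMap (IsLocalRing.residue A)
        (galSeries A (⟨σ, hσ.mem_decompositionSubgroup⟩ : A.decompositionSubgroup K) y) =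
      coeffMap (frobenius (IsLocalRing.ResidueField A) ℓ) (coeffMap (IsLocalRing.residue A) y) := by
  rw [coeffMap_residue_galSeries]
  refine coeffMap_congr (RingHom.ext fun x => ?_) _
  rw [frobenius_def]
  exact hσ.smul_residue_eq x

end GalSeries

section Frobenius

variable {k : Type*} [Field k] (ℓ : ℕ) [Fact ℓ.Prime] [CharP k ℓ]

theorem coeffMap_frobenius_injective :
    Function.Injective (coeffMap (frobenius k ℓ) : LaurentSeries k → LaurentSeries k) := by
  intro x y h
  ext n
  have := congrArg (fun s : LaurentSeries k => s.coeff n) h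
  simp only [coeffMap_coeff] at this
  exact (frobenius_inj k ℓ) this

/-- In characteristic `ℓ`, with `V = (q ↦ q^ℓ)` and `Fr` the coefficientwise Frobenius: if
`V t = V² (Fr a) · (Fr a)^ℓ` then `t = a^ℓ · Fr² a`. -/
theorem eq_of_qExpand_eq (a ta : LaurentSeries k)
    (hta : haveI : NeZero ℓ := ⟨(Fact.out : ℓ.Prime).ne_zero⟩
      qExpand k ℓ ta = qExpand k ℓ (qExpand k ℓ (coeffMap (frobenius k ℓ) a)) *
        coeffMap (frobenius k ℓ) a ^ ℓ) :
    ta = a ^ ℓ * coeffMap (frobenius k ℓ) (coeffMap (frobenius k ℓ) a) := by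
  haveI : NeZero ℓ := ⟨(Fact.out : ℓ.Prime).ne_zero⟩
  have hV := qExpand_injective (R := k) ℓ
  have e1 : ∀ x : LaurentSeries k, x ^ ℓ = qExpand k ℓ (coeffMap (frobenius k ℓ) x) :=
    fun x => Fermat.Agent.H42.laurent_pow_char ℓ x
  apply hV
  rw [hta, map_mul, e1 a, e1 (coeffMap (frobenius k ℓ) a)]

/-- The key identity behind the Eichler–Shimura relation, on reductions: with `V = (q ↦ q^ℓ)`
and `Fr` the coefficientwise Frobenius, if `V ta = V² (Fr a) · (Fr a)^ℓ` and
`V tb = V² (Fr b) · (Fr b)^ℓ` then `Fr² a · a^ℓ · tb = Fr² b · b^ℓ · ta`. -/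
theorem frobenius_identity (a b ta tb : LaurentSeries k)
    (hta : haveI : NeZero ℓ := ⟨(Fact.out : ℓ.Prime).ne_zero⟩
      qExpand k ℓ ta = qExpand k ℓ (qExpand k ℓ (coeffMap (frobenius k ℓ) a)) *
        coeffMap (frobenius k ℓ) a ^ ℓ)
    (htb : haveI : NeZero ℓ := ⟨(Fact.out : ℓ.Prime).ne_zero⟩
      qExpand k ℓ tb = qExpand k ℓ (qExpand k ℓ (coeffMap (frobenius k ℓ) b)) *
        coeffMap (frobenius k ℓ) b ^ ℓ) :
    coeffMap (frobenius k ℓ) (coeffMap (frobenius k ℓ) a) * a ^ ℓ * tb =
      coeffMap (frobenius k ℓ) (coeffMap (frobenius k ℓ) b) * b ^ ℓ * ta := by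
  haveI : NeZero ℓ := ⟨(Fact.out : ℓ.Prime).ne_zero⟩
  have hV := qExpand_injective (R := k) ℓ
  have e1 : ∀ x : LaurentSeries k, x ^ ℓ = qExpand k ℓ (coeffMap (frobenius k ℓ) x) :=
    fun x => Fermat.Agent.H42.laurent_pow_char ℓ x
  have hta' : ta = a ^ ℓ * coeffMap (frobenius k ℓ) (coeffMap (frobenius k ℓ) a) := by
    apply hV
    rw [hta, map_mul, e1 a, e1 (coeffMap (frobenius k ℓ) a)]
  have htb' : tb = b ^ ℓ * coeffMap (frobenius k ℓ) (coeffMap (frobenius k ℓ) b) := by
    apply hV
    rw [htb, map_mul, e1 b, e1 (coeffMap (frobenius k ℓ) b)]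
  rw [hta', htb']
  ring

end Frobenius

end Fermat.Agent.H36

end
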