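import Fermat.Agent.H36.ESE.TorsionAbstract
import Fermat.Agent.H36.ESE.TorsionSeries
import Fermat.Prelude.Def_ModularCurve_HeckeModule

/-!
# P-ES / ES-E (Q-ES-4): the Eichler–Shimura relation on torsion of `J₀(N)`

`eichlerShimuraRel_of_keyLemma`: the key lemma `KL(N, ℓ)`, the Gauss normal form, the norm
congruence and the Hecke inputs at all good primes of the level `N` imply the Eichler–Shimura
relation `σ² - T_ℓ σ + ℓ = 0` on the prime-to-`ℓ` torsion of `J₀(N)`, for every Frobenius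
element `σ` at `ℓ ∤ N`.

Proof.  For `x = [D]` with `n D = div f` write `f = c a / b` in Gauss normal form.  With
`Tm = Norm_α ∘ β` the multiplicative Hecke operator, the function
`σ²(f) f^ℓ / Tm (σ f)` is, up to a constant, `a' / b'` with `a' = σ²(a) a^ℓ Tm (σ b)` and
`b' = σ²(b) b^ℓ Tm (σ a)`, two integral series whose reductions are both equal to
`Fr²(abar) abar^ℓ Fr²(bbar) bbar^ℓ` by the norm congruence.  By the key lemma `a' / b'` is an
`n`-th power `w ^ n`, and `div w = σ² D - T_ℓ (σ D) + ℓ D`.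
-/

set_option autoImplicit false
set_option linter.style.haveILetI false
set_option linter.unusedSectionVars false
set_option synthInstance.maxHeartbeats 400000

noncomputable section

namespace Fermat.Agent.H36

open ModularCurve AlgebraicCurve HahnSeries IntermediateField Fermat.Agent.H22.ES

theorem heckeTm_eq_corrNorm (L : Type*) [Field L] [Algebra ℚ L] (N ℓ : ℕ) [NeZero N] [NeZero ℓ]
    (f : laurentBaseChange L (modularFunctionFieldFull N)) :
    heckeTm L N ℓ f = corrNorm (heckeBetaBar L N ℓ) (heckeAlphaBar L N ℓ) f :=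
  rfl

/-- A Laurent series over `A` with nonzero reduction has nonzero image over `L`. -/
theorem coeffMap_subtype_ne_zero_of_residue {L : Type*} [Field L] (A : ValuationSubring L)
    (a : LaurentSeries A) (h : coeffMap (IsLocalRing.residue A) a ≠ 0) :
    coeffMap A.subtype a ≠ 0 := by
  intro h0
  apply h
  have ha : a = 0 := by
    ext k
    have := congrArg (fun y => y.coeff k) h0
    simp only [coeffMap_coeff, HahnSeries.coeff_zero] at this
    rw [HahnSeries.coeff_zero]
    exact this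
  rw [ha, map_zero]

set_option maxHeartbeats 1600000 in
/-- **The root lemma.**  For `f` whose "Eichler–Shimura divisor" is divisible by `n`, the
function `σ²(f) f^ℓ / Tm (σ f)` has the divisor of an `n`-th power. -/
theorem exists_root_of_keyLemma (N : ℕ) [NeZero N] (ℓ : ℕ) [NeZero ℓ] (hℓ : ℓ.Prime)
    (hℓN : ¬ ℓ ∣ N) (hKL : KeyLemmaStatement N ℓ) (hG : GaussNormalFormStatement N)
    (hNC : NormCongruenceStatement N)
    (hfin : FiniteAlong (AlgebraicClosure ℚ) (heckeAlphaBar (AlgebraicClosure ℚ) N ℓ))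
    (n : ℕ) (hn : 0 < n) (hℓn : ¬ ℓ ∣ n)
    (A : ValuationSubring (AlgebraicClosure ℚ)) (hA : A.LiesOverPrime ℓ)
    (σ : AlgebraicClosure ℚ ≃ₐ[ℚ] AlgebraicClosure ℚ) (hσ : A.IsFrobeniusAt σ ℓ)
    (f : modularFunctionFieldBar N) (hf : f ≠ 0)
    (hdiv : ∀ P : Place (AlgebraicClosure ℚ) (modularFunctionFieldBar N),
      (n : ℤ) ∣ P.ord (arithmeticGalois (modularFunctionFieldFull N) σ •
            arithmeticGalois (modularFunctionFieldFull N) σ • f)
        - P.ord (heckeTm (AlgebraicClosure ℚ) N ℓ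
            (arithmeticGalois (modularFunctionFieldFull N) σ • f))
        + ℓ * P.ord f) :
    ∃ w : modularFunctionFieldBar N, w ≠ 0 ∧
      ∀ P : Place (AlgebraicClosure ℚ) (modularFunctionFieldBar N),
        P.ord (arithmeticGalois (modularFunctionFieldFull N) σ •
            arithmeticGalois (modularFunctionFieldFull N) σ • f)
        - P.ord (heckeTm (AlgebraicClosure ℚ) N ℓ
            (arithmeticGalois (modularFunctionFieldFull N) σ • f))
        + ℓ * P.ord f = n * P.ord w := by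
  haveI : Fact ℓ.Prime := ⟨hℓ⟩
  haveI : CharP (IsLocalRing.ResidueField A) ℓ := charP_residueField_of_liesOver A hℓ hA
  obtain ⟨c, a, b, ha, hb, hc0, hared, hbred, hfab⟩ := hG A ℓ hℓ hA f hf
  generalize hg : arithmeticGalois (modularFunctionFieldFull N) σ = g at hdiv ⊢
  generalize hτ : (⟨σ, hσ.mem_decompositionSubgroup⟩ : A.decompositionSubgroup ℚ) = τ
  have hτσ : ((τ : AlgebraicClosure ℚ ≃ₐ[ℚ] AlgebraicClosure ℚ)) = σ := by rw [← hτ]
  -- the Gauss normal form as elements of the function field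
  generalize haF : (⟨coeffMap A.subtype a, ha⟩ : modularFunctionFieldBar N) = aF at hfab
  generalize hbF : (⟨coeffMap A.subtype b, hb⟩ : modularFunctionFieldBar N) = bF at hfab
  have haF0 : aF ≠ 0 := fun h =>
    coeffMap_subtype_ne_zero_of_residue A a hared (by rw [← haF] at h; exact congrArg Subtype.val h)
  have hbF0 : bF ≠ 0 := fun h =>
    coeffMap_subtype_ne_zero_of_residue A b hbred (by rw [← hbF] at h; exact congrArg Subtype.val h)
  -- the action of `g` on integral series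
  have hgser : ∀ (y : LaurentSeries A) (hy : coeffMap A.subtype y ∈ modularFunctionFieldBar N),
      ∃ hy' : coeffMap A.subtype (galSeries A τ y) ∈ modularFunctionFieldBar N,
        (⟨coeffMap A.subtype (galSeries A τ y), hy'⟩ : modularFunctionFieldBar N) =
          g • (⟨coeffMap A.subtype y, hy⟩ : modularFunctionFieldBar N) := by
    intro y hy
    have e : coeffMap A.subtype (galSeries A τ y) =
        ((g • (⟨coeffMap A.subtype y, hy⟩ : modularFunctionFieldBar N) :
          modularFunctionFieldBar N) : LaurentSeries (AlgebraicClosure ℚ)) := by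
      rw [coeffMap_subtype_galSeries, hτσ, ← hg]
      rfl
    exact ⟨by rw [e]; exact Subtype.property _, Subtype.ext e⟩
  have hres : ∀ y : LaurentSeries A, coeffMap (IsLocalRing.residue A) (galSeries A τ y) =
      coeffMap (frobenius (IsLocalRing.ResidueField A) ℓ)
        (coeffMap (IsLocalRing.residue A) y) := by
    intro y
    rw [← hτ]
    exact coeffMap_residue_galSeries_of_isFrobeniusAt A hσ y
  obtain ⟨ha1, ea1⟩ := hgser a ha
  obtain ⟨hb1, eb1⟩ := hgser b hb
  obtain ⟨ha2, ea2⟩ := hgser (galSeries A τ a) ha1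
  obtain ⟨hb2, eb2⟩ := hgser (galSeries A τ b) hb1
  rw [ea1, haF] at ea2
  rw [eb1, hbF] at eb2
  rw [haF] at ea1
  rw [hbF] at eb1
  -- the norms
  obtain ⟨ta, hta1, hta2⟩ := hNC ℓ hℓ hℓN A hA (galSeries A τ a) ha1
  obtain ⟨tb, htb1, htb2⟩ := hNC ℓ hℓ hℓN A hA (galSeries A τ b) hb1
  rw [ea1] at hta1
  rw [eb1] at htb1
  rw [hres] at hta2 htb2
  have hta3 := eq_of_qExpand_eq ℓ _ _ hta2
  have htb3 := eq_of_qExpand_eq ℓ _ _ htb2
  -- the two new series
  have ea' : coeffMap A.subtype (galSeries A τ (galSeries A τ a) * a ^ ℓ * tb) =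
      (((g • g • aF) * aF ^ ℓ * heckeTm (AlgebraicClosure ℚ) N ℓ (g • bF) :
        modularFunctionFieldBar N) : LaurentSeries (AlgebraicClosure ℚ)) := by
    rw [map_mul, map_mul, map_pow, htb1, ← ea2, ← haF]
    rfl
  have eb' : coeffMap A.subtype (galSeries A τ (galSeries A τ b) * b ^ ℓ * ta) =
      (((g • g • bF) * bF ^ ℓ * heckeTm (AlgebraicClosure ℚ) N ℓ (g • aF) :
        modularFunctionFieldBar N) : LaurentSeries (AlgebraicClosure ℚ)) := by
    rw [map_mul, map_mul, map_pow, hta1, ← eb2, ← hbF]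
    rfl
  have ha'mem : coeffMap A.subtype (galSeries A τ (galSeries A τ a) * a ^ ℓ * tb) ∈
      modularFunctionFieldBar N := by
    rw [ea']; exact Subtype.property _
  have hb'mem : coeffMap A.subtype (galSeries A τ (galSeries A τ b) * b ^ ℓ * ta) ∈
      modularFunctionFieldBar N := by
    rw [eb']; exact Subtype.property _
  have hFr : Function.Injective (coeffMap (frobenius (IsLocalRing.ResidueField A) ℓ) :
      LaurentSeries (IsLocalRing.ResidueField A) → LaurentSeries (IsLocalRing.ResidueField A)) :=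
    coeffMap_frobenius_injective ℓ
  have hFr0 : ∀ y : LaurentSeries (IsLocalRing.ResidueField A), y ≠ 0 →
      coeffMap (frobenius (IsLocalRing.ResidueField A) ℓ) y ≠ 0 := fun y hy h =>
    hy (hFr (by rw [h, map_zero]))
  have hred : coeffMap (IsLocalRing.residue A)
        (galSeries A τ (galSeries A τ a) * a ^ ℓ * tb) =
      coeffMap (IsLocalRing.residue A) (galSeries A τ (galSeries A τ b) * b ^ ℓ * ta) := by
    rw [map_mul, map_mul, map_mul, map_mul, map_pow, map_pow, hres, hres, hres, hres, hta3, htb3]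
    ring
  have hred0 : coeffMap (IsLocalRing.residue A)
        (galSeries A τ (galSeries A τ a) * a ^ ℓ * tb) ≠ 0 := by
    rw [map_mul, map_mul, map_pow, hres, hres, htb3]
    exact mul_ne_zero (mul_ne_zero (hFr0 _ (hFr0 _ hared)) (pow_ne_zero _ hared))
      (mul_ne_zero (pow_ne_zero _ hbred) (hFr0 _ (hFr0 _ hbred)))
  -- the order bookkeeping
  have hord := ord_quadratic_eq (K := AlgebraicClosure ℚ) (F := modularFunctionFieldBar N) ℓ g
    (heckeTm (AlgebraicClosure ℚ) N ℓ)
    (fun x y => corrNorm_mul _ _ x y)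
    (fun d hd => ⟨_, pow_ne_zero _ hd, corrNorm_algebraMap _ _ d⟩)
    (fun x hx => corrNorm_ne_zero _ _ hfin hx) hc0 haF0 hbF0 hfab
  -- apply the key lemma
  obtain ⟨w, hw⟩ := hKL A hA n hn hℓn _ _ ha'mem hb'mem hred hred0 (fun P => by
    rw [show (⟨_, ha'mem⟩ : modularFunctionFieldBar N) = _ from Subtype.ext ea',
      show (⟨_, hb'mem⟩ : modularFunctionFieldBar N) = _ from Subtype.ext eb', ← hord P]
    exact hdiv P)
  rw [show (⟨_, ha'mem⟩ : modularFunctionFieldBar N) = _ from Subtype.ext ea',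
    show (⟨_, hb'mem⟩ : modularFunctionFieldBar N) = _ from Subtype.ext eb'] at hw
  have hg0 : ∀ {y : modularFunctionFieldBar N}, y ≠ 0 → g • y ≠ 0 := fun {y} hy => by
    rw [SemilinearAut.smul_def]
    exact (map_ne_zero _).mpr hy
  have hTm0 : ∀ {y : modularFunctionFieldBar N}, y ≠ 0 →
      heckeTm (AlgebraicClosure ℚ) N ℓ y ≠ 0 := fun {y} hy => corrNorm_ne_zero _ _ hfin hy
  have ha'0 : (g • g • aF) * aF ^ ℓ * heckeTm (AlgebraicClosure ℚ) N ℓ (g • bF) ≠ 0 :=
    mul_ne_zero (mul_ne_zero (hg0 (hg0 haF0)) (pow_ne_zero _ haF0)) (hTm0 (hg0 hbF0))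
  have hb'0 : (g • g • bF) * bF ^ ℓ * heckeTm (AlgebraicClosure ℚ) N ℓ (g • aF) ≠ 0 :=
    mul_ne_zero (mul_ne_zero (hg0 (hg0 hbF0)) (pow_ne_zero _ hbF0)) (hTm0 (hg0 haF0))
  have hw0 : w ≠ 0 := by
    intro h0
    rw [h0, zero_pow hn.ne', zero_mul] at hw
    exact ha'0 hw.symm
  refine ⟨w, hw0, fun P => ?_⟩
  rw [hord P]
  have h1 := congrArg P.ord hw
  rw [P.ord_mul (pow_ne_zero n hw0) hb'0, ← zpow_natCast, P.ord_zpow] at h1
  rw [← h1]
  ring

set_option maxHeartbeats 1600000 in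
/-- **Q-ES-4 at one prime.**  The Eichler–Shimura relation on `n`-torsion at a Frobenius element
at `ℓ ∤ N n`, for the prelude Hecke operator `heckeOperatorAlong ℚ̄ N ℓ`. -/
theorem eichlerShimura_of_keyLemma (N : ℕ) [NeZero N] (ℓ : ℕ) [NeZero ℓ] (hℓ : ℓ.Prime)
    (hℓN : ¬ ℓ ∣ N) (hKL : KeyLemmaStatement N ℓ) (hG : GaussNormalFormStatement N)
    (hNC : NormCongruenceStatement N) (hH : HeckeInputsAlong (AlgebraicClosure ℚ) N ℓ)
    (n : ℕ) (hn : 0 < n) (hℓn : ¬ ℓ ∣ n)
    (A : ValuationSubring (AlgebraicClosure ℚ)) (hA : A.LiesOverPrime ℓ)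
    (σ : AlgebraicClosure ℚ ≃ₐ[ℚ] AlgebraicClosure ℚ) (hσ : A.IsFrobeniusAt σ ℓ)
    (x : JZero N) (hx : n • x = 0) :
    σ • σ • x - heckeOperatorAlong (AlgebraicClosure ℚ) N ℓ (σ • x) + ℓ • x = 0 := by
  obtain ⟨hα, hβ, hP, hfin, hFI, hNF⟩ := hH
  rw [heckeOperatorAlong_eq hα hβ hFI hfin hNF]
  refine quadratic_relation_of_roots hn ℓ (arithmeticGalois (modularFunctionFieldFull N) σ)
    (heckePic0Bar hα hβ hFI hfin hNF) (heckeDivBar hα hβ) (heckeTm (AlgebraicClosure ℚ) N ℓ)
    ?_ ?_ ?_ x hx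
  · intro D
    exact ⟨Pic0.degZeroCorrespondence (heckeBetaBar (AlgebraicClosure ℚ) N ℓ)
      (heckeAlphaBar (AlgebraicClosure ℚ) N ℓ) hβ hα hFI D, rfl, rfl⟩
  · intro f hf D hD P
    exact correspondence_apply_eq_ord_norm (heckeBetaBar (AlgebraicClosure ℚ) N ℓ)
      (heckeAlphaBar (AlgebraicClosure ℚ) N ℓ) hβ hα hfin hNF hf hD P
  · intro f hf hdiv
    exact exists_root_of_keyLemma N ℓ hℓ hℓN hKL hG hNC hfin n hn hℓn A hA σ hσ f hf hdiv

/-- **Q-ES-4.**  The key lemma, the Gauss normal form, the norm congruence and the Hecke inputs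
at the good primes of `N` imply the Eichler–Shimura relation on torsion. -/
theorem eichlerShimuraRel_of_keyLemma (N : ℕ) [NeZero N]
    (hKL : ∀ ℓ : ℕ, ℓ.Prime → ¬ ℓ ∣ N → KeyLemmaStatement N ℓ)
    (hG : GaussNormalFormStatement N) (hNC : NormCongruenceStatement N)
    (hH : ∀ (ℓ : ℕ) [NeZero ℓ], ℓ.Prime → ¬ ℓ ∣ N → HeckeInputsAlong (AlgebraicClosure ℚ) N ℓ) :
    EichlerShimuraRelStatement N := by
  intro ℓ hℓ hℓN n hn hℓn A hA σ hσ x hx
  haveI : NeZero ℓ := ⟨hℓ.ne_zero⟩
  exact eichlerShimura_of_keyLemma N ℓ hℓ hℓN (hKL ℓ hℓ hℓN) hG hNC (hH ℓ hℓ hℓN) n hn hℓn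
    A hA σ hσ x hx

end Fermat.Agent.H36

end
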