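import Fermat.Agent.H36.ESE.TorsionDatum
import Fermat.Agent.H65.QES.NormSeries
import Fermat.Agent.H89.QES2
import Fermat.Agent.H97.QES3
import Fermat.Agent.H49.ES.EsCAdapters
import Fermat.Agent.H66.ESD.GaussNorm

/-!
# P-ES / ES-E (Q-ES): the torsion Hecke datum, conditional on the KEY LEMMA only

All inputs of `torsionHeckeDatum` except the key lemma are now theorems:

* `NormSeriesStatement N` (`Fermat.Agent.H65.normSeriesStatement`),
* `NormCongruenceStatement N` (`Fermat.Agent.H89.normCongruence_of_normSeries`),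
* `HeckeGaloisTorsionStatement N` (`Fermat.Agent.H97.heckeGaloisTorsionStatement`),
* `HeckeInputsAlong ℚ̄ N ℓ` (`Fermat.Agent.H49.heckeInputsAlong_qbar`),
* `GaussNormalFormStatement N` (`Fermat.Agent.H66.gaussNormalForm`).

Exports:

* `normCongruenceStatement N : NormCongruenceStatement N` (unconditional);
* `eichlerShimuraRel_of_KL N hKL : EichlerShimuraRelStatement N`;
* `torsionHeckeDatumOfKL N n hn hKL : TorsionHeckeDatum N n`, with
  `torsionHeckeDatumOfKL_T_eq_heckeTors`.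
-/

set_option autoImplicit false
set_option linter.style.haveILetI false
set_option synthInstance.maxHeartbeats 400000

noncomputable section

namespace Fermat.Agent.H36

open ModularCurve AlgebraicCurve Fermat.Agent.H22.ES

/-- **Q-ES-2, unconditional.** -/
theorem normCongruenceStatement (N : ℕ) [NeZero N] : NormCongruenceStatement N :=
  Fermat.Agent.H89.normCongruence_of_normSeries N (Fermat.Agent.H65.normSeriesStatement N)

/-- **Q-ES-4, conditional on the key lemma only.** -/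
theorem eichlerShimuraRel_of_KL (N : ℕ) [NeZero N]
    (hKL : ∀ ℓ : ℕ, ℓ.Prime → ¬ ℓ ∣ N → KeyLemmaStatement N ℓ) :
    EichlerShimuraRelStatement N :=
  eichlerShimuraRel_of_keyLemma N hKL (Fermat.Agent.H66.gaussNormalForm N)
    (normCongruenceStatement N)
    (fun ℓ _ hℓ _ => Fermat.Agent.H49.heckeInputsAlong_qbar N ℓ hℓ)

/-- **Q-ES, conditional on the key lemma only**: the torsion Hecke datum on `J₀(N)[n]`. -/
def torsionHeckeDatumOfKL (N n : ℕ) [NeZero N] (hn : 0 < n)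
    (hKL : ∀ ℓ : ℕ, ℓ.Prime → ¬ ℓ ∣ N → KeyLemmaStatement N ℓ) : TorsionHeckeDatum N n :=
  torsionHeckeDatum N n hn (Fermat.Agent.H97.heckeGaloisTorsionStatement N)
    (eichlerShimuraRel_of_KL N hKL)

theorem torsionHeckeDatumOfKL_T_eq_heckeTors (N n : ℕ) [NeZero N] (hn : 0 < n)
    (hKL : ∀ ℓ : ℕ, ℓ.Prime → ¬ ℓ ∣ N → KeyLemmaStatement N ℓ)
    (ℓ : ℕ) (hℓ : ℓ.Prime) (hℓNn : ¬ ℓ ∣ N * n) :
    (torsionHeckeDatumOfKL N n hn hKL).T ℓ =
      Fermat.Agent.H94.QEig.heckeTors (AlgebraicClosure ℚ) N n ℓ :=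
  torsionHeckeDatum_T_eq_heckeTors N n hn (Fermat.Agent.H97.heckeGaloisTorsionStatement N)
    (eichlerShimuraRel_of_KL N hKL) ℓ hℓ hℓNn

/-- The torsion Hecke datum from `KeyLemmaAllStatement`. -/
def torsionHeckeDatumOfKLAll (hKL : KeyLemmaAllStatement) (N n : ℕ) [NeZero N] (hn : 0 < n) :
    TorsionHeckeDatum N n :=
  torsionHeckeDatumOfKL N n hn (fun ℓ hℓ hℓN => hKL N ℓ hℓ hℓN)

theorem torsionHeckeDatumOfKLAll_T_eq_heckeTors (hKL : KeyLemmaAllStatement) (N n : ℕ)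
    [NeZero N] (hn : 0 < n) (ℓ : ℕ) (hℓ : ℓ.Prime) (hℓNn : ¬ ℓ ∣ N * n) :
    (torsionHeckeDatumOfKLAll hKL N n hn).T ℓ =
      Fermat.Agent.H94.QEig.heckeTors (AlgebraicClosure ℚ) N n ℓ :=
  torsionHeckeDatumOfKL_T_eq_heckeTors N n hn (fun ℓ hℓ hℓN => hKL N ℓ hℓ hℓN) ℓ hℓ hℓNn

end Fermat.Agent.H36

end
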