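import Fermat.Prelude.Def_AlgebraicCurve_Correspondence
import Fermat.Agent.H23.PlaceBasic

/-!
# P-ES / ES-E (Q-ES): abstract lemmas on torsion divisor classes

For an abstract function field `F / K`:

* `exists_function_of_nsmul_eq_zero`: a class killed by `n` is represented by a divisor `D` with
  `n D = div f`;
* `mk_eq_zero_of_ord`: if `n E = n div w` (pointwise) then the class of `E` vanishes;
* `correspondence_apply_eq_ord_norm`: a correspondence `ψ_* φ^*` maps `div f` to
  `div (Norm_ψ (φ f))`.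
-/

set_option autoImplicit false
set_option linter.style.haveILetI false
set_option linter.unusedSectionVars false

noncomputable section

namespace Fermat.Agent.H36

open AlgebraicCurve

section Torsion

variable {K F : Type*} [Field K] [Field F] [Algebra K F]

theorem exists_function_of_nsmul_eq_zero {n : ℕ} {x : Pic0 K F} (hx : n • x = 0) :
    ∃ D : Divisor.degZero (K := K) (F := F), Pic0.mk D = x ∧
      ∃ f : F, f ≠ 0 ∧ ∀ P : Place K F, (n : ℤ) * (D : Divisor K F) P = P.ord f := by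
  obtain ⟨D, rfl⟩ := Pic0.mk_surjective x
  refine ⟨D, rfl, ?_⟩
  have h1 : (Pic0.mk (n • D) : Pic0 K F) = 0 := hx
  have h2 : n • D ∈ (Divisor.principal (K := K) (F := F)).addSubgroupOf
      (Divisor.degZero (K := K) (F := F)) := by
    rw [← QuotientAddGroup.eq_zero_iff]
    exact h1
  rw [AddSubgroup.mem_addSubgroupOf, AddSubgroupClass.coe_nsmul] at h2
  obtain ⟨f, hf, hD⟩ := h2
  refine ⟨f, hf, fun P => ?_⟩
  rw [← hD P, Finsupp.smul_apply, nsmul_eq_mul]

theorem mk_eq_zero_of_ord {n : ℕ} (hn : 0 < n) (E : Divisor.degZero (K := K) (F := F))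
    {w : F} (hw : w ≠ 0)
    (h : ∀ P : Place K F, (n : ℤ) * (E : Divisor K F) P = (n : ℤ) * P.ord w) :
    Pic0.mk E = 0 := by
  have hn' : (n : ℤ) ≠ 0 := by exact_mod_cast hn.ne'
  have h2 : E ∈ (Divisor.principal (K := K) (F := F)).addSubgroupOf
      (Divisor.degZero (K := K) (F := F)) := by
    rw [AddSubgroup.mem_addSubgroupOf]
    exact ⟨w, hw, fun P => mul_left_cancel₀ hn' (h P)⟩
  exact (QuotientAddGroup.eq_zero_iff _).mpr h2

end Torsion

section Correspondence

variable {K F F' : Type*} [Field K] [Field F] [Field F'] [Algebra K F] [Algebra K F']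

/-- The multiplicative operator attached to a correspondence: `f ↦ Norm_ψ (φ f)`. -/
def corrNorm (φ ψ : F →ₐ[K] F') (f : F) : F :=
  letI := algebraAlong ψ
  Algebra.norm F (φ f)

theorem corrNorm_mul (φ ψ : F →ₐ[K] F') (f g : F) :
    corrNorm φ ψ (f * g) = corrNorm φ ψ f * corrNorm φ ψ g := by
  letI := algebraAlong ψ
  show Algebra.norm F (φ (f * g)) = Algebra.norm F (φ f) * Algebra.norm F (φ g)
  rw [map_mul, map_mul]

theorem corrNorm_one (φ ψ : F →ₐ[K] F') : corrNorm φ ψ (1 : F) = 1 := by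
  letI := algebraAlong ψ
  show Algebra.norm F (φ 1) = 1
  rw [map_one, map_one]

theorem corrNorm_algebraMap (φ ψ : F →ₐ[K] F') (c : K) :
    corrNorm φ ψ (algebraMap K F c) =
      algebraMap K F (c ^ (letI := algebraAlong ψ; Module.finrank F F')) := by
  letI := algebraAlong ψ
  haveI := isScalarTower_along ψ
  show Algebra.norm F (φ (algebraMap K F c)) = _
  rw [φ.commutes, IsScalarTower.algebraMap_apply K F F', Algebra.norm_algebraMap, map_pow]

theorem corrNorm_ne_zero (φ ψ : F →ₐ[K] F') (hfin : FiniteAlong K ψ) {f : F} (hf : f ≠ 0) :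
    corrNorm φ ψ f ≠ 0 := by
  letI := algebraAlong ψ
  haveI : Module.Finite F F' := hfin
  show Algebra.norm F (φ f) ≠ 0
  rw [Algebra.norm_ne_zero_iff]
  exact (map_ne_zero φ).mpr hf

/-- A correspondence maps the divisor of `f` to the divisor of `corrNorm f`. -/
theorem correspondence_apply_eq_ord_norm [HasPrincipalDivisors K F'] (φ ψ : F →ₐ[K] F')
    (hφ : φ.toRingHom.IsIntegral)
    (hψ : ψ.toRingHom.IsIntegral) (hfin : FiniteAlong K ψ) (hN : NormFormulaAlong K ψ hfin)
    {f : F} (hf : f ≠ 0) {D : Divisor K F} (hD : ∀ P : Place K F, D P = P.ord f)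
    (P : Place K F) :
    Divisor.correspondence φ ψ hφ hψ D P = P.ord (corrNorm φ ψ f) := by
  have h1 : ∀ w : Place K F', Divisor.pullbackAlong φ hφ D w = w.ord (φ f) := by
    intro w
    letI := algebraAlong φ
    haveI := isScalarTower_along φ
    haveI := isIntegral_along φ hφ
    exact Divisor.pullback_apply_eq_ord hD w
  letI := algebraAlong ψ
  haveI := isScalarTower_along ψ
  haveI := isIntegral_along ψ hψ
  haveI : Module.Finite F F' := hfin
  exact hN (φ f) ((map_ne_zero φ).mpr hf) _ h1 P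

end Correspondence

section Shell

variable {K F : Type*} [Field K] [Field F] [Algebra K F]

theorem ord_eq_sub_of_mul_eq (P : Place K F) {f A B : F} {c : K} (hc : c ≠ 0) (hA : A ≠ 0)
    (hB : B ≠ 0) (h : f * B = algebraMap K F c * A) : P.ord f = P.ord A - P.ord B := by
  have hc' : algebraMap K F c ≠ 0 := (map_ne_zero _).mpr hc
  have hf : f ≠ 0 := by
    rintro rfl
    rw [zero_mul] at h
    exact mul_ne_zero hc' hA h.symm
  have h1 := congrArg P.ord h
  rw [P.ord_mul hf hB, P.ord_mul hc' hA, Fermat.Agent.H23.ord_algebraMap] at h1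
  omega

theorem ord_smul_of_divisor {n : ℤ} (g : SemilinearAut K F) {D : Divisor K F} {f : F}
    (hD : ∀ P : Place K F, n * D P = P.ord f) (P : Place K F) :
    n * (g • D) P = P.ord (g • f) := by
  rw [SemilinearAut.divisor_smul_apply, hD]
  have h := SemilinearAut.ord_smul g (g⁻¹ • P) f
  rw [smul_inv_smul] at h
  exact h.symm

/-- Bookkeeping of orders: if `f b = c a` and `Tm` is multiplicative, maps nonzero constants to
nonzero constants and nonzero functions to nonzero functions, then the divisor of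
`g²(f) f^ℓ / Tm (g f)` is the divisor of `a' / b'` with `a' = g²(a) a^ℓ Tm (g b)` and
`b' = g²(b) b^ℓ Tm (g a)`. -/
theorem ord_quadratic_eq (ℓ : ℕ) (g : SemilinearAut K F) (Tm : F → F)
    (hmul : ∀ x y : F, Tm (x * y) = Tm x * Tm y)
    (hconst : ∀ c : K, c ≠ 0 → ∃ c' : K, c' ≠ 0 ∧ Tm (algebraMap K F c) = algebraMap K F c')
    (hne : ∀ x : F, x ≠ 0 → Tm x ≠ 0)
    {f a b : F} {c : K} (hc : c ≠ 0) (ha : a ≠ 0) (hb : b ≠ 0)
    (h : f * b = algebraMap K F c * a) (P : Place K F) :
    P.ord (g • g • f) - P.ord (Tm (g • f)) + ℓ * P.ord f =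
      P.ord ((g • g • a) * a ^ ℓ * Tm (g • b)) - P.ord ((g • g • b) * b ^ ℓ * Tm (g • a)) := by
  have hg : ∀ {y : F}, y ≠ 0 → g • y ≠ 0 := fun {y} hy => by
    rw [SemilinearAut.smul_def]
    exact (map_ne_zero _).mpr hy
  have hbase : ∀ {d : K}, d ≠ 0 → SemilinearAut.baseAut g d ≠ 0 := fun {d} hd =>
    (map_ne_zero _).mpr hd
  -- the relation for `g f`
  have h1 : (g • f) * (g • b) = algebraMap K F (SemilinearAut.baseAut g c) * (g • a) := by
    rw [← smul_mul', h, smul_mul', SemilinearAut.smul_algebraMap]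
  -- the relation for `g² f`
  have h2 : (g • g • f) * (g • g • b) =
      algebraMap K F (SemilinearAut.baseAut g (SemilinearAut.baseAut g c)) * (g • g • a) := by
    rw [← smul_mul', h1, smul_mul', SemilinearAut.smul_algebraMap]
  -- the relation for `Tm (g f)`
  obtain ⟨c', hc', hTc⟩ := hconst _ (hbase hc)
  have h3 : Tm (g • f) * Tm (g • b) = algebraMap K F c' * Tm (g • a) := by
    rw [← hmul, h1, hmul, hTc]
  have e0 := ord_eq_sub_of_mul_eq P hc ha hb h
  have e2 := ord_eq_sub_of_mul_eq P (hbase (hbase hc)) (hg (hg ha)) (hg (hg hb)) h2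
  have e3 := ord_eq_sub_of_mul_eq P hc' (hne _ (hg ha)) (hne _ (hg hb)) h3
  have pa : P.ord (a ^ ℓ) = ℓ * P.ord a := by
    rw [← zpow_natCast, P.ord_zpow]
  have pb : P.ord (b ^ ℓ) = ℓ * P.ord b := by
    rw [← zpow_natCast, P.ord_zpow]
  rw [P.ord_mul (mul_ne_zero (hg (hg ha)) (pow_ne_zero _ ha)) (hne _ (hg hb)),
    P.ord_mul (hg (hg ha)) (pow_ne_zero _ ha),
    P.ord_mul (mul_ne_zero (hg (hg hb)) (pow_ne_zero _ hb)) (hne _ (hg ha)),
    P.ord_mul (hg (hg hb)) (pow_ne_zero _ hb), pa, pb, e0, e2, e3]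
  ring

/-- **Abstract shell of the Eichler–Shimura relation on torsion.**  `g` a semilinear
automorphism, `T` an endomorphism of `Pic⁰` induced by an additive map `Tdiv` on divisors which
maps `div f` to `div (Tm f)`.  If for every `f` whose divisor is divisible by `n` the function
`g²(f) · f^ℓ / Tm (g f)` is, up to a function with trivial divisor, an `n`-th power
(hypothesis `hroot`, in terms of orders), then `g² - T g + ℓ` kills the `n`-torsion. -/
theorem quadratic_relation_of_roots {n : ℕ} (hn : 0 < n) (ℓ : ℕ) (g : SemilinearAut K F)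
    (T : Pic0 K F →+ Pic0 K F) (Tdiv : Divisor K F →+ Divisor K F) (Tm : F → F)
    (hT : ∀ D : Divisor.degZero (K := K) (F := F), ∃ D' : Divisor.degZero (K := K) (F := F),
      T (Pic0.mk D) = Pic0.mk D' ∧ (D' : Divisor K F) = Tdiv (D : Divisor K F))
    (hTm : ∀ f : F, f ≠ 0 → ∀ D : Divisor K F, (∀ P : Place K F, D P = P.ord f) →
      ∀ P : Place K F, Tdiv D P = P.ord (Tm f))
    (hroot : ∀ f : F, f ≠ 0 →
      (∀ P : Place K F, (n : ℤ) ∣ P.ord (g • g • f) - P.ord (Tm (g • f)) + ℓ * P.ord f) →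
      ∃ w : F, w ≠ 0 ∧ ∀ P : Place K F,
        P.ord (g • g • f) - P.ord (Tm (g • f)) + ℓ * P.ord f = n * P.ord w)
    (x : Pic0 K F) (hx : n • x = 0) :
    g • g • x - T (g • x) + ℓ • x = 0 := by
  obtain ⟨D, rfl, f, hf, hD⟩ := exists_function_of_nsmul_eq_zero hx
  have hgf : g • f ≠ 0 := by
    rw [SemilinearAut.smul_def]
    exact (map_ne_zero _).mpr hf
  -- the three terms on divisors
  obtain ⟨D', hD'1, hD'2⟩ := hT (SemilinearAut.degZeroSMulHom g D)
  have e1 : g • Pic0.mk D = Pic0.mk (SemilinearAut.degZeroSMulHom g D) :=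
    SemilinearAut.pic0_smul_mk g D
  have e2 : g • g • Pic0.mk D =
      Pic0.mk (SemilinearAut.degZeroSMulHom g (SemilinearAut.degZeroSMulHom g D)) := by
    rw [e1, SemilinearAut.pic0_smul_mk]
  have e3 : ℓ • Pic0.mk D = Pic0.mk (ℓ • D) := rfl
  have hTg : ∀ P : Place K F, (n : ℤ) * Tdiv (g • (D : Divisor K F)) P = P.ord (Tm (g • f)) := by
    intro P
    have h1 : ∀ Q : Place K F, ((n : ℤ) • (g • (D : Divisor K F))) Q = Q.ord (g • f) := by
      intro Q
      rw [Finsupp.smul_apply, smul_eq_mul]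
      exact ord_smul_of_divisor g hD Q
    have h2 := hTm (g • f) hgf _ h1 P
    rw [map_zsmul, Finsupp.smul_apply, smul_eq_mul] at h2
    exact h2
  have hgg : ∀ P : Place K F, (n : ℤ) * (g • g • (D : Divisor K F)) P = P.ord (g • g • f) :=
    fun P => ord_smul_of_divisor g (fun Q => ord_smul_of_divisor g hD Q) P
  -- the total divisor
  set E : Divisor.degZero (K := K) (F := F) :=
    SemilinearAut.degZeroSMulHom g (SemilinearAut.degZeroSMulHom g D) - D' + ℓ • D with hE
  have hEval : ∀ P : Place K F, (n : ℤ) * (E : Divisor K F) P =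
      P.ord (g • g • f) - P.ord (Tm (g • f)) + ℓ * P.ord f := by
    intro P
    rw [hE, AddSubgroup.coe_add, AddSubgroup.coe_sub, AddSubgroup.coe_nsmul, hD'2,
      SemilinearAut.coe_degZeroSMulHom, SemilinearAut.coe_degZeroSMulHom,
      Finsupp.add_apply, Finsupp.sub_apply,
      Finsupp.smul_apply, nsmul_eq_mul, mul_add, mul_sub, hgg P, hTg P, ← hD P]
    ring
  obtain ⟨w, hw, hwE⟩ := hroot f hf (fun P => ⟨(E : Divisor K F) P, (hEval P).symm⟩)
  have hmk : Pic0.mk E = 0 := mk_eq_zero_of_ord hn E hw (fun P => by rw [hEval P, hwE P])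
  rw [e2, e1, hD'1, e3, ← hmk, hE]
  rfl

end Shell

end Fermat.Agent.H36

end
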