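import Fermat.Agent.H36.ESE.TorsionES
import Fermat.Agent.H94.QEig.Interfaces

/-!
# P-ES / ES-E (Q-ES-5): the torsion Hecke datum

`torsionHeckeDatum N n hn hGal hES : Fermat.Agent.H22.ES.TorsionHeckeDatum N n`, with
`T ℓ = Fermat.Agent.H94.QEig.heckeTors ℚ̄ N n ℓ` (the prelude Hecke operator restricted to
`J₀(N)[n]`) at the primes `ℓ ∤ N` and `T ℓ = 0` otherwise, from

* `hGal : HeckeGaloisTorsionStatement N` (Q-ES-3) and
* `hES  : EichlerShimuraRelStatement N` (Q-ES-4, `eichlerShimuraRel_of_keyLemma`).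
-/

set_option autoImplicit false
set_option linter.style.haveILetI false
set_option linter.unusedSectionVars false
set_option synthInstance.maxHeartbeats 400000

noncomputable section

namespace Fermat.Agent.H36

open ModularCurve AlgebraicCurve Fermat.Agent.H22.ES

open Classical in
/-- The operators of the torsion Hecke datum: the prelude Hecke operator on `J₀(N)[n]` at the
primes `ℓ ∤ N`, and `0` otherwise. -/
def torsionHeckeOp (N n : ℕ) [NeZero N] (ℓ : ℕ) : Module.End (ZMod n) (JTors N n) :=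
  if ℓ.Prime ∧ ¬ ℓ ∣ N then Fermat.Agent.H94.QEig.heckeTors (AlgebraicClosure ℚ) N n ℓ else 0

theorem torsionHeckeOp_of_prime (N n : ℕ) [NeZero N] {ℓ : ℕ} (hℓ : ℓ.Prime) (hℓN : ¬ ℓ ∣ N) :
    torsionHeckeOp N n ℓ = Fermat.Agent.H94.QEig.heckeTors (AlgebraicClosure ℚ) N n ℓ := by
  rw [torsionHeckeOp, if_pos ⟨hℓ, hℓN⟩]

theorem torsionHeckeOp_of_not (N n : ℕ) [NeZero N] {ℓ : ℕ} (h : ¬ (ℓ.Prime ∧ ¬ ℓ ∣ N)) :
    torsionHeckeOp N n ℓ = 0 := by
  rw [torsionHeckeOp, if_neg h]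

theorem coe_torsionHeckeOp_apply (N n : ℕ) [NeZero N] {ℓ : ℕ} (hℓ : ℓ.Prime) (hℓN : ¬ ℓ ∣ N)
    (x : JTors N n) :
    ((torsionHeckeOp N n ℓ x : JTors N n) : JZero N) =
      heckeOperatorBar N ⟨ℓ, hℓ⟩ (x : JZero N) := by
  haveI : NeZero ℓ := ⟨hℓ.ne_zero⟩
  rw [torsionHeckeOp_of_prime N n hℓ hℓN, Fermat.Agent.H94.QEig.coe_heckeTors_apply]
  exact (heckeOperatorBar_apply N ⟨ℓ, hℓ⟩ _).symm

theorem nsmul_coe_jTors (N n : ℕ) (x : JTors N n) : n • (x : JZero N) = 0 := by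
  have h := Pic0.mem_torsion.mp x.2
  rwa [Nat.cast_smul_eq_nsmul ℤ n (x : JZero N)] at h

theorem torsionHeckeOp_galois (N n : ℕ) [NeZero N] (hn : 0 < n)
    (hGal : HeckeGaloisTorsionStatement N) (ℓ : ℕ)
    (σ : AlgebraicClosure ℚ ≃ₐ[ℚ] AlgebraicClosure ℚ) (x : JTors N n) :
    torsionHeckeOp N n ℓ (JZero.torsionGaloisRep N n σ x) =
      JZero.torsionGaloisRep N n σ (torsionHeckeOp N n ℓ x) := by
  by_cases h : ℓ.Prime ∧ ¬ ℓ ∣ N
  · apply Subtype.ext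
    rw [coe_torsionHeckeOp_apply N n h.1 h.2, JZero.coe_torsionGaloisRep_apply,
      JZero.coe_torsionGaloisRep_apply, coe_torsionHeckeOp_apply N n h.1 h.2]
    exact hGal ℓ h.1 h.2 σ n hn _ (nsmul_coe_jTors N n x)
  · rw [torsionHeckeOp_of_not N n h]
    exact (LinearMap.map_zero (JZero.torsionGaloisRep N n σ)).symm

theorem coe_natCast_zmod_smul (N n : ℕ) (ℓ : ℕ) (x : JTors N n) :
    ((((ℓ : ZMod n) • x : JTors N n)) : JZero N) = ℓ • (x : JZero N) := by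
  rw [Nat.cast_smul_eq_nsmul (ZMod n) ℓ x]
  rfl

theorem torsionHeckeOp_eichlerShimura (N n : ℕ) [NeZero N] (hn : 0 < n)
    (hES : EichlerShimuraRelStatement N) (ℓ : ℕ) (hℓ : ℓ.Prime) (hℓNn : ¬ ℓ ∣ N * n)
    (A : ValuationSubring (AlgebraicClosure ℚ)) (hA : A.LiesOverPrime ℓ)
    (σ : AlgebraicClosure ℚ ≃ₐ[ℚ] AlgebraicClosure ℚ) (hσ : A.IsFrobeniusAt σ ℓ)
    (x : JTors N n) :
    JZero.torsionGaloisRep N n σ (JZero.torsionGaloisRep N n σ x)
      - torsionHeckeOp N n ℓ (JZero.torsionGaloisRep N n σ x) + (ℓ : ZMod n) • x = 0 := by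
  have hℓN : ¬ ℓ ∣ N := fun h => hℓNn (Dvd.dvd.mul_right h n)
  have hℓn : ¬ ℓ ∣ n := fun h => hℓNn (Dvd.dvd.mul_left h N)
  apply Subtype.ext
  have key := hES ℓ hℓ hℓN n hn hℓn A hA σ hσ (x : JZero N) (nsmul_coe_jTors N n x)
  rw [AddSubgroup.coe_add, AddSubgroup.coe_sub, coe_torsionHeckeOp_apply N n hℓ hℓN,
    JZero.coe_torsionGaloisRep_apply, JZero.coe_torsionGaloisRep_apply,
    coe_natCast_zmod_smul, ZeroMemClass.coe_zero]
  exact key

/-- **Q-ES-5.**  The torsion Hecke datum of level `N` on `J₀(N)[n]`. -/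
def torsionHeckeDatum (N n : ℕ) [NeZero N] (hn : 0 < n) (hGal : HeckeGaloisTorsionStatement N)
    (hES : EichlerShimuraRelStatement N) : TorsionHeckeDatum N n where
  T := torsionHeckeOp N n
  galois := fun ℓ σ => LinearMap.ext fun x => torsionHeckeOp_galois N n hn hGal ℓ σ x
  eichlerShimura := fun ℓ hℓ hℓNn A hA σ hσ =>
    LinearMap.ext fun x => torsionHeckeOp_eichlerShimura N n hn hES ℓ hℓ hℓNn A hA σ hσ x

@[simp]
theorem torsionHeckeDatum_T (N n : ℕ) [NeZero N] (hn : 0 < n)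
    (hGal : HeckeGaloisTorsionStatement N) (hES : EichlerShimuraRelStatement N) (ℓ : ℕ) :
    (torsionHeckeDatum N n hn hGal hES).T ℓ = torsionHeckeOp N n ℓ :=
  rfl

/-- The shape consumed by `Fermat.Agent.H94.QEig.occursVec_of_qEig`. -/
theorem torsionHeckeDatum_T_eq_heckeTors (N n : ℕ) [NeZero N] (hn : 0 < n)
    (hGal : HeckeGaloisTorsionStatement N) (hES : EichlerShimuraRelStatement N)
    (ℓ : ℕ) (hℓ : ℓ.Prime) (hℓNn : ¬ ℓ ∣ N * n) :
    (torsionHeckeDatum N n hn hGal hES).T ℓ =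
      Fermat.Agent.H94.QEig.heckeTors (AlgebraicClosure ℚ) N n ℓ :=
  torsionHeckeOp_of_prime N n hℓ (fun h => hℓNn (Dvd.dvd.mul_right h n))

end Fermat.Agent.H36

end
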