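import Fermat.Agent.H36.ESE.Assembly

/-!
# P-ES / ES-E: interfaces (statement `Prop`s) and the final glue

Notation: `L` a field of characteristic `0` (in the end `ℚ̄`), `A` a valuation subring of `L`,
`π : A →+* k` a residue map, `F = laurentBaseChange L (modularFunctionFieldFull N)` the function
field of `X₀(N)` over `L`, `Fbar = modularFunctionFieldFullC k N` the function field in
characteristic `ℓ`; for an integral series `y : LaurentSeries A` we write
`y_L = coeffMap A.subtype y` and `ybar = coeffMap π y`.

The route to the congruence relation and to Galois equivariance is *model free*: both are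
identities `r_* ∘ τ = τbar ∘ r_*` between additive maps on divisors;

1. they hold on divisors of admissible functions by the prelude axiom `IsPlaceReductionAlong`
   (`r_* div y_L = div ybar`) and an explicit computation of reductions
   (coefficientwise action for Galois, `KroneckerNormStatement` for `T_ℓ`);
2. the isolation principle `eq_zero_of_isolation` (file `Abstract`) extends them to all places,
   provided places can be isolated by divisors of admissible functions (`IsolationStatement`,
   which follows from `GoodFunctionsStatement`: lifting of functions with degree control,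
   ES-D) and the supports can be localised (through the function `j`, which is good by Igusa).
-/

set_option autoImplicit false

noncomputable section

namespace Fermat.Agent.H36

open ModularCurve AlgebraicCurve HahnSeries IntermediateField

section PolarDegree

variable {K F : Type*} [Field K] [Field F] [Algebra K F]

/-- `f` has polar degree `n`: the divisor of poles of `f` exists and has degree `n`. -/
def HasPolarDegree (K : Type*) {F : Type*} [Field K] [Field F] [Algebra K F] (f : F) (n : ℤ) :
    Prop :=
  ∃ D : Divisor K F, (∀ v : Place K F, D v = max 0 (-(v.ord f))) ∧ Divisor.degree D = n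

end PolarDegree

section Series

variable {L : Type*} [Field L] [Algebra ℚ L] (A : ValuationSubring L)
variable {k : Type*} [Field k] (π : A →+* k) (N : ℕ)

/-- An integral series `y` is *admissible* if `y_L` is a modular function of level `N`, its
reduction `ybar` lies in the function field in characteristic `ℓ`, and `ybar ≠ 0`.  These are
exactly the hypotheses on `y` in the prelude axiom `IsPlaceReductionAlong`. -/
structure IsAdmissibleSeries (y : LaurentSeries A) : Prop where
  memL : coeffMap A.subtype y ∈ laurentBaseChange L (modularFunctionFieldFull N)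
  memk : coeffMap π y ∈ modularFunctionFieldFullC k N
  ne_zero : coeffMap π y ≠ 0

/-- An admissible series is *good* if its polar degree does not drop under reduction. -/
def IsGoodSeries (y : LaurentSeries A) : Prop :=
  ∃ (hL : coeffMap A.subtype y ∈ laurentBaseChange L (modularFunctionFieldFull N))
    (hk : coeffMap π y ∈ modularFunctionFieldFullC k N) (n : ℤ),
    HasPolarDegree L (⟨coeffMap A.subtype y, hL⟩ :
      laurentBaseChange L (modularFunctionFieldFull N)) n ∧
    HasPolarDegree k (⟨coeffMap π y, hk⟩ : modularFunctionFieldFullC k N) n ∧ 0 < n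

/-- **(D-good), wanted from ES-D.**  Lifting of functions with degree control: for every place
`Q₁` of `Fbar` and every finite set `S` of places there is a good integral series whose
reduction has a simple zero at `Q₁` and neither zero nor pole at the other places of `S`.
(True because the reduction is smooth: Riemann–Roch on both sides and equality of genera give
surjectivity of `L(n P₂) ∩ O_v → L(n Q₂)`.) -/
def GoodFunctionsStatement : Prop :=
  ∀ (Q₁ : Place k (modularFunctionFieldFullC k N))
    (S : Finset (Place k (modularFunctionFieldFullC k N))),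
    ∃ (y : LaurentSeries A) (_ : IsGoodSeries A π N y)
      (hk : coeffMap π y ∈ modularFunctionFieldFullC k N),
      Q₁.ord (⟨coeffMap π y, hk⟩ : modularFunctionFieldFullC k N) = 1 ∧
      ∀ Q ∈ S, Q ≠ Q₁ → Q.ord (⟨coeffMap π y, hk⟩ : modularFunctionFieldFullC k N) = 0

/-- **(D-j), wanted from ES-D / P-IGUSA.**  The function `j` is good: `[F : L(j)] = ψ(N) =
[Fbar : k(jbar)]`. -/
def JGoodStatement : Prop :=
  IsGoodSeries A π N (jqModC A)

variable {A π N}
variable (r : Place L (laurentBaseChange L (modularFunctionFieldFull N)) →
      Place k (modularFunctionFieldFullC k N))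

/-- **Centre property** of `r` for the integral series `y`: poles reduce to poles, points where
`y_L` takes the value `c ∈ A` reduce to points where `ybar` takes the value `π c`, and points
where `y_L` takes a value outside `A` reduce to poles of `ybar`. -/
def CenterProperty (y : LaurentSeries A) : Prop :=
  ∃ (hL : coeffMap A.subtype y ∈ laurentBaseChange L (modularFunctionFieldFull N))
    (hk : coeffMap π y ∈ modularFunctionFieldFullC k N),
    ∀ P : Place L (laurentBaseChange L (modularFunctionFieldFull N)),
      (P.ord (⟨coeffMap A.subtype y, hL⟩ : laurentBaseChange L (modularFunctionFieldFull N)) < 0 →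
        (r P).ord (⟨coeffMap π y, hk⟩ : modularFunctionFieldFullC k N) < 0) ∧
      (∀ c : A, 0 < P.ord ((⟨coeffMap A.subtype y, hL⟩ :
          laurentBaseChange L (modularFunctionFieldFull N)) - algebraMap L _ (c : L)) →
        0 < (r P).ord ((⟨coeffMap π y, hk⟩ : modularFunctionFieldFullC k N) -
          algebraMap k _ (π c))) ∧
      (∀ c : L, c ∉ A → 0 < P.ord ((⟨coeffMap A.subtype y, hL⟩ :
          laurentBaseChange L (modularFunctionFieldFull N)) - algebraMap L _ c) →
        (r P).ord (⟨coeffMap π y, hk⟩ : modularFunctionFieldFullC k N) < 0)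

/-- **Isolation property** of `r`: every place can be isolated, with respect to every finite set
of places downstairs, by the divisor of an admissible function. -/
def IsolationProperty (A : ValuationSubring L) (π : A →+* k)
    (r : Place L (laurentBaseChange L (modularFunctionFieldFull N)) →
      Place k (modularFunctionFieldFullC k N)) : Prop :=
  ∀ (P₁ : Place L (laurentBaseChange L (modularFunctionFieldFull N)))
    (S : Finset (Place k (modularFunctionFieldFullC k N))),
    ∃ D ∈ integralPrincipalDivisors A π N, D P₁ = 1 ∧ ∀ P', P' ≠ P₁ → D P' ≠ 0 → r P' ∉ S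

end Series

section ModL

set_option synthInstance.maxHeartbeats 400000

variable (N : ℕ)

/-- **E8 (target).**  Every place reduction map (in the sense of the prelude) at a place `A` of
`ℚ̄` over a prime `ℓ ∤ N` is equivariant for the decomposition group of `A`. -/
def GaloisEquivariantStatement : Prop :=
  ∀ (ℓ : ℕ), ℓ.Prime → ¬ ℓ ∣ N → ∀ A : ValuationSubring (AlgebraicClosure ℚ),
    A.LiesOverPrime ℓ → ∀ r, IsPlaceReductionModL A N r →
      PrincipalGeneratedByIntegral A (IsLocalRing.residue A) N →
      ∀ σ : A.decompositionSubgroup ℚ,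
        GaloisEquivariantAt N r (σ : AlgebraicClosure ℚ ≃ₐ[ℚ] AlgebraicClosure ℚ)
          (residueAut (K := ℚ) A σ)

/-- **E7 (target).**  Every place reduction map at a place `A` of `ℚ̄` over a prime `ℓ ∤ N`
satisfies the Eichler–Shimura congruence relation. -/
def CongruenceStatement [NeZero N] : Prop :=
  ∀ (ℓ : ℕ) (hℓ : ℓ.Prime), ¬ ℓ ∣ N → ∀ A : ValuationSubring (AlgebraicClosure ℚ),
    A.LiesOverPrime ℓ → ∀ r, IsPlaceReductionModL A N r →
      PrincipalGeneratedByIntegral A (IsLocalRing.residue A) N →
      ∀ φ : IsLocalRing.ResidueField A ≃+* IsLocalRing.ResidueField A, (∀ x, φ x = x ^ ℓ) →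
        haveI : NeZero ℓ := ⟨hℓ.ne_zero⟩
        CongruenceRelation N ℓ r φ

/-- **K-norm (E3 + E4 + E5 + ES-C norm formula).**  The Hecke correspondence maps the divisor
of an admissible function `y_L` to the divisor of an admissible function (the norm of
`y_L (q^ℓ)` from level `N ℓ` to level `N`), whose reduction is `φ(ybar) * (φ⁻¹(ybar))^ℓ`, where
`φ` is the coefficientwise Frobenius (Kronecker's congruence for norms). -/
def KroneckerNormStatement [NeZero N] : Prop :=
  ∀ (ℓ : ℕ) (hℓ : ℓ.Prime), ¬ ℓ ∣ N → ∀ A : ValuationSubring (AlgebraicClosure ℚ),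
    A.LiesOverPrime ℓ →
      ∀ φ : IsLocalRing.ResidueField A ≃+* IsLocalRing.ResidueField A, (∀ x, φ x = x ^ ℓ) →
        haveI : NeZero ℓ := ⟨hℓ.ne_zero⟩
        ∀ (hα : HeckeAlphaBarIntegral (AlgebraicClosure ℚ) N ℓ)
          (hβ : HeckeBetaBarIntegral (AlgebraicClosure ℚ) N ℓ)
          [HasPrincipalDivisors (AlgebraicClosure ℚ) (modularFunctionFieldBar (N * ℓ))]
          (y : LaurentSeries A) (hy : IsAdmissibleSeries A (IsLocalRing.residue A) N y)
          (D : Divisor (AlgebraicClosure ℚ) (modularFunctionFieldBar N)),
          (∀ P, D P = P.ord (⟨coeffMap A.subtype y, hy.memL⟩ : modularFunctionFieldBar N)) →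
          ∃ (y' : LaurentSeries A) (hL' : coeffMap A.subtype y' ∈ modularFunctionFieldBar N),
            coeffMap (IsLocalRing.residue A) y' =
              coeffMap (φ : IsLocalRing.ResidueField A →+* IsLocalRing.ResidueField A)
                  (coeffMap (IsLocalRing.residue A) y) *
                coeffMap (φ.symm : IsLocalRing.ResidueField A →+* IsLocalRing.ResidueField A)
                  (coeffMap (IsLocalRing.residue A) y) ^ ℓ ∧
            ∀ P, heckeDivBar hα hβ D P =
              P.ord (⟨coeffMap A.subtype y', hL'⟩ : modularFunctionFieldBar N)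

set_option maxHeartbeats 1600000 in
/-- **ES-E final glue.**  `ReductionDataStatement N p` (hence `S37`, by
`specializationExists_of_reductionData`) from the exports of ES-D (`hD1`, `hD2` = `S18`),
ES-C (`hC`) and the two ES-E targets. -/
theorem reductionDataStatement_of_parts (N p : ℕ) [NeZero N]
    (hD1 : ∀ ℓ : ℕ, ℓ.Prime → ¬ ℓ ∣ N → ∀ A : ValuationSubring (AlgebraicClosure ℚ),
      A.LiesOverPrime ℓ → ReductionInputsModL A N)
    (hD2 : ∀ ℓ : ℕ, ℓ.Prime → ¬ ℓ ∣ N → ∀ A : ValuationSubring (AlgebraicClosure ℚ),
      A.LiesOverPrime ℓ → TorsionInjective A N ℓ)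
    (hC : ∀ (ℓ : ℕ) (hℓ : ℓ.Prime), ¬ ℓ ∣ N →
      haveI : NeZero ℓ := ⟨hℓ.ne_zero⟩; HeckeInputsAlong (AlgebraicClosure ℚ) N ℓ)
    (hE8 : GaloisEquivariantStatement N) (hE7 : CongruenceStatement N) :
    ReductionDataStatement N p := by
  intro ℓ hℓ hℓNp A hA
  have hℓN : ¬ ℓ ∣ N := fun h => hℓNp (Dvd.dvd.mul_right h p)
  have h := hD1 ℓ hℓ hℓN A hA
  have hr := isPlaceReductionModL_placeReductionModL h
  have hgen : PrincipalGeneratedByIntegral A (IsLocalRing.residue A) N := h.choose_spec.2
  obtain ⟨σ₀, hσ₀⟩ := Fermat.Agent.H53.exists_isFrobeniusAt_algebraicClosure hℓ A hA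
  refine ⟨JZeroC (IsLocalRing.ResidueField A) N, inferInstance, ?_⟩
  refine jZeroReductionDatum_of_parts p hℓ hℓNp h (hD2 ℓ hℓ hℓN A hA) (hC ℓ hℓ hℓN)
    (hE8 ℓ hℓ hℓN A hA _ hr hgen)
    (residueAut (K := ℚ) A ⟨σ₀, hσ₀.mem_decompositionSubgroup⟩)
    (fun x => by rw [residueAut_apply]; exact hσ₀.smul_residue_eq x) ?_
  exact hE7 ℓ hℓ hℓN A hA _ hr hgen _
    (fun x => by rw [residueAut_apply]; exact hσ₀.smul_residue_eq x)

end ModL

end Fermat.Agent.H36

end
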