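import Fermat.Agent.H36.ESE.Rows
import Fermat.Agent.H77.EsEGalois
import Fermat.Agent.H16.S37E7

/-!
# P-ES / ES-E: isolation by divisors in the closure of the integral principal divisors

The rows E8 (`H77`) and E7 (`H16`) were stated with isolation by *integral principal divisors*
(`IsolationProperty`).  The lifting theorem of ES-D (`Fermat.Agent.H18.RvHyp.lifting`) produces
elements of the Gauss ring, i.e. *quotients* of integral series, whose divisors lie in the
subgroup generated by the integral principal divisors.  Both abstract cores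
(`H77.eseg_galois_abstract`, `H16.e7_core`) take the set of test divisors as a parameter, so we
re-instantiate them with the closure.
-/

set_option autoImplicit false
set_option linter.style.haveILetI false
set_option linter.unusedSectionVars false
set_option synthInstance.maxHeartbeats 400000

noncomputable section

namespace Fermat.Agent.H36

open ModularCurve AlgebraicCurve HahnSeries IntermediateField

section Defs

variable {L : Type*} [Field L] [Algebra ℚ L] {k : Type*} [Field k] {N : ℕ}

/-- **Isolation property, closure form**: every place can be isolated, with respect to every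
finite set of places downstairs, by a divisor in the subgroup generated by the integral
principal divisors. -/
def IsolationClosure (A : ValuationSubring L) (π : A →+* k)
    (r : Place L (laurentBaseChange L (modularFunctionFieldFull N)) →
      Place k (modularFunctionFieldFullC k N)) : Prop :=
  ∀ (P₁ : Place L (laurentBaseChange L (modularFunctionFieldFull N)))
    (S : Finset (Place k (modularFunctionFieldFullC k N))),
    ∃ D ∈ (AddSubgroup.closure (integralPrincipalDivisors A π N) :
        Set (Divisor L (laurentBaseChange L (modularFunctionFieldFull N)))),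
      D P₁ = 1 ∧ ∀ P', P' ≠ P₁ → D P' ≠ 0 → r P' ∉ S

theorem isolationClosure_of_isolationProperty {A : ValuationSubring L} {π : A →+* k}
    {r : Place L (laurentBaseChange L (modularFunctionFieldFull N)) →
      Place k (modularFunctionFieldFullC k N)}
    (h : IsolationProperty A π r) : IsolationClosure A π r := by
  intro P₁ S
  obtain ⟨D, hD, h1, h2⟩ := h P₁ S
  exact ⟨D, AddSubgroup.subset_closure hD, h1, h2⟩

end Defs

section AbstractClosure

variable {K F k Fbar : Type*} [Field K] [Field F] [Algebra K F] [Field k] [Field Fbar]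
  [Algebra k Fbar]

theorem mapDomain_neg_divisor (r : Place K F → Place k Fbar) (E : Divisor K F) :
    Finsupp.mapDomain r (-E) = -Finsupp.mapDomain r E :=
  map_neg (Finsupp.mapDomain.addMonoidHom r) E

theorem mapDomain_smul_of_mem_closure (r : Place K F → Place k Fbar) (g : SemilinearAut K F)
    (gbar : SemilinearAut k Fbar) (s : Set (Divisor K F))
    (h : ∀ D ∈ s, Finsupp.mapDomain r (g • D) = gbar • Finsupp.mapDomain r D)
    {D : Divisor K F} (hD : D ∈ AddSubgroup.closure s) :
    Finsupp.mapDomain r (g • D) = gbar • Finsupp.mapDomain r D := by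
  induction hD using AddSubgroup.closure_induction with
  | mem D hD => exact h D hD
  | zero => rw [smul_zero, Finsupp.mapDomain_zero, smul_zero]
  | add D E _ _ hD hE =>
    rw [smul_add, Finsupp.mapDomain_add, Finsupp.mapDomain_add, smul_add, hD, hE]
  | neg D _ hD => rw [smul_neg, mapDomain_neg_divisor, mapDomain_neg_divisor, smul_neg, hD]

theorem mapDomain_hecke_of_mem_closure_abstract (r : Place K F → Place k Fbar)
    (T : Divisor K F →+ Divisor K F) (gbar : SemilinearAut k Fbar) (ℓ : ℕ)
    (s : Set (Divisor K F))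
    (h : ∀ D ∈ s, Finsupp.mapDomain r (T D) =
      gbar • Finsupp.mapDomain r D + (ℓ : ℤ) • (gbar⁻¹ • Finsupp.mapDomain r D))
    {D : Divisor K F} (hD : D ∈ AddSubgroup.closure s) :
    Finsupp.mapDomain r (T D) =
      gbar • Finsupp.mapDomain r D + (ℓ : ℤ) • (gbar⁻¹ • Finsupp.mapDomain r D) := by
  induction hD using AddSubgroup.closure_induction with
  | mem D hD => exact h D hD
  | zero => simp only [map_zero, Finsupp.mapDomain_zero, smul_zero, add_zero]
  | add D E _ _ hD hE =>
    rw [map_add, Finsupp.mapDomain_add, Finsupp.mapDomain_add, hD, hE, smul_add, smul_add,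
      smul_add]
    abel
  | neg D _ hD =>
    rw [map_neg, mapDomain_neg_divisor, mapDomain_neg_divisor, hD, smul_neg, smul_neg, smul_neg]
    abel

end AbstractClosure

section Galois

variable {L : Type} [Field L] [Algebra ℚ L] {A : ValuationSubring L}
variable {k : Type} [Field k] {π : A →+* k} {N : ℕ}
variable {r : Place L (laurentBaseChange L (modularFunctionFieldFull N)) →
      Place k (modularFunctionFieldFullC k N)}

/-- `r_* ∘ σ = σ̄ ∘ r_*` on integral principal divisors. -/
theorem mapDomain_galois_of_mem_integralPrincipalDivisors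
    (hr : IsPlaceReductionAlong A π N r) {σ : L ≃ₐ[ℚ] L} {σbar : k ≃+* k}
    (hσ : IsInducedAut A π σ σbar)
    {D : Divisor L (laurentBaseChange L (modularFunctionFieldFull N))}
    (hD : D ∈ integralPrincipalDivisors A π N) :
    Finsupp.mapDomain r (arithmeticGalois (modularFunctionFieldFull N) σ • D) =
      coeffAutC N σbar • Finsupp.mapDomain r D := by
  have hσA : ∀ a : A, σ (a : L) ∈ A := by
    intro a
    obtain ⟨b, hb, -⟩ := hσ a
    rw [← hb]
    exact b.2
  have hπσ : ∀ a : A, π (Fermat.Agent.H77.esegRestrict A σ hσA a) = σbar (π a) := by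
    intro a
    obtain ⟨b, hb, hπb⟩ := hσ a
    have : Fermat.Agent.H77.esegRestrict A σ hσA a = b := Subtype.ext hb.symm
    rw [this, hπb]
  obtain ⟨y, hy, hyk, hne, hD⟩ := hD
  have e1 := Fermat.Agent.H77.eseg_coeffMap_subtype_restrict A σ hσA y
  have e2 := Fermat.Agent.H77.eseg_coeffMap_pi_restrict A π σ hσA σbar hπσ y
  have hy' : coeffMap A.subtype (coeffMap (Fermat.Agent.H77.esegRestrict A σ hσA) y) ∈
      laurentBaseChange L (modularFunctionFieldFull N) := by
    rw [e1]
    exact coeffMap_mem_laurentBaseChange σ hy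
  have hyk' : coeffMap π (coeffMap (Fermat.Agent.H77.esegRestrict A σ hσA) y) ∈
      modularFunctionFieldFullC k N := by
    rw [e2]
    exact coeffMap_mem_modularFunctionFieldFullC N _ hyk
  have hne' : coeffMap π (coeffMap (Fermat.Agent.H77.esegRestrict A σ hσA) y) ≠ 0 := by
    rw [e2]
    exact Fermat.Agent.H77.eseg_coeffMap_equiv_ne_zero σbar hne
  refine Fermat.Agent.H77.eseg_mapDomain_smul_of_div r _ _ ⟨coeffMap A.subtype y, hy⟩
    ⟨coeffMap π y, hyk⟩ D hD (hr.2 y hy hyk hne D hD) ?_
  intro E hE Q
  have hg1 : arithmeticGalois (modularFunctionFieldFull N) σ •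
      (⟨coeffMap A.subtype y, hy⟩ : laurentBaseChange L (modularFunctionFieldFull N)) =
      ⟨coeffMap A.subtype (coeffMap (Fermat.Agent.H77.esegRestrict A σ hσA) y), hy'⟩ :=
    Subtype.ext e1.symm
  have hg2 : coeffAutC N σbar • (⟨coeffMap π y, hyk⟩ : modularFunctionFieldFullC k N) =
      ⟨coeffMap π (coeffMap (Fermat.Agent.H77.esegRestrict A σ hσA) y), hyk'⟩ :=
    Subtype.ext e2.symm
  rw [hg2]
  refine hr.2 _ hy' hyk' hne' E (fun P => ?_) Q
  rw [hE P, hg1]

/-- `r_* ∘ σ = σ̄ ∘ r_*` on the subgroup generated by the integral principal divisors. -/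
theorem mapDomain_galois_of_mem_closure
    (hr : IsPlaceReductionAlong A π N r) {σ : L ≃ₐ[ℚ] L} {σbar : k ≃+* k}
    (hσ : IsInducedAut A π σ σbar)
    {D : Divisor L (laurentBaseChange L (modularFunctionFieldFull N))}
    (hD : D ∈ AddSubgroup.closure (integralPrincipalDivisors A π N)) :
    Finsupp.mapDomain r (arithmeticGalois (modularFunctionFieldFull N) σ • D) =
      coeffAutC N σbar • Finsupp.mapDomain r D := by
  exact mapDomain_smul_of_mem_closure r _ _ _
    (fun D hD => mapDomain_galois_of_mem_integralPrincipalDivisors hr hσ hD) hD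

/-- **Row E8, closure form.** -/
theorem galoisEquivariantAt_of_isolationClosure (hπ : IsResidueMap A π)
    (hr : IsPlaceReductionAlong A π N r)
    (hPk : HasPrincipalDivisors k (modularFunctionFieldFullC k N))
    (hdeg : ∀ P : Place L (laurentBaseChange L (modularFunctionFieldFull N)), P.deg = 1)
    (hiso : IsolationClosure A π r) (hcen : CenterProperty (π := π) r (jqModC A))
    (σ : L ≃ₐ[ℚ] L) (σbar : k ≃+* k) (hσ : IsInducedAut A π σ σbar) :
    GaloisEquivariantAt N r σ σbar := by
  obtain ⟨hL, hk, hc⟩ := hcen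
  have hjL : coeffMap A.subtype (jqModC A) = jqModC L := coeffMap_jqModC _
  have hjk : coeffMap π (jqModC A) = jqModC k := coeffMap_jqModC _
  intro P
  refine Fermat.Agent.H77.eseg_galois_abstract A π hπ.ker r
    (arithmeticGalois (modularFunctionFieldFull N) σ)
    (coeffAutC N σbar) (fun a => hσ a) ⟨coeffMap A.subtype (jqModC A), hL⟩
    ⟨coeffMap π (jqModC A), hk⟩ ?_ ?_ ?_ ?_ hPk hdeg hc
    (AddSubgroup.closure (integralPrincipalDivisors A π N) :
      Set (Divisor L (laurentBaseChange L (modularFunctionFieldFull N)))) ?_ hiso P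
  · apply Subtype.ext
    rw [coe_arithmeticGalois_smul]
    show coeffMap (σ : L →+* L) (coeffMap A.subtype (jqModC A)) = coeffMap A.subtype (jqModC A)
    rw [hjL, coeffMap_jqModC]
  · apply Subtype.ext
    rw [coe_coeffAutC_smul]
    show coeffMap (σbar : k →+* k) (coeffMap π (jqModC A)) = coeffMap π (jqModC A)
    rw [hjk, coeffMap_jqModC]
  · intro c h
    have h1 := congrArg Subtype.val h
    exact Fermat.Agent.H77.eseg_jqModC_ne_algebraMap L c (hjL ▸ h1)
  · intro a h
    have h1 := congrArg Subtype.val (sub_eq_zero.mp h)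
    exact Fermat.Agent.H77.eseg_jqModC_ne_algebraMap k a (hjk ▸ h1)
  · intro D hD
    exact mapDomain_galois_of_mem_closure hr hσ hD

end Galois

section Hecke

/-- The congruence relation on the subgroup generated by the integral principal divisors. -/
theorem mapDomain_hecke_of_mem_closure (N : ℕ) [NeZero N] (ℓ : ℕ) (hℓ : ℓ.Prime) (hℓN : ¬ ℓ ∣ N)
    (A : ValuationSubring (AlgebraicClosure ℚ)) (hA : A.LiesOverPrime ℓ)
    (r : Place (AlgebraicClosure ℚ) (modularFunctionFieldBar N) →
      Place (IsLocalRing.ResidueField A)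
        (modularFunctionFieldFullC (IsLocalRing.ResidueField A) N))
    (hr : IsPlaceReductionModL A N r) (hK : KroneckerNormStatement N)
    (φ : IsLocalRing.ResidueField A ≃+* IsLocalRing.ResidueField A) (hφ : ∀ x, φ x = x ^ ℓ)
    [NeZero ℓ]
    (hα : HeckeAlphaBarIntegral (AlgebraicClosure ℚ) N ℓ)
    (hβ : HeckeBetaBarIntegral (AlgebraicClosure ℚ) N ℓ)
    [HasPrincipalDivisors (AlgebraicClosure ℚ) (modularFunctionFieldBar (N * ℓ))]
    (D : Divisor (AlgebraicClosure ℚ) (modularFunctionFieldBar N))
    (hD : D ∈ AddSubgroup.closure (integralPrincipalDivisors A (IsLocalRing.residue A) N)) :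
    Finsupp.mapDomain r (heckeDivBar hα hβ D) =
      coeffAutC N φ • Finsupp.mapDomain r D +
        (ℓ : ℤ) • ((coeffAutC N φ)⁻¹ • Finsupp.mapDomain r D) := by
  exact mapDomain_hecke_of_mem_closure_abstract r (heckeDivBar hα hβ) (coeffAutC N φ) ℓ _
    (fun D hD => Fermat.Agent.H16.e7_vanish N ℓ hℓ hℓN A hA r hr hK φ hφ hα hβ D hD) hD

set_option maxHeartbeats 1600000 in
/-- **Row E7, closure form.** -/
theorem congruenceRelation_of_isolationClosure (N : ℕ) [NeZero N] (ℓ : ℕ) (hℓ : ℓ.Prime)
    (hℓN : ¬ ℓ ∣ N) (A : ValuationSubring (AlgebraicClosure ℚ)) (hA : A.LiesOverPrime ℓ)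
    (r : Place (AlgebraicClosure ℚ) (modularFunctionFieldBar N) →
      Place (IsLocalRing.ResidueField A)
        (modularFunctionFieldFullC (IsLocalRing.ResidueField A) N))
    (hr : IsPlaceReductionModL A N r)
    (hPk : HasPrincipalDivisors (IsLocalRing.ResidueField A)
      (modularFunctionFieldFullC (IsLocalRing.ResidueField A) N))
    (hdeg : ∀ P : Place (AlgebraicClosure ℚ) (modularFunctionFieldBar N), P.deg = 1)
    (hiso : IsolationClosure A (IsLocalRing.residue A) r)
    (hcen : CenterProperty (π := IsLocalRing.residue A) r (jqModC A))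
    (hK : KroneckerNormStatement N)
    (φ : IsLocalRing.ResidueField A ≃+* IsLocalRing.ResidueField A) (hφ : ∀ x, φ x = x ^ ℓ) :
    haveI : NeZero ℓ := ⟨hℓ.ne_zero⟩
    CongruenceRelation N ℓ r φ := by
  haveI : NeZero ℓ := ⟨hℓ.ne_zero⟩
  intro hα hβ _ P
  have : Fact ℓ.Prime := ⟨hℓ⟩
  have : CharP (IsLocalRing.ResidueField A) ℓ := Fermat.Agent.H16.e7_charP_residueField A hℓ hA
  obtain ⟨hL, hk, hcentre⟩ := hcen
  obtain ⟨Φ, hΦ, hkron, hmod⟩ := Fermat.Agent.H16.e7_exists_modularPolynomial_over ℓ
  have hjF : ((⟨coeffMap A.subtype (jqModC A), hL⟩ : modularFunctionFieldBar N) :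
      LaurentSeries (AlgebraicClosure ℚ)) = jqModC (AlgebraicClosure ℚ) :=
    coeffMap_jqModC A.subtype
  have hmodF := Fermat.Agent.H16.e7_modEq_field N ℓ Φ (hmod (AlgebraicClosure ℚ)) ⟨_, hL⟩ hjF
  exact Fermat.Agent.H16.e7_core (heckeAlphaBar _ N ℓ) (heckeBetaBar _ N ℓ) hα hβ A
    (IsLocalRing.residue A) r
    (coeffAutC N φ) ℓ ⟨_, hL⟩ ⟨_, hk⟩ hdeg (Fermat.Agent.H16.e7_jF_ne_const A N hL)
    (Fermat.Agent.H16.e7_jk_ne_const A (IsLocalRing.residue A) N hk) hcentre Φ hΦ hkron
    hmodF.1 hmodF.2
    (Fermat.Agent.H16.e7_smul_jk A (IsLocalRing.residue A) N φ hk) hφ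
    (AddSubgroup.closure (integralPrincipalDivisors A (IsLocalRing.residue A) N) :
      Set (Divisor (AlgebraicClosure ℚ) (modularFunctionFieldBar N)))
    (fun D hD => mapDomain_hecke_of_mem_closure N ℓ hℓ hℓN A hA r hr hK φ hφ hα hβ D hD) hiso P

end Hecke

end Fermat.Agent.H36

end
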