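import Fermat.Agent.H18.RedCoord
import Fermat.Agent.H36.ESE.IsoClosure

/-!
# P-ES / ES-E: isolation (closure form) from the lifting theorem of ES-D

`isolationClosure_of_rvHyp`: under helper18's hypotheses (`RvHyp`, rank one, Riemann packages on
both sides, `g_L ≤ g_k`), every place `P₁` of `F_L` is isolated, with respect to every finite set
`S` of places of `F_k`, by the divisor of an element `t` of the Gauss ring with nonzero
reduction: `t` has a simple zero at `P₁`, and its other zeros and poles reduce outside `S`.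

Construction: choose `Q₀ ∉ S ∪ {r P₁}`, `P₀` above `Q₀`, and by Riemann–Roch in characteristic
`ℓ` a function `x ∈ L_k(n Q₀ - Q)` with a simple zero at `Q = r P₁` and without zero at the other
points of `S` (a vector space over an infinite field is not a finite union of proper subspaces);
lift `x` to `t ∈ L_L(n P₀ - P₁)` in the Gauss ring.
-/

set_option autoImplicit false
set_option linter.style.haveILetI false
set_option linter.unusedSectionVars false
set_option synthInstance.maxHeartbeats 400000
set_option maxHeartbeats 1600000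

noncomputable section

namespace Fermat.Agent.H36

open ModularCurve AlgebraicCurve Fermat.Agent.H27.ESD Fermat.Agent.H18

section RiemannRoch

variable {K F : Type*} [Field K] [Field F] [Algebra K F]

theorem riemannRochSpace_sub_single_le (E : Divisor K F) (v₀ : Place K F) :
    riemannRochSpace (E - Finsupp.single v₀ 1) ≤ riemannRochSpace E := by
  classical
  intro x hx
  rw [mem_riemannRochSpace_iff] at hx ⊢
  intro v
  rcases hx v with h | h
  · exact Or.inl h
  · right
    rw [Finsupp.sub_apply, Finsupp.single_apply] at h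
    split_ifs at h <;> omega

/-- An element of `L(E) \ L(E - v₀)` has order exactly `-E v₀` at `v₀`. -/
theorem ord_eq_of_mem_of_notMem {E : Divisor K F} {v₀ : Place K F} {x : F}
    (hx : x ∈ riemannRochSpace E) (hx' : x ∉ riemannRochSpace (E - Finsupp.single v₀ 1)) :
    x ≠ 0 ∧ v₀.ord x = -E v₀ := by
  classical
  have hx0 : x ≠ 0 := fun h0 => hx' (h0 ▸ Submodule.zero_mem _)
  refine ⟨hx0, ?_⟩
  have h1 : -E v₀ ≤ v₀.ord x := by
    rcases (mem_riemannRochSpace_iff.mp hx) v₀ with h | h
    · exact absurd h hx0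
    · exact h
  have h2 : v₀.ord x < -E v₀ + 1 := by
    by_contra hcon
    push Not at hcon
    apply hx'
    rw [mem_riemannRochSpace_iff]
    intro v
    right
    rw [Finsupp.sub_apply, Finsupp.single_apply]
    by_cases hv : v₀ = v
    · subst hv
      rw [if_pos rfl]
      omega
    · rw [if_neg hv, sub_zero]
      rcases (mem_riemannRochSpace_iff.mp hx) v with h | h
      · exact absurd h hx0
      · exact h
  omega

/-- Riemann–Roch with avoidance: for `n` large there is `x ∈ L(n Q₀ - Q)` of order exactly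
`-(n Q₀ - Q)(Q')` at every `Q'` of a given finite set. -/
theorem exists_rr_avoiding [Infinite K] {g : ℕ} (hk : RiemannPackage K F g)
    (Q Q₀ : Place K F) (S : Finset (Place K F)) :
    ∃ c : ℤ, ∀ n : ℤ, c ≤ n →
      ∃ x ∈ riemannRochSpace (Finsupp.single Q₀ n - Finsupp.single Q 1), x ≠ 0 ∧
        ∀ Q' ∈ S, Q'.ord x = -(Finsupp.single Q₀ n - Finsupp.single Q 1 : Divisor K F) Q' := by
  classical
  obtain ⟨ck, hck⟩ := hk.eq_of_large
  refine ⟨ck + 2, fun n hn => ?_⟩
  set E : Divisor K F := Finsupp.single Q₀ n - Finsupp.single Q 1 with hE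
  have hdegE : Divisor.degree E = n - 1 := by
    rw [hE, map_sub, Divisor.degree_single, Divisor.degree_single, hk.deg_one, hk.deg_one]
    simp
  have hdegE' : ∀ v : Place K F, Divisor.degree (E - Finsupp.single v 1) = n - 2 := by
    intro v
    rw [map_sub, hdegE, Divisor.degree_single, hk.deg_one]
    simp
    ring
  have e1 := hck E (by rw [hdegE]; omega)
  rw [hdegE] at e1
  have e2 : ∀ v : Place K F,
      (Module.finrank K (riemannRochSpace (E - Finsupp.single v 1)) : ℤ) = n - 2 + 1 - g := by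
    intro v
    have := hck (E - Finsupp.single v 1) (by rw [hdegE']; omega)
    rw [hdegE'] at this
    exact this
  -- the proper subspaces
  set W : Submodule K F := riemannRochSpace E with hW
  have hne : ∀ v : Place K F, riemannRochSpace (E - Finsupp.single v 1) ≠ W := by
    intro v h
    have h1 := e2 v
    rw [h] at h1
    omega
  set s : Finset (Submodule K ↥W) :=
    S.image (fun v => Submodule.comap W.subtype (riemannRochSpace (E - Finsupp.single v 1)))
    with hs
  have htop : (⊤ : Submodule K ↥W) ∉ s := by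
    intro h
    rw [hs, Finset.mem_image] at h
    obtain ⟨v, -, hv⟩ := h
    apply hne v
    refine le_antisymm (riemannRochSpace_sub_single_le E v) ?_
    intro x hx
    have : (⟨x, hx⟩ : ↥W) ∈ Submodule.comap W.subtype
        (riemannRochSpace (E - Finsupp.single v 1)) := by
      rw [hv]
      exact Submodule.mem_top
    exact this
  have hcov := Subspace.biUnion_ne_univ_of_top_notMem htop
  obtain ⟨x, hx⟩ : ∃ x : ↥W, x ∉ ⋃ p ∈ s, (p : Set ↥W) := by
    by_contra hcon
    push Not at hcon
    exact hcov (Set.eq_univ_of_forall hcon)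
  have hxS : ∀ v ∈ S, (x : F) ∉ riemannRochSpace (E - Finsupp.single v 1) := by
    intro v hv hmem
    apply hx
    rw [Set.mem_iUnion₂]
    exact ⟨_, Finset.mem_image_of_mem _ hv, hmem⟩
  by_cases hS : S = ∅
  · -- no constraint: any nonzero element
    have hdim : (0 : ℤ) < (Module.finrank K ↥W : ℤ) := by rw [e1]; have := e2 Q; omega
    haveI := hk.finite E
    have hpos : 0 < Module.finrank K ↥W := by exact_mod_cast hdim
    obtain ⟨y, hy⟩ := Module.finrank_pos_iff_exists_ne_zero.mp hpos
    refine ⟨(y : F), y.2, fun h0 => hy (Subtype.ext h0), fun Q' hQ' => ?_⟩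
    rw [hS] at hQ'
    exact absurd hQ' (Finset.notMem_empty _)
  · obtain ⟨v₁, hv₁⟩ := Finset.nonempty_iff_ne_empty.mpr hS
    refine ⟨(x : F), x.2, (ord_eq_of_mem_of_notMem x.2 (hxS v₁ hv₁)).1, fun Q' hQ' => ?_⟩
    exact (ord_eq_of_mem_of_notMem x.2 (hxS Q' hQ')).2

end RiemannRoch

section Isolation

variable {L : Type*} [Field L] [Algebra ℚ L] {A : ValuationSubring L}
variable {k : Type*} [Field k] {π : A →+* k} {N : ℕ}
variable {r : Place L ↥(rvFL L N) → Place k ↥(rvFk k N)}

/-- The divisor of an element of the Gauss ring with nonzero reduction lies in the subgroup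
generated by the integral principal divisors. -/
theorem rvHyp_divisor_mem_closure (H : RvHyp A π N r) (t : rvRing A π N)
    (ht : rvRed A π N t ≠ 0) (D : Divisor L ↥(rvFL L N))
    (hD : ∀ P, D P = P.ord (t : ↥(rvFL L N))) :
    D ∈ AddSubgroup.closure (integralPrincipalDivisors A π N) := by
  obtain ⟨yp, ym, hrep⟩ := mem_rvRing.mp t.2
  have hp : RvGood A π N yp := hrep.good_of_red_ne_zero ht
  have hm : RvGood A π N ym := hrep.1
  set Yp : ↥(rvFL L N) := ⟨rvIota A yp, hp.1⟩ with hYp
  set Ym : ↥(rvFL L N) := ⟨rvIota A ym, hm.1⟩ with hYm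
  have hYp0 : Yp ≠ 0 := fun h0 => hp.iota_ne_zero (congrArg Subtype.val h0)
  have hYm0 : Ym ≠ 0 := fun h0 => hm.iota_ne_zero (congrArg Subtype.val h0)
  obtain ⟨Dp, hDp⟩ := H.hdiv Yp hYp0
  obtain ⟨Dm, hDm⟩ := H.hdiv Ym hYm0
  have ht0 : (t : ↥(rvFL L N)) ≠ 0 := rv_coe_ne_zero_of_red_ne_zero ht
  have hrel : (t : ↥(rvFL L N)) * Ym = Yp := Subtype.ext hrep.2.2
  have hDeq : D = Dp - Dm := by
    ext P
    rw [Finsupp.sub_apply, hD, hDp, hDm, ← hrel, P.ord_mul ht0 hYm0]
    ring
  rw [hDeq]
  refine sub_mem (AddSubgroup.subset_closure ?_) (AddSubgroup.subset_closure ?_)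
  · exact ⟨yp, hp.1, hp.2.1, hp.2.2, hDp⟩
  · exact ⟨ym, hm.1, hm.2.1, hm.2.2, hDm⟩

/-- **Isolation, closure form**, from the lifting theorem. -/
theorem isolationClosure_of_rvHyp [Infinite k] (H : RvHyp A π N r) (hArch : RvArch A)
    (hsurj : Function.Surjective π) {gL gk : ℕ} (hL : RiemannPackage L ↥(rvFL L N) gL)
    (hk : RiemannPackage k ↥(rvFk k N) gk) (hg : gL ≤ gk) :
    IsolationClosure A π r := by
  classical
  intro P S
  set Q := r P with hQ
  obtain ⟨c, hc⟩ := H.lifting hArch hsurj hL hk hg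
  -- another place, outside `S ∪ {Q}`
  haveI := hk.infinite_places
  obtain ⟨Q₀, hQ₀⟩ : ∃ Q₀ : Place k ↥(rvFk k N), Q₀ ∉ insert Q S :=
    Infinite.exists_notMem_finset (insert Q S)
  have hQ₀Q : Q₀ ≠ Q := fun h => hQ₀ (h ▸ Finset.mem_insert_self _ _)
  obtain ⟨P₀, hP₀⟩ := H.r_surjective hsurj Q₀
  have hPP₀ : P ≠ P₀ := by
    rintro rfl
    exact hQ₀Q hP₀.symm
  obtain ⟨c', hc'⟩ := exists_rr_avoiding hk Q Q₀ (insert Q S)
  set n : ℤ := max c c' + 1 with hn
  obtain ⟨x, hxE, hx0, hxS⟩ := hc' n (by rw [hn]; have := le_max_right c c'; omega)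
  set D : Divisor L ↥(rvFL L N) := Finsupp.single P₀ n - Finsupp.single P 1 with hD
  have hDE : Finsupp.mapDomain r D = Finsupp.single Q₀ n - Finsupp.single Q 1 := by
    rw [hD, Finsupp.mapDomain_sub, Finsupp.mapDomain_single, Finsupp.mapDomain_single, hP₀]
  have hdegD : Divisor.degree D = n - 1 := by
    rw [hD, map_sub, Divisor.degree_single, Divisor.degree_single, hL.deg_one, hL.deg_one]
    simp
  obtain ⟨t, htD, htx⟩ := hc D (by rw [hdegD, hn]; have := le_max_left c c'; omega) x
    (by rw [hDE]; exact hxE)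
  have htred : rvRed A π N t ≠ 0 := by rw [htx]; exact hx0
  have ht0 : (t : ↥(rvFL L N)) ≠ 0 := rv_coe_ne_zero_of_red_ne_zero htred
  obtain ⟨Dt, hDt⟩ := H.hdiv _ ht0
  -- no poles above `S ∪ {Q}`
  have hnp : ∀ P1, r P1 ∈ insert Q S → 0 ≤ P1.ord (t : ↥(rvFL L N)) := by
    intro P1 hP1
    have hP1₀ : P₀ ≠ P1 := by
      rintro rfl
      exact hQ₀ (hP₀ ▸ hP1)
    rcases (mem_riemannRochSpace_iff.mp htD) P1 with h | h
    · exact absurd h ht0
    · have hDP : D P1 ≤ 0 := by
        rw [hD, Finsupp.sub_apply, Finsupp.single_apply, if_neg hP1₀, Finsupp.single_apply]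
        split_ifs <;> omega
      omega
  -- orders of the reduction
  have hordQ : Q.ord (rvRed A π N t) = 1 := by
    rw [htx, hxS Q (Finset.mem_insert_self _ _), Finsupp.sub_apply, Finsupp.single_apply,
      if_neg hQ₀Q, Finsupp.single_apply, if_pos rfl]
    ring
  have hordS : ∀ Q' ∈ S, Q' ≠ Q → Q'.ord (rvRed A π N t) = 0 := by
    intro Q' hQ' hne
    have hQ'₀ : Q₀ ≠ Q' := by
      rintro rfl
      exact hQ₀ (Finset.mem_insert_of_mem hQ')
    rw [htx, hxS Q' (Finset.mem_insert_of_mem hQ'), Finsupp.sub_apply, Finsupp.single_apply,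
      if_neg hQ'₀, Finsupp.single_apply, if_neg (Ne.symm hne)]
    ring
  have hordP : 1 ≤ P.ord (t : ↥(rvFL L N)) := by
    rcases (mem_riemannRochSpace_iff.mp htD) P with h | h
    · exact absurd h ht0
    · have hDP : D P = -1 := by
        rw [hD, Finsupp.sub_apply, Finsupp.single_apply, if_neg (Ne.symm hPP₀),
          Finsupp.single_apply, if_pos rfl]
        ring
      rw [hDP] at h
      omega
  have hcoord := H.ord_eq_of_coord Q P rfl t hordP hordQ
    (fun P1 hP1 => hnp P1 (hP1 ▸ Finset.mem_insert_self _ _))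
  refine ⟨Dt, rvHyp_divisor_mem_closure H t htred Dt hDt, ?_, ?_⟩
  · rw [hDt, hcoord.1]
  · intro P' hP'ne hP'D hP'S
    apply hP'D
    rw [hDt]
    by_cases hP'Q : r P' = Q
    · exact hcoord.2 P' hP'Q hP'ne
    · -- `r P' ∈ S`, `r P' ≠ Q`: the sum over the fibre is `0` and all terms are `≥ 0`
      have h1 := H.mapDomain_eq t htred Dt hDt (r P')
      rw [hordS (r P') hP'S hP'Q] at h1
      have h2 := rv_le_mapDomain r Dt (r P') P' rfl (fun P1 hP1 => by
        rw [hDt]
        exact hnp P1 (hP1 ▸ Finset.mem_insert_of_mem hP'S))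
      rw [h1, hDt] at h2
      have h3 := hnp P' (Finset.mem_insert_of_mem hP'S)
      omega

end Isolation

end Fermat.Agent.H36

end
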