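import Fermat.Agent.H36.ESE.Interfaces

/-!
# P-ES / ES-E: the open rows, as statement `Prop`s

Each row is a `def …Statement : Prop`; a row is done when somebody lands
`theorem … : Fermat.Agent.H36.…Statement` (sorry-free, standard axioms).
Notation and strategy: see `Interfaces.lean`.  All rows are stated for an arbitrary place
reduction map `r` satisfying the prelude axiom `IsPlaceReductionAlong`, so that they apply to
the map chosen by the prelude in `reductionModL`.
-/

set_option autoImplicit false

noncomputable section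

namespace Fermat.Agent.H36

open ModularCurve AlgebraicCurve HahnSeries IntermediateField

/-- `π : A →+* k` is a residue map of the valuation ring `A`: surjective, with kernel the
maximal ideal. -/
structure IsResidueMap {L : Type*} [Field L] (A : ValuationSubring L) {k : Type*} [Field k]
    (π : A →+* k) : Prop where
  surjective : Function.Surjective π
  ker : ∀ a : A, π a = 0 ↔ (a : L) ∈ A.nonunits

/-- `σ̄ : k ≃+* k` is induced by `σ : L ≃ₐ[ℚ] L` through `π : A →+* k`: `σ` maps `A` into itself
and `π (σ a) = σ̄ (π a)`. -/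
def IsInducedAut {L : Type*} [Field L] [Algebra ℚ L] (A : ValuationSubring L) {k : Type*}
    [Field k] (π : A →+* k) (σ : L ≃ₐ[ℚ] L) (σbar : k ≃+* k) : Prop :=
  ∀ a : A, ∃ b : A, (b : L) = σ (a : L) ∧ π b = σbar (π a)

/-- **Row E-CENTER.**  For a place reduction map `r` (prelude axiom), good series have the
centre property, and lifting of functions with degree control gives the isolation property.

Proof sketch.  Let `y` be good of polar degree `n > 0`, `c : A`.  By the axiom,
`r_* div (y_L - c) = div (ybar - π c)`.  Write `div (y_L - c) = Z_c - P∞`,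
`div (ybar - π c) = Zbar - Pbar∞` (zeros minus poles; the poles do not depend on `c`).
`r_* Z_c` and `r_* P∞` are effective, `Zbar` and `Pbar∞` are effective with disjoint supports,
hence `r_* P∞ ≥ Pbar∞`; both have degree `n` (`r` preserves degrees, `y` is good), so
`r_* P∞ = Pbar∞` and `r_* Z_c = Zbar`.  This gives the first two clauses of `CenterProperty`.
For `c ∉ A` the series `1 - c⁻¹ y` is integral with reduction `1`, so
`r_* Z_c = r_* P∞ = Pbar∞`: third clause.
Isolation: given `P₁`, `S`, take `y` good with `ybar` having a simple zero at `Q₁ = r P₁` and no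
zero or pole on `S \\ {Q₁}`.  `P₁` is not a pole of `y_L`; its value `c₁ = y_L (P₁)` (`deg P₁ = 1`)
lies in `A` and `π c₁ = 0`; `D = div (y_L - c₁)` has `r_* Z = Zbar`, `Zbar Q₁ = 1`, hence
`D P₁ = 1` and all other points of `D` reduce outside `S`. -/
def CenterIsoStatement : Prop :=
  ∀ (L : Type) [Field L] [Algebra ℚ L] (A : ValuationSubring L) (k : Type) [Field k]
    (π : A →+* k) (N : ℕ)
    (r : Place L (laurentBaseChange L (modularFunctionFieldFull N)) →
      Place k (modularFunctionFieldFullC k N)),
    IsResidueMap A π → IsPlaceReductionAlong A π N r →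
    HasPrincipalDivisors L (laurentBaseChange L (modularFunctionFieldFull N)) →
    HasPrincipalDivisors k (modularFunctionFieldFullC k N) →
    (∀ P : Place L (laurentBaseChange L (modularFunctionFieldFull N)), P.deg = 1) →
    (∀ Q : Place k (modularFunctionFieldFullC k N), 0 < Q.deg) →
    (∀ y : LaurentSeries A, IsGoodSeries A π N y → CenterProperty (π := π) r y) ∧
      (GoodFunctionsStatement A π N → IsolationProperty A π r)

/-- **Row E8 (Galois).**  Isolation + centre property for `j` ⟹ Galois equivariance.

Proof sketch.  `δ := r_* ∘ σ - σ̄ ∘ r_*` vanishes on `integralPrincipalDivisors`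
(`σ (div y_L) = div (σ y_L)`, `σ y_L = (y^σ)_L` with reduction `σ̄ ybar`, prelude axiom twice and
`SemilinearAut.ord_smul`).  `δ (single P 1) = single (r (σ P)) 1 - single (σ̄ (r P)) 1` is
supported in `Supp P = {r (σ P), σ̄ (r P)}`.  By the centre property for `j` (whose coefficients
are rational), both points of `Supp P` are zeros of `jbar - σ̄ a` if `P` is a zero of `j - c`,
`c ∈ A`, `a = π c`, and poles of `jbar` otherwise.  So for `P₁` take `S` = zeros of `jbar - a₁`
(resp. poles of `jbar`): if `r P' ∉ S` then `Supp P'` and `Supp P₁` are disjoint.  Apply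
`eq_zero_of_isolation`. -/
def GaloisOfIsolationStatement : Prop :=
  ∀ (L : Type) [Field L] [Algebra ℚ L] (A : ValuationSubring L) (k : Type) [Field k]
    (π : A →+* k) (N : ℕ)
    (r : Place L (laurentBaseChange L (modularFunctionFieldFull N)) →
      Place k (modularFunctionFieldFullC k N)),
    IsResidueMap A π → IsPlaceReductionAlong A π N r →
    HasPrincipalDivisors L (laurentBaseChange L (modularFunctionFieldFull N)) →
    HasPrincipalDivisors k (modularFunctionFieldFullC k N) →
    (∀ P : Place L (laurentBaseChange L (modularFunctionFieldFull N)), P.deg = 1) →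
    IsolationProperty A π r → CenterProperty (π := π) r (jqModC A) →
    ∀ (σ : L ≃ₐ[ℚ] L) (σbar : k ≃+* k), IsInducedAut A π σ σbar →
      GaloisEquivariantAt N r σ σbar

section ModL

set_option synthInstance.maxHeartbeats 400000

/-- **Row E7 (Hecke).**  Isolation + centre property for `j` + Kronecker's congruence for norms
⟹ the congruence relation on places.

Proof sketch.  `δ := r_* ∘ T_ℓ - (φ + ℓ φ⁻¹) ∘ r_*` vanishes on `integralPrincipalDivisors` by
`KroneckerNormStatement` and the prelude axiom (`div (φ ybar * (φ⁻¹ ybar)^ℓ) =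
φ (div ybar) + ℓ φ⁻¹ (div ybar)`).  Support localisation: `T_ℓ P = ∑_{W ∣ β P} e_W • α W`
(prelude `pullbackAlong_single`, `pushforwardAlong_single`) and `Φ_ℓ (j (α W), j (P)) = 0`
(modular equation evaluated at `W`), so by Kronecker's congruence
`Φ_ℓ ≡ (X - Y^ℓ)(X^ℓ - Y)` (landed: `Fermat.Agent.H42.Kronecker`) and the centre property for
`j`, every point of `r_* (T_ℓ P)` is a zero of `jbar - b` with `b ∈ {a^ℓ, a^(1/ℓ)}`,
`a = jbar (r P)` (or a pole if `r P` is a pole); the same holds for `φ (r P)`, `φ⁻¹ (r P)`.  For
`P₁` take `S` = zeros of `jbar - a₁`, `jbar - a₁^(ℓ²)`, `jbar - a₁^(1/ℓ²)` (resp. poles).  Apply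
`eq_zero_of_isolation`. -/
def CongruenceOfIsolationStatement : Prop :=
  ∀ (N : ℕ) [NeZero N] (ℓ : ℕ) (hℓ : ℓ.Prime), ¬ ℓ ∣ N →
    ∀ A : ValuationSubring (AlgebraicClosure ℚ), A.LiesOverPrime ℓ →
    ∀ r, IsPlaceReductionModL A N r →
    HasPrincipalDivisors (AlgebraicClosure ℚ) (modularFunctionFieldBar N) →
    HasPrincipalDivisors (IsLocalRing.ResidueField A)
      (modularFunctionFieldFullC (IsLocalRing.ResidueField A) N) →
    (∀ P : Place (AlgebraicClosure ℚ) (modularFunctionFieldBar N), P.deg = 1) →
    IsolationProperty A (IsLocalRing.residue A) r →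
    CenterProperty (π := IsLocalRing.residue A) r (jqModC A) →
    KroneckerNormStatement N →
    ∀ φ : IsLocalRing.ResidueField A ≃+* IsLocalRing.ResidueField A, (∀ x, φ x = x ^ ℓ) →
      haveI : NeZero ℓ := ⟨hℓ.ne_zero⟩
      CongruenceRelation N ℓ r φ

end ModL

section Combination

set_option synthInstance.maxHeartbeats 400000

variable {L : Type*} [Field L]

theorem isResidueMap_residue (A : ValuationSubring L) :
    IsResidueMap A (IsLocalRing.residue A) where
  surjective := IsLocalRing.residue_surjective
  ker a := by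
    rw [IsLocalRing.residue_eq_zero_iff, IsLocalRing.mem_maximalIdeal, mem_nonunits_iff,
      ValuationSubring.mem_nonunits_iff_exists_mem_maximalIdeal]
    constructor
    · intro h
      exact ⟨a.2, (IsLocalRing.mem_maximalIdeal _).mpr h⟩
    · rintro ⟨ha, h⟩
      exact (IsLocalRing.mem_maximalIdeal _).mp h

theorem isInducedAut_residueAut (A : ValuationSubring (AlgebraicClosure ℚ))
    (σ : A.decompositionSubgroup ℚ) :
    IsInducedAut A (IsLocalRing.residue A)
      (σ : AlgebraicClosure ℚ ≃ₐ[ℚ] AlgebraicClosure ℚ) (residueAut (K := ℚ) A σ) := by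
  intro a
  exact ⟨σ • a, rfl, rfl⟩

/-- The exports wanted from ES-D at a place `A` (besides `ReductionInputsModL` and `S18`). -/
structure ReductionExports (A : ValuationSubring (AlgebraicClosure ℚ)) (N : ℕ) : Prop where
  hasPrincipalDivisors : HasPrincipalDivisors (IsLocalRing.ResidueField A)
    (modularFunctionFieldFullC (IsLocalRing.ResidueField A) N)
  deg_pos : ∀ Q : Place (IsLocalRing.ResidueField A)
    (modularFunctionFieldFullC (IsLocalRing.ResidueField A) N), 0 < Q.deg
  good : GoodFunctionsStatement A (IsLocalRing.residue A) N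
  jGood : JGoodStatement A (IsLocalRing.residue A) N

set_option maxHeartbeats 1600000 in
/-- **E8 from the rows.** -/
theorem galoisEquivariantStatement_of_rows (N : ℕ) (hCI : CenterIsoStatement)
    (hG : GaloisOfIsolationStatement)
    (hPL : HasPrincipalDivisors (AlgebraicClosure ℚ) (modularFunctionFieldBar N))
    (hdeg : ∀ P : Place (AlgebraicClosure ℚ) (modularFunctionFieldBar N), P.deg = 1)
    (hD : ∀ ℓ : ℕ, ℓ.Prime → ¬ ℓ ∣ N → ∀ A : ValuationSubring (AlgebraicClosure ℚ),
      A.LiesOverPrime ℓ → ReductionExports A N) :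
    GaloisEquivariantStatement N := by
  intro ℓ hℓ hℓN A hA r hr _ σ
  have hE := hD ℓ hℓ hℓN A hA
  have h1 := hCI (AlgebraicClosure ℚ) A (IsLocalRing.ResidueField A) (IsLocalRing.residue A) N r
    (isResidueMap_residue A) hr hPL hE.hasPrincipalDivisors hdeg hE.deg_pos
  exact hG (AlgebraicClosure ℚ) A (IsLocalRing.ResidueField A) (IsLocalRing.residue A) N r
    (isResidueMap_residue A) hr hPL hE.hasPrincipalDivisors hdeg (h1.2 hE.good)
    (h1.1 _ hE.jGood) _ _ (isInducedAut_residueAut A σ)

set_option maxHeartbeats 1600000 in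
/-- **E7 from the rows.** -/
theorem congruenceStatement_of_rows (N : ℕ) [NeZero N] (hCI : CenterIsoStatement)
    (hH : CongruenceOfIsolationStatement) (hK : KroneckerNormStatement N)
    (hPL : HasPrincipalDivisors (AlgebraicClosure ℚ) (modularFunctionFieldBar N))
    (hdeg : ∀ P : Place (AlgebraicClosure ℚ) (modularFunctionFieldBar N), P.deg = 1)
    (hD : ∀ ℓ : ℕ, ℓ.Prime → ¬ ℓ ∣ N → ∀ A : ValuationSubring (AlgebraicClosure ℚ),
      A.LiesOverPrime ℓ → ReductionExports A N) :
    CongruenceStatement N := by
  intro ℓ hℓ hℓN A hA r hr _ φ hφ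
  have hE := hD ℓ hℓ hℓN A hA
  have h1 := hCI (AlgebraicClosure ℚ) A (IsLocalRing.ResidueField A) (IsLocalRing.residue A) N r
    (isResidueMap_residue A) hr hPL hE.hasPrincipalDivisors hdeg hE.deg_pos
  exact hH N ℓ hℓ hℓN A hA r hr hPL hE.hasPrincipalDivisors hdeg (h1.2 hE.good)
    (h1.1 _ hE.jGood) hK φ hφ

end Combination

end Fermat.Agent.H36

end
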