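import Fermat.Agent.H7.ESD.TameJ
import Fermat.Agent.H16.FFPrincipalInput
import Fermat.Agent.H60.CenterIso
import Fermat.Agent.H36.ESE.Rows

/-!
# P-ES / ES-E: the function `j` is good

`jGood_of_inputs`: if a place reduction map exists at `A` (over `ℓ ∤ N`), then the polar degree
of `j` is `ψ(N)` on both sides, i.e. `JGoodStatement A π N` holds.

* the polar degree of a separating element `x` is `[F : K(x)]` (fundamental identity,
  `Fermat.Agent.H16.ffb_fundamentalIdentity_zeros`);
* `[F_L : L(j)] = ψ(N) ≤ [F_k : k(j̄)]` (landed: `H7.ESD.tg_finrank_jBar`,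
  `H7.ESD.tg_dedekindPsi_le_finrank`);
* the polar degree cannot increase under a place reduction map (`r_* div j = div j̄`).
-/

set_option autoImplicit false
set_option linter.style.haveILetI false
set_option linter.unusedSectionVars false
set_option synthInstance.maxHeartbeats 400000
set_option maxHeartbeats 1600000

noncomputable section

namespace Fermat.Agent.H36

open ModularCurve AlgebraicCurve HahnSeries IntermediateField

section Polar

variable {K F : Type*} [Field K] [Field F] [Algebra K F]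

/-- The polar degree of a separating element `x` is `[F : K(x)]`. -/
theorem hasPolarDegree_of_separating [IsAlgClosed K] (x : F) (hx : Transcendental K x)
    [FiniteDimensional K⟮x⟯ F] [Algebra.IsSeparable K⟮x⟯ F] :
    HasPolarDegree K x (Module.finrank K⟮x⟯ F) := by
  classical
  have hdeg : ∀ v : Place K F, v.deg = 1 := fun v => Fermat.Agent.H16.ffb_deg_eq_one x v
  have hft' : Transcendental K x⁻¹ := by
    intro h
    apply hx
    have := h.inv
    rwa [inv_inv] at this
  have hinv : K⟮x⁻¹⟯ = K⟮x⟯ := Fermat.Agent.H16.ffb_adjoin_simple_inv x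
  have key : {v : Place K F | 0 < v.ord x⁻¹}.Finite ∧
      ∑ᶠ v ∈ {v : Place K F | 0 < v.ord x⁻¹}, v.ord x⁻¹ = (Module.finrank K⟮x⟯ F : ℤ) := by
    have h1 : ∀ (E : IntermediateField K F), E = K⟮x⟯ → K⟮x⁻¹⟯ = E →
        {v : Place K F | 0 < v.ord x⁻¹}.Finite ∧
        ∑ᶠ v ∈ {v : Place K F | 0 < v.ord x⁻¹}, v.ord x⁻¹ = (Module.finrank E F : ℤ) := by
      intro E hE hE'
      subst hE'
      have : FiniteDimensional K⟮x⁻¹⟯ F := hE ▸ (inferInstance : FiniteDimensional K⟮x⟯ F)
      have : Algebra.IsSeparable K⟮x⁻¹⟯ F := hE ▸ (inferInstance : Algebra.IsSeparable K⟮x⟯ F)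
      exact Fermat.Agent.H16.ffb_fundamentalIdentity_zeros x⁻¹ hft'
    exact h1 K⟮x⟯ rfl hinv
  obtain ⟨hfin, hsum⟩ := key
  have hsupp : (Function.support fun v : Place K F => max 0 (v.ord x⁻¹)).Finite := by
    refine hfin.subset ?_
    intro v hv
    simp only [Function.mem_support, ne_eq] at hv
    simp only [Set.mem_ofPred_eq]
    by_contra hcon
    exact hv (max_eq_left (not_lt.mp hcon))
  set B : Divisor K F := Finsupp.ofSupportFinite _ hsupp with hB
  have hBv : ∀ v, B v = max 0 (v.ord x⁻¹) := fun v => rfl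
  have hBdeg : Divisor.degree B = (Module.finrank K⟮x⟯ F : ℤ) := by
    rw [Fermat.Agent.H16.ffb_degree_eq_sum hdeg, ← hsum]
    have hsuppeq : (B.support : Set (Place K F)) = {v : Place K F | 0 < v.ord x⁻¹} := by
      ext v
      simp only [Finset.mem_coe, Finsupp.mem_support_iff, hBv, Set.mem_ofPred_eq]
      constructor
      · intro h
        by_contra hcon
        exact h (max_eq_left (not_lt.mp hcon))
      · intro h
        rw [max_eq_right h.le]
        exact h.ne'
    rw [← hsuppeq, finsum_mem_coe_finset]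
    refine Finset.sum_congr rfl fun v hv => ?_
    have : 0 < v.ord x⁻¹ := by
      have : v ∈ (B.support : Set (Place K F)) := hv
      rwa [hsuppeq] at this
    rw [hBv, max_eq_right this.le]
  refine ⟨B, fun v => ?_, hBdeg⟩
  rw [hBv, Place.ord_inv]

end Polar

section Drop

variable {K F k Fb : Type*} [Field K] [Field F] [Algebra K F] [Field k] [Field Fb] [Algebra k Fb]

theorem degree_nonneg_of_nonneg (D : Divisor k Fb) (hD : ∀ Q, 0 ≤ D Q) :
    0 ≤ Divisor.degree D := by
  rw [Fermat.Agent.H60.ci_degree_eq_sum]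
  exact Finset.sum_nonneg fun Q _ => mul_nonneg (hD Q) (Int.natCast_nonneg _)

/-- The polar degree cannot increase under a degree preserving map of places compatible with
the divisors of `f` and `fb`. -/
theorem polarDegree_le_of_reduction (r : Place K F → Place k Fb)
    (hdeg : ∀ P, (r P).deg = P.deg) (f : F) (fb : Fb)
    (Df : Divisor K F) (hDf : ∀ P, Df P = P.ord f)
    (hred : ∀ Q, Finsupp.mapDomain r Df Q = Q.ord fb)
    (Dp : Divisor K F) (hDp : ∀ P, Dp P = max 0 (-(P.ord f)))
    (Dpb : Divisor k Fb) (hDpb : ∀ Q, Dpb Q = max 0 (-(Q.ord fb))) :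
    Divisor.degree Dpb ≤ Divisor.degree Dp := by
  have hZ : ∀ P, 0 ≤ (Df + Dp) P := fun P => by
    rw [Finsupp.add_apply, hDf, hDp]
    rcases le_total 0 (P.ord f) with h | h
    · have := le_max_left 0 (-(P.ord f)); omega
    · have := le_max_right 0 (-(P.ord f)); omega
  have hDp0 : ∀ P, 0 ≤ Dp P := fun P => by
    rw [hDp]
    exact le_max_left _ _
  have h1 : ∀ Q, 0 ≤ (Finsupp.mapDomain r Dp - Dpb) Q := by
    intro Q
    rw [Finsupp.sub_apply, hDpb]
    have hnn := Fermat.Agent.H60.ci_mapDomain_nonneg r Dp hDp0 Q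
    have hZnn := Fermat.Agent.H60.ci_mapDomain_nonneg r (Df + Dp) hZ Q
    rw [Finsupp.mapDomain_add, Finsupp.add_apply, hred Q] at hZnn
    rcases le_total 0 (-(Q.ord fb)) with h | h
    · rw [max_eq_right h]; omega
    · rw [max_eq_left h]; omega
  have h2 := degree_nonneg_of_nonneg _ h1
  rw [map_sub, Fermat.Agent.H60.ci_degree_mapDomain r hdeg] at h2
  omega

end Drop

section Main

open Fermat.Agent.H7.ESD

/-- **(D-j).**  If a place reduction map exists at `A`, the function `j` is good. -/
theorem jGood_of_inputs (N : ℕ) [NeZero N] (ℓ : ℕ) [Fact ℓ.Prime] (hℓN : ¬ ℓ ∣ N)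
    (A : ValuationSubring (AlgebraicClosure ℚ)) (hA : A.LiesOverPrime ℓ)
    (h : ReductionInputsModL A N) :
    JGoodStatement A (IsLocalRing.residue A) N := by
  haveI : IsAlgClosed (IsLocalRing.ResidueField A) :=
    Fermat.Agent.H89.isAlgClosed_residueField A
  haveI : CharP (IsLocalRing.ResidueField A) ℓ :=
    Fermat.Agent.H89.charP_residueField_of_liesOverPrime A ℓ hA
  have hM : Fermat.Agent.H27.HasHeckeData (IsLocalRing.ResidueField A) :=
    Fermat.Agent.H67.hasHeckeData_of_complex Fermat.Agent.H17.hasHeckeData_complex _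
  have e1 : coeffMap A.subtype (jqModC A) = coeffEmb (AlgebraicClosure ℚ) jq := by
    rw [coeffMap_jqModC, coeffEmb, ← jqModC_rat, coeffMap_jqModC]
  have hX : coeffMap A.subtype (jqModC A) ∈ modularFunctionFieldBar N := by
    rw [e1]
    exact (Fermat.Agent.H23.jBar N).2
  have ex : (⟨_, hX⟩ : ↥(modularFunctionFieldBar N)) = Fermat.Agent.H23.jBar N :=
    Subtype.ext e1
  have e2 : coeffMap (IsLocalRing.residue A) (jqModC A) =
      jqModC (IsLocalRing.ResidueField A) := coeffMap_jqModC _
  have hXk : coeffMap (IsLocalRing.residue A) (jqModC A) ∈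
      modularFunctionFieldFullC (IsLocalRing.ResidueField A) N := by
    rw [e2]
    exact jqModC_mem_full _ N
  have exk : (⟨_, hXk⟩ : ↥(modularFunctionFieldFullC (IsLocalRing.ResidueField A) N)) =
      ⟨jqModC (IsLocalRing.ResidueField A), jqModC_mem_full _ N⟩ := Subtype.ext e2
  obtain ⟨htr, hfin, hsep⟩ := tg_ffModL_explicit (IsLocalRing.ResidueField A) N ℓ hℓN hM
  have hdegk := tg_dedekindPsi_le_finrank (IsLocalRing.ResidueField A) N ℓ hℓN hM
  have hDS := Fermat.Agent.H23.degreeStatement_holds N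
  have hdegL := tg_finrank_jBar N
  -- polar degrees
  haveI := hDS.2.1
  have hpL := hasPolarDegree_of_separating (K := AlgebraicClosure ℚ) (Fermat.Agent.H23.jBar N)
    hDS.1
  haveI := hfin
  haveI := hsep
  have hpk := hasPolarDegree_of_separating (K := IsLocalRing.ResidueField A)
    (⟨jqModC (IsLocalRing.ResidueField A), jqModC_mem_full _ N⟩ :
      ↥(modularFunctionFieldFullC (IsLocalRing.ResidueField A) N)) htr
  rw [hdegL] at hpL
  obtain ⟨Dp, hDp, hDpdeg⟩ := hpL
  obtain ⟨Dpb, hDpb, hDpbdeg⟩ := hpk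
  -- the reduction map
  have hr := isPlaceReductionModL_placeReductionModL h
  have hne : coeffMap (IsLocalRing.residue A) (jqModC A) ≠ 0 := by
    rw [e2]
    intro h0
    have h1 := congrArg (fun z : LaurentSeries (IsLocalRing.ResidueField A) =>
      HahnSeries.coeff z (-1 : ℤ)) h0
    simp only [coeff_jqModC_neg_one, HahnSeries.coeff_zero] at h1
    exact one_ne_zero h1
  have hj0 : Fermat.Agent.H23.jBar N ≠ 0 := by
    intro h0
    exact hDS.1 (h0 ▸ isAlgebraic_zero)
  haveI := Fermat.Agent.H58.hasPrincipalDivisors_modularFunctionFieldBar N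
  obtain ⟨Df, hDf, -⟩ := HasPrincipalDivisors.exists_divisor
    (K := AlgebraicClosure ℚ) (Fermat.Agent.H23.jBar N) hj0
  have hred : ∀ Q, Finsupp.mapDomain (placeReductionModL h) Df Q =
      Q.ord (⟨jqModC (IsLocalRing.ResidueField A), jqModC_mem_full _ N⟩ :
        ↥(modularFunctionFieldFullC (IsLocalRing.ResidueField A) N)) := by
    intro Q
    rw [← exk]
    exact hr.2 (jqModC A) hX hXk hne Df (fun P => by rw [hDf P, ex]) Q
  have hle := polarDegree_le_of_reduction (placeReductionModL h) hr.1 _ _ Df hDf hred Dp hDp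
    Dpb hDpb
  rw [hDpdeg, hDpbdeg] at hle
  have hnk : (Module.finrank
      (adjoin (IsLocalRing.ResidueField A)
        {(⟨jqModC (IsLocalRing.ResidueField A), jqModC_mem_full _ N⟩ :
          ↥(modularFunctionFieldFullC (IsLocalRing.ResidueField A) N))})
      ↥(modularFunctionFieldFullC (IsLocalRing.ResidueField A) N) : ℤ) = dedekindPsi N := by
    have hdegk' := Int.ofNat_le.mpr hdegk
    exact le_antisymm hle hdegk'
  refine ⟨hX, hXk, (dedekindPsi N : ℤ), ⟨Dp, ?_, hDpdeg⟩, ⟨Dpb, ?_, ?_⟩, ?_⟩
  · intro v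
    rw [ex]
    exact hDp v
  · intro v
    rw [exk]
    exact hDpb v
  · rw [hDpbdeg, hnk]
  · exact_mod_cast Fermat.Agent.H23.dedekindPsi_pos N

end Main

end Fermat.Agent.H36

end
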