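import Fermat.Agent.H36.ESE.TorsionFinal
import Fermat.Agent.H36.ESE.Rows

/-!
# P-ES / ES-E: `KroneckerNormStatement N`, unconditional

The Hecke correspondence maps the divisor of an admissible function `y_L` to the divisor of
`Tm y_L = Norm_α (β y_L)`, which is `A`-integral with reduction `φ(ybar) · (φ⁻¹ ybar)^ℓ`
(`φ` the coefficientwise Frobenius).  Glue of

* `normCongruenceStatement` (Q-ES-2: `H65.normSeriesStatement` + `H89`),
* `Fermat.Agent.H49.heckeInputsAlong_qbar` (norm formula for `α`),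
* `correspondence_apply_eq_ord_norm`.
-/

set_option autoImplicit false
set_option linter.style.haveILetI false
set_option linter.unusedSectionVars false
set_option synthInstance.maxHeartbeats 400000

noncomputable section

namespace Fermat.Agent.H36

open ModularCurve AlgebraicCurve HahnSeries IntermediateField

section Frobenius

variable {k : Type*} [Field k] (ℓ : ℕ) [Fact ℓ.Prime] [CharP k ℓ]

/-- In characteristic `ℓ`: if `V t = V² a · a^ℓ` (with `V = (q ↦ q^ℓ)`) and `φ` is the Frobenius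
automorphism, then `t = φ(a) · (φ⁻¹ a)^ℓ`. -/
theorem eq_frobenius_mul_of_qExpand_eq (φ : k ≃+* k) (hφ : ∀ x, φ x = x ^ ℓ)
    (a t : LaurentSeries k)
    (ht : haveI : NeZero ℓ := ⟨(Fact.out : ℓ.Prime).ne_zero⟩
      qExpand k ℓ t = qExpand k ℓ (qExpand k ℓ a) * a ^ ℓ) :
    t = coeffMap (φ : k →+* k) a * coeffMap (φ.symm : k →+* k) a ^ ℓ := by
  haveI : NeZero ℓ := ⟨(Fact.out : ℓ.Prime).ne_zero⟩
  have hV := qExpand_injective (R := k) ℓ
  have e1 : ∀ x : LaurentSeries k, x ^ ℓ = qExpand k ℓ (coeffMap (frobenius k ℓ) x) :=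
    fun x => Fermat.Agent.H42.laurent_pow_char ℓ x
  have hφ' : ((φ : k →+* k)) = frobenius k ℓ := RingHom.ext fun x => by
    rw [frobenius_def]; exact hφ x
  have e2 : coeffMap (frobenius k ℓ) (coeffMap (φ.symm : k →+* k) a) = a := by
    rw [← hφ', coeffMap_coeffMap]
    have : ((φ : k →+* k)).comp (φ.symm : k →+* k) = RingHom.id k :=
      RingHom.ext fun x => φ.apply_symm_apply x
    rw [this, coeffMap_id]
  apply hV
  rw [ht, map_mul, map_pow, hφ', ← e1 a, ← map_pow, e1 (coeffMap (φ.symm : k →+* k) a), e2,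
    mul_comm]

end Frobenius

set_option maxHeartbeats 1600000 in
/-- **K-norm**, unconditional. -/
theorem kroneckerNormStatement (N : ℕ) [NeZero N] : KroneckerNormStatement N := by
  intro ℓ hℓ hℓN A hA φ hφ
  haveI : NeZero ℓ := ⟨hℓ.ne_zero⟩
  intro hα hβ _ y hy D hD
  haveI : Fact ℓ.Prime := ⟨hℓ⟩
  haveI : CharP (IsLocalRing.ResidueField A) ℓ := charP_residueField_of_liesOver A hℓ hA
  obtain ⟨y', hy'1, hy'2⟩ := normCongruenceStatement N ℓ hℓ hℓN A hA y hy.memL
  obtain ⟨_, _, _, hfin, _, hNF⟩ := Fermat.Agent.H49.heckeInputsAlong_qbar N ℓ hℓ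
  have hmem : coeffMap A.subtype y' ∈ modularFunctionFieldBar N := by
    rw [hy'1]; exact Subtype.property _
  have hf : (⟨coeffMap A.subtype y, hy.memL⟩ : modularFunctionFieldBar N) ≠ 0 := fun h =>
    coeffMap_subtype_ne_zero_of_residue A y hy.ne_zero (congrArg Subtype.val h)
  refine ⟨y', hmem, eq_frobenius_mul_of_qExpand_eq ℓ φ hφ _ _ hy'2, fun P => ?_⟩
  have h1 := correspondence_apply_eq_ord_norm (heckeBetaBar (AlgebraicClosure ℚ) N ℓ)
    (heckeAlphaBar (AlgebraicClosure ℚ) N ℓ) hβ hα hfin hNF hf hD P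
  have h2 : (⟨coeffMap A.subtype y', hmem⟩ : modularFunctionFieldBar N) =
      corrNorm (heckeBetaBar (AlgebraicClosure ℚ) N ℓ) (heckeAlphaBar (AlgebraicClosure ℚ) N ℓ)
        (⟨coeffMap A.subtype y, hy.memL⟩ : modularFunctionFieldBar N) :=
    Subtype.ext hy'1
  rw [h2]
  exact h1

end Fermat.Agent.H36

end
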