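import Fermat.Agent.H36.ESE.KroneckerNorm
import Fermat.Agent.H60.CenterIso
import Fermat.Agent.H77.EsEGalois
import Fermat.Agent.H16.S37E7
import Fermat.Agent.H16.ESDRRModL
import Fermat.Agent.H58.RR.Modular

/-!
# P-ES / ES-E: `S37` from the exports of ES-D

All ES-E rows are theorems now (`H60.centerIsoStatement`, `H77.eseg_galoisOfIsolation`,
`H16.congruenceOfIsolationStatement`, `kroneckerNormStatement`), as are the Hecke inputs
(`H49.heckeInputsAlong_qbar`) and Riemann's theorem on both sides (`H58`, `H16`).  What remains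
are the exports of ES-D at every place `A` of `ℚ̄` over a prime `ℓ ∤ N`:

* `ReductionInputsModL A N` (existence of the place reduction map),
* `TorsionInjective A N ℓ` (= the conclusion of `S18`),
* `GoodFunctionsStatement A π N` (lifting of functions with degree control),
* `JGoodStatement A π N` (`j` has the same polar degree on both sides).
-/

set_option autoImplicit false
set_option linter.style.haveILetI false
set_option linter.unusedSectionVars false
set_option synthInstance.maxHeartbeats 400000

noncomputable section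

namespace Fermat.Agent.H36

open ModularCurve AlgebraicCurve HahnSeries IntermediateField

/-- The exports of ES-D needed by `S37`, at one level. -/
structure S37Exports (N : ℕ) : Prop where
  inputs : ∀ ℓ : ℕ, ℓ.Prime → ¬ ℓ ∣ N → ∀ A : ValuationSubring (AlgebraicClosure ℚ),
    A.LiesOverPrime ℓ → ReductionInputsModL A N
  injective : ∀ ℓ : ℕ, ℓ.Prime → ¬ ℓ ∣ N → ∀ A : ValuationSubring (AlgebraicClosure ℚ),
    A.LiesOverPrime ℓ → TorsionInjective A N ℓ
  good : ∀ ℓ : ℕ, ℓ.Prime → ¬ ℓ ∣ N → ∀ A : ValuationSubring (AlgebraicClosure ℚ),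
    A.LiesOverPrime ℓ → GoodFunctionsStatement A (IsLocalRing.residue A) N
  jGood : ∀ ℓ : ℕ, ℓ.Prime → ¬ ℓ ∣ N → ∀ A : ValuationSubring (AlgebraicClosure ℚ),
    A.LiesOverPrime ℓ → JGoodStatement A (IsLocalRing.residue A) N

theorem reductionExports_of (N : ℕ) [NeZero N] (h : S37Exports N) (ℓ : ℕ) (hℓ : ℓ.Prime)
    (hℓN : ¬ ℓ ∣ N) (A : ValuationSubring (AlgebraicClosure ℚ)) (hA : A.LiesOverPrime ℓ) :
    ReductionExports A N := by
  haveI : Fact ℓ.Prime := ⟨hℓ⟩
  obtain ⟨_, hrr⟩ := Fermat.Agent.H16.rrModLStatement N ℓ hℓN A hA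
  exact
    { hasPrincipalDivisors := hrr.principal
      deg_pos := fun Q => by rw [hrr.deg_one Q]; exact Nat.one_pos
      good := h.good ℓ hℓ hℓN A hA
      jGood := h.jGood ℓ hℓ hℓN A hA }

/-- `ReductionDataStatement N p` from the exports of ES-D. -/
theorem reductionDataStatement_of_exports (N p : ℕ) [NeZero N] (h : S37Exports N) :
    ReductionDataStatement N p := by
  have hrrL := Fermat.Agent.H58.rrHyp_modularFunctionFieldBar N
  refine reductionDataStatement_of_parts N p h.inputs h.injective
    (fun ℓ hℓ _ => by
      haveI : NeZero ℓ := ⟨hℓ.ne_zero⟩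
      exact Fermat.Agent.H49.heckeInputsAlong_qbar N ℓ hℓ)
    (galoisEquivariantStatement_of_rows N Fermat.Agent.H60.centerIsoStatement
      Fermat.Agent.H77.eseg_galoisOfIsolation hrrL.principal hrrL.deg_one
      (reductionExports_of N h))
    (congruenceStatement_of_rows N Fermat.Agent.H60.centerIsoStatement
      Fermat.Agent.H16.congruenceOfIsolationStatement (kroneckerNormStatement N)
      hrrL.principal hrrL.deg_one (reductionExports_of N h))

/-- **`S37` from the exports of ES-D** (exact shape of the frozen statement). -/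
theorem s37_of_exports (N p : ℕ) [NeZero N] (h : S37Exports N)
    (hcomm : ModularCurve.HeckeOperatorsCommuteBar N) :
    letI := ModularCurve.heckeModuleBar N
    ∀ (_ : SMulCommClass (AlgebraicClosure ℚ ≃ₐ[ℚ] AlgebraicClosure ℚ) ModularCurve.HeckeAlg
      (ModularCurve.JZero N)),
      ModularCurve.SpecializationExists (K := ℚ) (L := AlgebraicClosure ℚ) N p
        (ModularCurve.JZero N) :=
  specializationExists_of_reductionData N p hcomm (reductionDataStatement_of_exports N p h)

end Fermat.Agent.H36

end
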