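import Fermat.Agent.H36.ESE.S37Final
import Fermat.Agent.H36.ESE.IsoLifting
import Fermat.Agent.H36.ESE.JGood

/-!
# P-ES / ES-E: `S37` from the existence of the place reduction map

`s37_of_inputs`: the frozen statement `S37` at level `N` follows from three inputs at every
place `A` of `ℚ̄` over every prime `ℓ ∤ N`:

* `ReductionInputsModL A N` (existence of a place reduction map; ES-D, row T4),
* the genus inequality `g(F_L) ≤ g(F_k)` (ES-D, row T3; `H7.ESD.genusFF_le_five` for `ℓ ≥ 5`),
* `TorsionInjective A N ℓ` (the conclusion of `S18`; from the key lemma by `H64.s18_of_KL`).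

Everything else is a theorem: isolation (closure form) from the lifting theorem
(`isolationClosure_of_rvHyp`), the centre property of `j` (`jGood_of_inputs` +
`H60.centerIsoStatement`), Galois equivariance and the congruence relation
(`galoisEquivariantAt_of_isolationClosure`, `congruenceRelation_of_isolationClosure`),
Kronecker's congruence for norms (`kroneckerNormStatement`), the Hecke inputs (`H49`).
-/

set_option autoImplicit false
set_option linter.style.haveILetI false
set_option linter.unusedSectionVars false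
set_option synthInstance.maxHeartbeats 400000
set_option maxHeartbeats 1600000

noncomputable section

namespace Fermat.Agent.H36

open ModularCurve AlgebraicCurve HahnSeries IntermediateField

/-- The inputs of `S37` at one place. -/
structure S37InputsAt (N : ℕ) (ℓ : ℕ) (A : ValuationSubring (AlgebraicClosure ℚ)) : Prop where
  inputs : ReductionInputsModL A N
  genus : genusFF (AlgebraicClosure ℚ) ↥(modularFunctionFieldBar N) ≤
    genusFF (IsLocalRing.ResidueField A)
      ↥(modularFunctionFieldFullC (IsLocalRing.ResidueField A) N)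
  injective : TorsionInjective A N ℓ

/-- The reduction datum at one place, from the inputs. -/
theorem jZeroReductionDatum_of_inputs (N p : ℕ) [NeZero N] (ℓ : ℕ) (hℓ : ℓ.Prime)
    (hℓNp : ¬ ℓ ∣ N * p) (A : ValuationSubring (AlgebraicClosure ℚ)) (hA : A.LiesOverPrime ℓ)
    (h : S37InputsAt N ℓ A) :
    Nonempty (JZeroReductionDatum N p A ℓ hℓ (JZeroC (IsLocalRing.ResidueField A) N)) := by
  haveI : Fact ℓ.Prime := ⟨hℓ⟩
  haveI : NeZero ℓ := ⟨hℓ.ne_zero⟩
  have hℓN : ¬ ℓ ∣ N := fun hd => hℓNp (Dvd.dvd.mul_right hd p)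
  haveI : IsAlgClosed (IsLocalRing.ResidueField A) :=
    Fermat.Agent.H89.isAlgClosed_residueField A
  haveI : Infinite (IsLocalRing.ResidueField A) := IsAlgClosed.instInfinite
  obtain ⟨_, hrrk⟩ := Fermat.Agent.H16.rrModLStatement N ℓ hℓN A hA
  have hrrL := Fermat.Agent.H58.rrHyp_modularFunctionFieldBar N
  have hL := Fermat.Agent.H27.ESD.riemannPackage_of_rrHyp hrrL
  have hk := Fermat.Agent.H27.ESD.riemannPackage_of_rrHyp hrrk
  have hr := isPlaceReductionModL_placeReductionModL h.inputs
  have H := Fermat.Agent.H18.rvHyp_of_inputs A N h.inputs hL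
  have hArch := Fermat.Agent.H18.rvArch_algebraicClosure A hℓ hA
  have hiso : IsolationClosure A (IsLocalRing.residue A) (placeReductionModL h.inputs) :=
    isolationClosure_of_rvHyp H hArch IsLocalRing.residue_surjective hL hk h.genus
  have hJ := jGood_of_inputs N ℓ hℓN A hA h.inputs
  have hcen : CenterProperty (π := IsLocalRing.residue A) (placeReductionModL h.inputs)
      (jqModC A) :=
    (Fermat.Agent.H60.centerIsoStatement (AlgebraicClosure ℚ) A (IsLocalRing.ResidueField A)
      (IsLocalRing.residue A) N (placeReductionModL h.inputs) (isResidueMap_residue A) hr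
      hrrL.principal hrrk.principal hrrL.deg_one
      (fun Q => by rw [hrrk.deg_one Q]; exact Nat.one_pos)).1 _ hJ
  obtain ⟨σ₀, hσ₀⟩ := Fermat.Agent.H53.exists_isFrobeniusAt_algebraicClosure hℓ A hA
  have hφ : ∀ x, residueAut (K := ℚ) A ⟨σ₀, hσ₀.mem_decompositionSubgroup⟩ x = x ^ ℓ :=
    fun x => by rw [residueAut_apply]; exact hσ₀.smul_residue_eq x
  refine jZeroReductionDatum_of_parts p hℓ hℓNp h.inputs h.injective
    (Fermat.Agent.H49.heckeInputsAlong_qbar N ℓ hℓ)
    (fun σ => galoisEquivariantAt_of_isolationClosure (isResidueMap_residue A) hr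
      hrrk.principal hrrL.deg_one hiso hcen _ _ (isInducedAut_residueAut A σ))
    (residueAut (K := ℚ) A ⟨σ₀, hσ₀.mem_decompositionSubgroup⟩) hφ ?_
  exact congruenceRelation_of_isolationClosure N ℓ hℓ hℓN A hA _ hr hrrk.principal
    hrrL.deg_one hiso hcen (kroneckerNormStatement N) _ hφ

/-- `ReductionDataStatement N p` from the inputs at all good places. -/
theorem reductionDataStatement_of_inputs (N p : ℕ) [NeZero N]
    (h : ∀ ℓ : ℕ, ℓ.Prime → ¬ ℓ ∣ N → ∀ A : ValuationSubring (AlgebraicClosure ℚ),
      A.LiesOverPrime ℓ → S37InputsAt N ℓ A) :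
    ReductionDataStatement N p := by
  intro ℓ hℓ hℓNp A hA
  have hℓN : ¬ ℓ ∣ N := fun hd => hℓNp (Dvd.dvd.mul_right hd p)
  exact ⟨JZeroC (IsLocalRing.ResidueField A) N, inferInstance,
    jZeroReductionDatum_of_inputs N p ℓ hℓ hℓNp A hA (h ℓ hℓ hℓN A hA)⟩

/-- **`S37` from the existence of place reduction maps** (exact shape of the frozen
statement). -/
theorem s37_of_inputs (N p : ℕ) [NeZero N]
    (h : ∀ ℓ : ℕ, ℓ.Prime → ¬ ℓ ∣ N → ∀ A : ValuationSubring (AlgebraicClosure ℚ),
      A.LiesOverPrime ℓ → S37InputsAt N ℓ A)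
    (hcomm : ModularCurve.HeckeOperatorsCommuteBar N) :
    letI := ModularCurve.heckeModuleBar N
    ∀ (_ : SMulCommClass (AlgebraicClosure ℚ ≃ₐ[ℚ] AlgebraicClosure ℚ) ModularCurve.HeckeAlg
      (ModularCurve.JZero N)),
      ModularCurve.SpecializationExists (K := ℚ) (L := AlgebraicClosure ℚ) N p
        (ModularCurve.JZero N) :=
  specializationExists_of_reductionData N p hcomm (reductionDataStatement_of_inputs N p h)

end Fermat.Agent.H36

end
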