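import Fermat.Agent.H36.ESE.WildS37
import Fermat.Agent.H64.S18Final
import Fermat.Agent.H18.ExTame

/-!
# P-ES / S37: final reduction

`s37_of_genus_KL`: the frozen statement `S37` (all levels `N`, all `p`) from

* `H18.GenusUncondTameStatement`: the genus inequality `g(F_L) ≤ g(F_k)` at the TAME pairs
  (E6, no reduction inputs), and
* the key lemma `H22.ES.KeyLemmaStatement N ℓ` at the TAME pairs.
-/

set_option autoImplicit false
set_option linter.style.haveILetI false
set_option linter.unusedSectionVars false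
set_option synthInstance.maxHeartbeats 400000
set_option maxHeartbeats 1600000

noncomputable section

namespace Fermat.Agent.H36

open ModularCurve AlgebraicCurve

/-- The inputs of `S37` at one place, from the genus inequality and the key lemma. -/
theorem s37InputsAt_of_genus_KL (N : ℕ) [NeZero N] (ℓ : ℕ) (hℓ : ℓ.Prime) (hℓN : ¬ ℓ ∣ N)
    (A : ValuationSubring (AlgebraicClosure ℚ)) (hA : A.LiesOverPrime ℓ)
    (hg : genusFF (AlgebraicClosure ℚ) ↥(modularFunctionFieldBar N) ≤
      genusFF (IsLocalRing.ResidueField A)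
        ↥(modularFunctionFieldFullC (IsLocalRing.ResidueField A) N))
    (hKL : Fermat.Agent.H22.ES.KeyLemmaStatement N ℓ) : S37InputsAt N ℓ A := by
  haveI : Fact ℓ.Prime := ⟨hℓ⟩
  have hin : ReductionInputsModL A N :=
    Fermat.Agent.H18.reductionInputs_of_genusFF_le N ℓ hℓN A hA hg
  exact ⟨hin, hg, fun m hm z hmz hz =>
    Fermat.Agent.H64.s18_of_KL N hℓN hKL A hA hin m hm z hmz hz⟩

/-- **`S37` from the genus inequality and the key lemma at the tame pairs** (exact shape of
the frozen statement). -/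
theorem s37_of_genus_KL (hE6 : Fermat.Agent.H18.GenusUncondTameStatement)
    (hKL : ∀ (N' : ℕ) [NeZero N'] (ℓ : ℕ), ℓ.Prime → ¬ ℓ ∣ N' →
      Fermat.Agent.H27.ESD.TamePair N' ℓ → Fermat.Agent.H22.ES.KeyLemmaStatement N' ℓ)
    (N p : ℕ) [NeZero N] (hcomm : ModularCurve.HeckeOperatorsCommuteBar N) :
    letI := ModularCurve.heckeModuleBar N
    ∀ (_ : SMulCommClass (AlgebraicClosure ℚ ≃ₐ[ℚ] AlgebraicClosure ℚ) ModularCurve.HeckeAlg
      (ModularCurve.JZero N)),
      ModularCurve.SpecializationExists (K := ℚ) (L := AlgebraicClosure ℚ) N p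
        (ModularCurve.JZero N) :=
  s37_of_tame (fun N' _ ℓ hℓ hℓN' ht A hA =>
    haveI : Fact ℓ.Prime := ⟨hℓ⟩
    s37InputsAt_of_genus_KL N' ℓ hℓ hℓN' A hA (hE6 N' ℓ hℓN' ht A hA)
      (hKL N' ℓ hℓ hℓN' ht)) N p hcomm

/-- The same, from the key lemma at all pairs. -/
theorem s37_of_genus_KLAll (hE6 : Fermat.Agent.H18.GenusUncondTameStatement)
    (hKL : Fermat.Agent.H22.ES.KeyLemmaAllStatement)
    (N p : ℕ) [NeZero N] (hcomm : ModularCurve.HeckeOperatorsCommuteBar N) :
    letI := ModularCurve.heckeModuleBar N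
    ∀ (_ : SMulCommClass (AlgebraicClosure ℚ ≃ₐ[ℚ] AlgebraicClosure ℚ) ModularCurve.HeckeAlg
      (ModularCurve.JZero N)),
      ModularCurve.SpecializationExists (K := ℚ) (L := AlgebraicClosure ℚ) N p
        (ModularCurve.JZero N) :=
  s37_of_genus_KL hE6 (fun N' _ ℓ hℓ hℓN' _ => hKL N' ℓ hℓ hℓN') N p hcomm

end Fermat.Agent.H36

end
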