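import Fermat.Agent.H36.ESE.WildFunct

/-!
# P-ES / S37 at the wild pairs, part 3: base change for divisors

For a commutative square of function fields

```
F  --a-->  E
|m         |g
F' --a'--> E'
```

in which the norm of `E' / F'` restricts to the norm of `E / F`, the identity
`m^* ∘ a_* = a'_* ∘ g^*` holds on divisors of `E`.  The proof is local: both sides agree on
principal divisors (norm formula), and by weak approximation every place of `E` is the
restriction of a principal divisor to a fibre.  Prelude only.
-/

set_option autoImplicit false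
set_option linter.style.haveILetI false
set_option linter.unusedSectionVars false

noncomputable section

namespace Fermat.Agent.H36

open AlgebraicCurve

section Along

variable {K F F' : Type*} [Field K] [Field F] [Field F'] [Algebra K F] [Algebra K F']

/-- The pullback of the divisor of `f` is the divisor of `φ f`. -/
theorem wild_pullbackAlong_apply_eq_ord [HasPrincipalDivisors K F'] (φ : F →ₐ[K] F')
    (hφ : φ.toRingHom.IsIntegral) {f : F} {D : Divisor K F}
    (hD : ∀ v : Place K F, D v = v.ord f) (w : Place K F') :
    Divisor.pullbackAlong φ hφ D w = w.ord (φ f) := by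
  rw [Divisor.pullbackAlong_apply, hD, Place.ord_restrictAlong φ hφ]

/-- Evaluation of a pushforward. -/
theorem wild_pushforwardAlong_apply (φ : F →ₐ[K] F') (hφ : φ.toRingHom.IsIntegral)
    (D : Divisor K F') (v : Place K F) :
    Divisor.pushforwardAlong φ hφ D v =
      ∑ w ∈ D.support, (open Classical in
        if w.restrictAlong φ hφ = v then D w * (w.inertiaDegAlong φ hφ : ℤ) else 0) := by
  classical
  letI := algebraAlong φ
  haveI := isScalarTower_along φ
  haveI := isIntegral_along φ hφ
  have h := Divisor.pushforward_apply (K := K) (F := F) D v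
  refine h.trans (Finset.sum_congr rfl fun w _ => ?_)
  rfl

/-- A divisor vanishing on the fibre over `v` has a pushforward vanishing at `v`. -/
theorem wild_pushforwardAlong_apply_eq_zero (φ : F →ₐ[K] F') (hφ : φ.toRingHom.IsIntegral)
    (D : Divisor K F') (v : Place K F)
    (h : ∀ w : Place K F', w.restrictAlong φ hφ = v → D w = 0) :
    Divisor.pushforwardAlong φ hφ D v = 0 := by
  classical
  rw [wild_pushforwardAlong_apply]
  refine Finset.sum_eq_zero fun w _ => ?_
  split_ifs with hw
  · rw [h w hw, zero_mul]
  · rfl

/-- The norm formula, `Along` form. -/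
theorem wild_pushforwardAlong_apply_eq_ord (φ : F →ₐ[K] F') (hφ : φ.toRingHom.IsIntegral)
    (hfin : FiniteAlong K φ) (hN : NormFormulaAlong K φ hfin) {f : F'} (hf : f ≠ 0)
    {D : Divisor K F'} (hD : ∀ w : Place K F', D w = w.ord f) (v : Place K F) :
    Divisor.pushforwardAlong φ hφ D v =
      v.ord (letI := algebraAlong φ; Algebra.norm F f) := by
  letI := algebraAlong φ
  haveI := isScalarTower_along φ
  haveI := isIntegral_along φ hφ
  haveI : Module.Finite F F' := hfin
  exact hN f hf D hD v

end Along

section BaseChange

variable {K F F' E E' : Type*} [Field K] [Field F] [Field F'] [Field E] [Field E']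
  [Algebra K F] [Algebra K F'] [Algebra K E] [Algebra K E']
  [HasPrincipalDivisors K E] [HasPrincipalDivisors K E'] [HasPrincipalDivisors K F']
variable (a : F →ₐ[K] E) (m : F →ₐ[K] F') (a' : F' →ₐ[K] E') (g : E →ₐ[K] E')
variable (ha : a.toRingHom.IsIntegral) (hm : m.toRingHom.IsIntegral)
  (ha' : a'.toRingHom.IsIntegral) (hg : g.toRingHom.IsIntegral)

/-- The difference of the two sides of the base change identity, evaluated at a place. -/
def wildDelta (v' : Place K F') : Divisor K E →+ ℤ :=
  (Finsupp.applyAddHom v').comp
    ((Divisor.pullbackAlong m hm).comp (Divisor.pushforwardAlong a ha) -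
      (Divisor.pushforwardAlong a' ha').comp (Divisor.pullbackAlong g hg))

theorem wildDelta_apply (v' : Place K F') (D : Divisor K E) :
    wildDelta a m a' g ha hm ha' hg v' D =
      Divisor.pullbackAlong m hm (Divisor.pushforwardAlong a ha D) v' -
        Divisor.pushforwardAlong a' ha' (Divisor.pullbackAlong g hg D) v' :=
  rfl

/-- The two sides agree on principal divisors. -/
theorem wildDelta_principal
    (hfin : FiniteAlong K a) (hfin' : FiniteAlong K a')
    (hN : NormFormulaAlong K a hfin) (hN' : NormFormulaAlong K a' hfin')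
    (hnorm : ∀ x : E, (letI := algebraAlong a'; Algebra.norm F' (g x)) =
      m (letI := algebraAlong a; Algebra.norm F x))
    (v' : Place K F') {x : E} (hx : x ≠ 0) {D : Divisor K E} (hD : ∀ w, D w = w.ord x) :
    wildDelta a m a' g ha hm ha' hg v' D = 0 := by
  rw [wildDelta_apply, sub_eq_zero]
  have h1 : ∀ v, Divisor.pushforwardAlong a ha D v =
      v.ord (letI := algebraAlong a; Algebra.norm F x) :=
    fun v => wild_pushforwardAlong_apply_eq_ord a ha hfin hN hx hD v
  rw [wild_pullbackAlong_apply_eq_ord m hm h1 v']
  have h2 : ∀ w', Divisor.pullbackAlong g hg D w' = w'.ord (g x) :=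
    fun w' => wild_pullbackAlong_apply_eq_ord g hg hD w'
  have hgx : g x ≠ 0 := (map_ne_zero g).mpr hx
  rw [wild_pushforwardAlong_apply_eq_ord a' ha' hfin' hN' hgx h2 v', hnorm]

/-- The difference vanishes on divisors supported away from the fibre. -/
theorem wildDelta_eq_zero_of_vanish (hsq : a'.comp m = g.comp a)
    (v' : Place K F') (D : Divisor K E)
    (h : ∀ w : Place K E, w.restrictAlong a ha = v'.restrictAlong m hm → D w = 0) :
    wildDelta a m a' g ha hm ha' hg v' D = 0 := by
  rw [wildDelta_apply, Divisor.pullbackAlong_apply,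
    wild_pushforwardAlong_apply_eq_zero a ha D _ h, mul_zero, zero_sub, neg_eq_zero]
  refine wild_pushforwardAlong_apply_eq_zero a' ha' _ v' fun w' hw' => ?_
  rw [Divisor.pullbackAlong_apply]
  have h1 : (w'.restrictAlong g hg).restrictAlong a ha = v'.restrictAlong m hm := by
    rw [← hw', ← wild_restrictAlong_comp a g ha hg (wild_isIntegral_comp a g ha hg),
      ← wild_restrictAlong_comp m a' hm ha' (wild_isIntegral_comp m a' hm ha')]
    exact Place.restrictAlong_congr hsq.symm _ _ w'
  rw [h _ h1, mul_zero]

/-- **Base change for divisors.** -/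
theorem wild_baseChange (hsq : a'.comp m = g.comp a)
    (hfin : FiniteAlong K a) (hfin' : FiniteAlong K a')
    (hN : NormFormulaAlong K a hfin) (hN' : NormFormulaAlong K a' hfin')
    (hnorm : ∀ x : E, (letI := algebraAlong a'; Algebra.norm F' (g x)) =
      m (letI := algebraAlong a; Algebra.norm F x))
    (hWA : ∀ (w₀ : Place K E) (S : Finset (Place K E)),
      ∃ x : E, x ≠ 0 ∧ w₀.ord x ≠ 0 ∧ ∀ w ∈ S, w ≠ w₀ → w.ord x = 0)
    (D : Divisor K E) :
    Divisor.pullbackAlong m hm (Divisor.pushforwardAlong a ha D) =
      Divisor.pushforwardAlong a' ha' (Divisor.pullbackAlong g hg D) := by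
  classical
  ext v'
  rw [← sub_eq_zero, ← wildDelta_apply]
  induction D using Finsupp.induction_linear with
  | zero => exact map_zero _
  | add D₁ D₂ h₁ h₂ => rw [map_add, h₁, h₂, add_zero]
  | single w₀ n =>
    by_cases hv : w₀.restrictAlong a ha = v'.restrictAlong m hm
    · -- weak approximation on the fibre
      obtain ⟨x, hx, hc, hS⟩ := hWA w₀ (Place.fiberAlong a ha (w₀.restrictAlong a ha))
      obtain ⟨Dx, hDx, -⟩ := HasPrincipalDivisors.exists_divisor (K := K) x hx
      have h0 := wildDelta_principal a m a' g ha hm ha' hg hfin hfin' hN hN' hnorm v' hx hDx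
      have hR : wildDelta a m a' g ha hm ha' hg v' (Dx - Finsupp.single w₀ (w₀.ord x)) = 0 := by
        refine wildDelta_eq_zero_of_vanish a m a' g ha hm ha' hg hsq v' _ fun w hw => ?_
        rw [Finsupp.sub_apply, hDx]
        by_cases hww : w = w₀
        · subst hww
          rw [Finsupp.single_eq_same, sub_self]
        · rw [Finsupp.single_eq_of_ne hww, sub_zero]
          exact hS w (Place.mem_fiberAlong.mpr (hw.trans hv.symm)) hww
      rw [map_sub, h0, zero_sub, neg_eq_zero] at hR
      have h1 : Finsupp.single w₀ (w₀.ord x) = w₀.ord x • Finsupp.single w₀ (1 : ℤ) := by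
        rw [Finsupp.smul_single, smul_eq_mul, mul_one]
      rw [h1, map_zsmul, smul_eq_mul] at hR
      have h2 := (mul_eq_zero.mp hR).resolve_left hc
      have h3 : Finsupp.single w₀ n = n • Finsupp.single w₀ (1 : ℤ) := by
        rw [Finsupp.smul_single, smul_eq_mul, mul_one]
      rw [h3, map_zsmul, h2, smul_zero]
    · refine wildDelta_eq_zero_of_vanish a m a' g ha hm ha' hg hsq v' _ fun w hw => ?_
      have hww : w ≠ w₀ := fun h => hv (h ▸ hw)
      exact Finsupp.single_eq_of_ne hww

end BaseChange

end Fermat.Agent.H36

end
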