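import Fermat.Prelude.Def_AlgebraicCurve_Correspondence

/-!
# P-ES / S37 at the wild pairs, part 1: functoriality of pullbacks

Restriction of places, ramification indices and pullbacks of divisors along a composite of
homomorphisms of function fields.  Prelude only.
-/

set_option autoImplicit false
set_option linter.style.haveILetI false
set_option linter.unusedSectionVars false

noncomputable section

namespace Fermat.Agent.H36

open AlgebraicCurve

section Functoriality

variable {K F F' F'' : Type*} [Field K] [Field F] [Field F'] [Field F'']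
  [Algebra K F] [Algebra K F'] [Algebra K F'']

/-- A uniformizer at a place, as a field element. -/
theorem wild_exists_ord_eq_one (v : Place K F) : ∃ π : F, π ≠ 0 ∧ v.ord π = 1 := by
  obtain ⟨ϖ, hϖ⟩ := IsDiscreteValuationRing.exists_irreducible v.toValuationSubring
  refine ⟨(ϖ : F), ?_, v.ord_coe_irreducible hϖ⟩
  simpa [ne_eq, ZeroMemClass.coe_eq_zero] using hϖ.ne_zero

/-- Membership in the restricted place. -/
theorem wild_mem_restrictAlong (φ : F →ₐ[K] F') (hφ : φ.toRingHom.IsIntegral) (w : Place K F')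
    (f : F) : f ∈ (w.restrictAlong φ hφ).toValuationSubring ↔ φ f ∈ w.toValuationSubring :=
  Iff.rfl

/-- Restriction of places is functorial. -/
theorem wild_restrictAlong_comp (φ : F →ₐ[K] F') (ψ : F' →ₐ[K] F'')
    (hφ : φ.toRingHom.IsIntegral) (hψ : ψ.toRingHom.IsIntegral)
    (hψφ : (ψ.comp φ).toRingHom.IsIntegral) (W : Place K F'') :
    W.restrictAlong (ψ.comp φ) hψφ = (W.restrictAlong ψ hψ).restrictAlong φ hφ := by
  apply Place.ext
  ext f
  rfl

/-- The composite of integral homomorphisms is integral. -/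
theorem wild_isIntegral_comp (φ : F →ₐ[K] F') (ψ : F' →ₐ[K] F'')
    (hφ : φ.toRingHom.IsIntegral) (hψ : ψ.toRingHom.IsIntegral) :
    (ψ.comp φ).toRingHom.IsIntegral :=
  RingHom.IsIntegral.trans _ _ hφ hψ

/-- Ramification indices are multiplicative. -/
theorem wild_ramificationIndexAlong_comp (φ : F →ₐ[K] F') (ψ : F' →ₐ[K] F'')
    (hφ : φ.toRingHom.IsIntegral) (hψ : ψ.toRingHom.IsIntegral)
    (hψφ : (ψ.comp φ).toRingHom.IsIntegral) (W : Place K F'') :
    W.ramificationIndexAlong (ψ.comp φ) =
      W.ramificationIndexAlong ψ * (W.restrictAlong ψ hψ).ramificationIndexAlong φ := by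
  obtain ⟨π, -, hπ⟩ := wild_exists_ord_eq_one ((W.restrictAlong ψ hψ).restrictAlong φ hφ)
  have h1 := Place.ord_restrictAlong (ψ.comp φ) hψφ W π
  have h2 := Place.ord_restrictAlong ψ hψ W (φ π)
  have h3 := Place.ord_restrictAlong φ hφ (W.restrictAlong ψ hψ) π
  rw [wild_restrictAlong_comp φ ψ hφ hψ hψφ, hπ, mul_one] at h1
  rw [hπ, mul_one] at h3
  rw [h3] at h2
  have h4 : (ψ.comp φ) π = ψ (φ π) := rfl
  rw [h4, h2] at h1
  exact_mod_cast h1.symm

/-- Pullbacks of divisors are functorial. -/
theorem wild_pullbackAlong_comp [HasPrincipalDivisors K F'] [HasPrincipalDivisors K F'']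
    (φ : F →ₐ[K] F') (ψ : F' →ₐ[K] F'')
    (hφ : φ.toRingHom.IsIntegral) (hψ : ψ.toRingHom.IsIntegral)
    (hψφ : (ψ.comp φ).toRingHom.IsIntegral) (D : Divisor K F) :
    Divisor.pullbackAlong (ψ.comp φ) hψφ D =
      Divisor.pullbackAlong ψ hψ (Divisor.pullbackAlong φ hφ D) := by
  ext W
  rw [Divisor.pullbackAlong_apply, Divisor.pullbackAlong_apply, Divisor.pullbackAlong_apply,
    wild_restrictAlong_comp φ ψ hφ hψ hψφ, wild_ramificationIndexAlong_comp φ ψ hφ hψ hψφ]
  push_cast
  ring

/-- Pullbacks along equal homomorphisms agree. -/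
theorem wild_pullbackAlong_congr [HasPrincipalDivisors K F'] {φ φ' : F →ₐ[K] F'} (h : φ = φ')
    (hφ : φ.toRingHom.IsIntegral) (hφ' : φ'.toRingHom.IsIntegral) (D : Divisor K F) :
    Divisor.pullbackAlong φ hφ D = Divisor.pullbackAlong φ' hφ' D := by
  subst h
  rfl

end Functoriality

end Fermat.Agent.H36

end
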