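import Fermat.Agent.H36.ESE.WildModular

/-!
# P-ES / S37 at the wild pairs, part 6: the degeneracy pullback commutes with `T_ℓ`

For primes `M ∤ N`, `ℓ ∤ N M` with `ℓ + 1` prime to `M + 1` (e.g. `(M, ℓ) = (3, 2), (2, 3)`):
`wildPull N M ∘ T_ℓ^{(N)} = T_ℓ^{(N M)} ∘ wildPull N M` on `J₀(N)(ℚ̄)`.
-/

set_option autoImplicit false
set_option linter.style.haveILetI false
set_option linter.unusedSectionVars false
set_option synthInstance.maxHeartbeats 400000
set_option maxHeartbeats 1600000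

noncomputable section

namespace Fermat.Agent.H36

open AlgebraicCurve ModularCurve IntermediateField

section Hecke

variable (N M ℓ : ℕ) [NeZero N] [NeZero M] [NeZero ℓ]

/-- `ℚ̄(X₀(N ℓ)) ≤ ℚ̄(X₀(N M ℓ))`. -/
theorem wild_le_top : modularFunctionFieldBar (N * ℓ) ≤ modularFunctionFieldBar (N * M * ℓ) :=
  Fermat.Agent.H9.ESD.lc_bar_le ⟨M, by ring⟩

/-- The square of inclusions commutes. -/
theorem wild_square_alpha :
    (heckeAlphaBar (AlgebraicClosure ℚ) (N * M) ℓ).comp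
        (IntermediateField.inclusion (wild_le N M)) =
      (IntermediateField.inclusion (wild_le_top N M ℓ)).comp
        (heckeAlphaBar (AlgebraicClosure ℚ) N ℓ) := by
  apply AlgHom.ext
  intro x
  apply Subtype.ext
  rw [AlgHom.comp_apply, AlgHom.comp_apply, coe_heckeAlphaBar, IntermediateField.coe_inclusion,
    IntermediateField.coe_inclusion, coe_heckeAlphaBar]

/-- The square of the maps `q ↦ q^ℓ` commutes. -/
theorem wild_square_beta :
    (heckeBetaBar (AlgebraicClosure ℚ) (N * M) ℓ).comp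
        (IntermediateField.inclusion (wild_le N M)) =
      (IntermediateField.inclusion (wild_le_top N M ℓ)).comp
        (heckeBetaBar (AlgebraicClosure ℚ) N ℓ) := by
  apply AlgHom.ext
  intro x
  apply Subtype.ext
  rw [AlgHom.comp_apply, AlgHom.comp_apply, coe_heckeBetaBar, IntermediateField.coe_inclusion,
    IntermediateField.coe_inclusion, coe_heckeBetaBar]

/-- Base change for the square of inclusions. -/
theorem wild_baseChange_bar (hℓ : ℓ.Prime) (hM : M.Prime) (hMN : ¬ M ∣ N)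
    (hℓNM : ¬ ℓ ∣ N * M) (hcop : Nat.Coprime (ℓ + 1) (M + 1))
    (hα : HeckeAlphaBarIntegral (AlgebraicClosure ℚ) N ℓ)
    (hα' : HeckeAlphaBarIntegral (AlgebraicClosure ℚ) (N * M) ℓ)
    (D : Divisor (AlgebraicClosure ℚ) ↥(modularFunctionFieldBar (N * ℓ))) :
    Divisor.pullbackAlong (IntermediateField.inclusion (wild_le N M)) (wild_isIntegral_bar _)
        (Divisor.pushforwardAlong (heckeAlphaBar (AlgebraicClosure ℚ) N ℓ) hα D) =
      Divisor.pushforwardAlong (heckeAlphaBar (AlgebraicClosure ℚ) (N * M) ℓ) hα'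
        (Divisor.pullbackAlong (IntermediateField.inclusion (wild_le_top N M ℓ))
          (wild_isIntegral_bar _) D) := by
  have hℓN : ¬ ℓ ∣ N := fun h => hℓNM (Dvd.dvd.mul_right h M)
  have hle : modularFunctionFieldBar N ≤ modularFunctionFieldBar (N * ℓ) :=
    Fermat.Agent.H9.ESD.lc_bar_le (dvd_mul_right N ℓ)
  have hle' : modularFunctionFieldBar (N * M) ≤ modularFunctionFieldBar (N * M * ℓ) :=
    Fermat.Agent.H9.ESD.lc_bar_le (dvd_mul_right (N * M) ℓ)
  have hdeg1 : finrankAlong (AlgebraicClosure ℚ) (heckeAlphaBar (AlgebraicClosure ℚ) N ℓ)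
      = ℓ + 1 :=
    Fermat.Agent.H9.ESD.lc_finrankAlong_bar (mul_comm N ℓ) hℓ hℓN hle
  have hdeg2 : finrankAlong (AlgebraicClosure ℚ)
      (heckeAlphaBar (AlgebraicClosure ℚ) (N * M) ℓ) = ℓ + 1 :=
    Fermat.Agent.H9.ESD.lc_finrankAlong_bar (mul_comm (N * M) ℓ) hℓ hℓNM hle'
  have hfin : FiniteAlong (AlgebraicClosure ℚ) (heckeAlphaBar (AlgebraicClosure ℚ) N ℓ) :=
    wild_finiteAlong_bar hle
  have hfin' : FiniteAlong (AlgebraicClosure ℚ)
      (heckeAlphaBar (AlgebraicClosure ℚ) (N * M) ℓ) :=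
    wild_finiteAlong_bar hle'
  have hN : NormFormulaAlong (AlgebraicClosure ℚ) (heckeAlphaBar (AlgebraicClosure ℚ) N ℓ)
      hfin := wild_normFormula_bar hle
  have hN' : NormFormulaAlong (AlgebraicClosure ℚ)
      (heckeAlphaBar (AlgebraicClosure ℚ) (N * M) ℓ) hfin' := wild_normFormula_bar hle'
  have hRP := Fermat.Agent.H27.ESD.riemannPackage_of_rrHyp
    (Fermat.Agent.H58.rrHyp_modularFunctionFieldBar (N * ℓ))
  refine wild_baseChange (heckeAlphaBar (AlgebraicClosure ℚ) N ℓ)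
    (IntermediateField.inclusion (wild_le N M))
    (heckeAlphaBar (AlgebraicClosure ℚ) (N * M) ℓ)
    (IntermediateField.inclusion (wild_le_top N M ℓ)) hα (wild_isIntegral_bar _) hα'
    (wild_isIntegral_bar _) (wild_square_alpha N M ℓ) hfin hfin' hN hN' ?_
    (fun w₀ S => wild_weakApprox hRP w₀ S) D
  refine wild_norm_along _ _ _ _ (wild_square_alpha N M ℓ) hfin (hdeg2.trans hdeg1.symm) ?_
  rw [hdeg1, wild_finrank N M hM hMN]
  exact hcop

/-- **The degeneracy pullback commutes with `T_ℓ`.** -/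
theorem wildPull_hecke (hℓ : ℓ.Prime) (hM : M.Prime) (hMN : ¬ M ∣ N)
    (hℓNM : ¬ ℓ ∣ N * M) (hcop : Nat.Coprime (ℓ + 1) (M + 1)) (x : JZero N) :
    wildPull N M (heckeOperatorBar N (⟨ℓ, hℓ⟩ : Nat.Primes) x) =
      heckeOperatorBar (N * M) (⟨ℓ, hℓ⟩ : Nat.Primes) (wildPull N M x) := by
  obtain ⟨hα, hβ, hP, hfin, hFI, hN⟩ := Fermat.Agent.H49.heckeInputsAlong_qbar N ℓ hℓ
  obtain ⟨hα', hβ', hP', hfin', hFI', hN'⟩ :=
    Fermat.Agent.H49.heckeInputsAlong_qbar (N * M) ℓ hℓ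
  show wildPull N M (heckeOperatorAlong (AlgebraicClosure ℚ) N ℓ x) =
    heckeOperatorAlong (AlgebraicClosure ℚ) (N * M) ℓ (wildPull N M x)
  rw [heckeOperatorAlong_eq hα hβ hFI hfin hN, heckeOperatorAlong_eq hα' hβ' hFI' hfin' hN']
  exact wildPullbackPic0_correspondence (heckeBetaBar (AlgebraicClosure ℚ) N ℓ)
    (heckeAlphaBar (AlgebraicClosure ℚ) N ℓ) (heckeBetaBar (AlgebraicClosure ℚ) (N * M) ℓ)
    (heckeAlphaBar (AlgebraicClosure ℚ) (N * M) ℓ)
    (IntermediateField.inclusion (wild_le N M))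
    (IntermediateField.inclusion (wild_le_top N M ℓ)) hβ hα hβ' hα' (wild_isIntegral_bar _)
    (wild_isIntegral_bar _) (wild_fundamentalIdentity_bar _) hFI hfin hN hFI' hfin' hN'
    (wild_square_beta N M ℓ) (wild_baseChange_bar N M ℓ hℓ hM hMN hℓNM hcop hα hα') x

end Hecke

end Fermat.Agent.H36

end
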