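import Mathlib

/-!
# P-ES / S37 at the wild pairs, part 2: base change of norms

For a square of fields `F ⊆ E`, `F ⊆ F'`, `E, F' ⊆ E'` with `[E' : F'] = [E : F]` and
`[E : F]`, `[F' : F]` coprime, the norm of `E' / F'` restricts to the norm of `E / F`.
Mathlib only.
-/

set_option autoImplicit false

noncomputable section

namespace Fermat.Agent.H36

open Module

/-- **Base change of norms** for linearly disjoint extensions (coprime degrees). -/
theorem wild_norm_baseChange {F F' E E' : Type*} [Field F] [Field F'] [Field E] [Field E']
    [Algebra F F'] [Algebra F E] [Algebra F' E'] [Algebra E E'] [Algebra F E']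
    [IsScalarTower F F' E'] [IsScalarTower F E E'] [FiniteDimensional F E]
    (hdeg : finrank F' E' = finrank F E)
    (hcop : (finrank F E).Coprime (finrank F F')) (x : E) :
    Algebra.norm F' (algebraMap E E' x) = algebraMap F F' (Algebra.norm F x) := by
  classical
  let b : Basis (Fin (finrank F E)) F E := Module.finBasis F E
  let A : IntermediateField F E' := (IsScalarTower.toAlgHom F E E').fieldRange
  have hA : finrank F A = finrank F E :=
    (AlgEquiv.ofInjectiveField (IsScalarTower.toAlgHom F E E')).toLinearEquiv.finrank_eq.symm
  have H : A.LinearDisjoint F' :=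
    IntermediateField.LinearDisjoint.of_finrank_coprime (by rw [hA]; exact hcop)
  let a : Fin (finrank F E) → A := fun i =>
    AlgEquiv.ofInjectiveField (IsScalarTower.toAlgHom F E E') (b i)
  have ha : LinearIndependent F a :=
    b.linearIndependent.map' (AlgEquiv.ofInjectiveField
      (IsScalarTower.toAlgHom F E E')).toLinearMap
      (LinearMap.ker_eq_bot.mpr (AlgEquiv.injective _))
  have hli : LinearIndependent F' (fun i => algebraMap E E' (b i)) :=
    H.linearIndependent_left ha
  have hcard : Fintype.card (Fin (finrank F E)) = finrank F' E' := by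
    rw [Fintype.card_fin, hdeg]
  haveI : Nonempty (Fin (finrank F E)) := Fin.pos_iff_nonempty.mp Module.finrank_pos
  let b' : Basis (Fin (finrank F E)) F' E' := basisOfLinearIndependentOfCardEqFinrank hli hcard
  have hb' : ∀ i, b' i = algebraMap E E' (b i) := fun i => by
    simp [b']
  rw [Algebra.norm_eq_matrix_det b', Algebra.norm_eq_matrix_det b, RingHom.map_det]
  congr 1
  ext i j
  rw [Algebra.leftMulMatrix_eq_repr_mul, RingHom.mapMatrix_apply, Matrix.map_apply,
    Algebra.leftMulMatrix_eq_repr_mul]
  have key : algebraMap E E' x * b' j =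
      ∑ k, (algebraMap F F' (b.repr (x * b j) k)) • b' k := by
    rw [hb', ← map_mul]
    conv_lhs => rw [← b.sum_repr (x * b j)]
    rw [map_sum]
    refine Finset.sum_congr rfl fun k _ => ?_
    rw [hb', Algebra.smul_def, map_mul, Algebra.smul_def,
      ← IsScalarTower.algebraMap_apply F E E', ← IsScalarTower.algebraMap_apply F F' E']
  rw [key, b'.repr_sum_self]

end Fermat.Agent.H36

end
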