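import Fermat.Agent.H36.ESE.WildPic0
import Fermat.Agent.H36.ESE.WildNorm
import Fermat.Agent.H36.ESE.IsoLifting
import Fermat.Agent.H9.ESD.LevelChangeUncond
import Fermat.Agent.H49.ES.GalHecke

/-!
# P-ES / S37 at the wild pairs, part 5: the degeneracy pullback `J₀(N) → J₀(N M)`

`wildPull N M : JZero N →+ JZero (N * M)` is the pullback along the inclusion
`ℚ̄(X₀(N)) ≤ ℚ̄(X₀(N M))`.  It is Galois equivariant, its kernel is killed by `M + 1`
(`M ∤ N` prime), and it commutes with the prelude Hecke operator `T_ℓ` for every prime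
`ℓ ∤ N`, `ℓ ≠ M` with `ℓ + 1` prime to `M + 1`.
-/

set_option autoImplicit false
set_option linter.style.haveILetI false
set_option linter.unusedSectionVars false
set_option synthInstance.maxHeartbeats 400000
set_option maxHeartbeats 1600000

noncomputable section

namespace Fermat.Agent.H36

open AlgebraicCurve ModularCurve IntermediateField

section WeakApprox

variable {K F : Type*} [Field K] [Field F] [Algebra K F]

/-- Weak approximation from Riemann's theorem: a function with a nonzero order at `w₀` and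
order zero at the other places of a finite set. -/
theorem wild_weakApprox [Infinite K] {g : ℕ}
    (hk : Fermat.Agent.H27.ESD.RiemannPackage K F g) (w₀ : Place K F)
    (S : Finset (Place K F)) :
    ∃ x : F, x ≠ 0 ∧ w₀.ord x ≠ 0 ∧ ∀ w ∈ S, w ≠ w₀ → w.ord x = 0 := by
  classical
  obtain ⟨c, hc⟩ := exists_rr_avoiding hk w₀ w₀ (insert w₀ S)
  obtain ⟨x, -, hx0, hx⟩ := hc (max c 2) (le_max_left _ _)
  refine ⟨x, hx0, ?_, fun w hw hne => ?_⟩
  · rw [hx w₀ (Finset.mem_insert_self _ _), Finsupp.sub_apply, Finsupp.single_eq_same,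
      Finsupp.single_eq_same]
    have : (2 : ℤ) ≤ max c 2 := le_max_right _ _
    omega
  · rw [hx w (Finset.mem_insert_of_mem hw), Finsupp.sub_apply,
      Finsupp.single_eq_of_ne hne, Finsupp.single_eq_of_ne hne, sub_self, neg_zero]

end WeakApprox

section NormAlong

variable {K F F' E E' : Type*} [Field K] [Field F] [Field F'] [Field E] [Field E']
  [Algebra K F] [Algebra K F'] [Algebra K E] [Algebra K E']

/-- Base change of norms, `Along` form. -/
theorem wild_norm_along (a : F →ₐ[K] E) (m : F →ₐ[K] F') (a' : F' →ₐ[K] E') (g : E →ₐ[K] E')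
    (hsq : a'.comp m = g.comp a) (hfin : FiniteAlong K a)
    (hdeg : finrankAlong K a' = finrankAlong K a)
    (hcop : (finrankAlong K a).Coprime (finrankAlong K m)) (x : E) :
    (letI := algebraAlong a'; Algebra.norm F' (g x)) =
      m (letI := algebraAlong a; Algebra.norm F x) := by
  letI i1 : Algebra F F' := algebraAlong m
  letI i2 : Algebra F E := algebraAlong a
  letI i3 : Algebra F' E' := algebraAlong a'
  letI i4 : Algebra E E' := algebraAlong g
  letI i5 : Algebra F E' := (a'.comp m).toRingHom.toAlgebra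
  haveI : IsScalarTower F F' E' := IsScalarTower.of_algebraMap_eq fun _ => rfl
  haveI : IsScalarTower F E E' := IsScalarTower.of_algebraMap_eq fun y => by
    show (a'.comp m) y = g (a y)
    rw [hsq]
    rfl
  haveI : FiniteDimensional F E := hfin
  exact wild_norm_baseChange hdeg hcop x

end NormAlong

section Modular

/-- Principal divisors on `ℚ̄(X₀(N))`. -/
instance wildHasPrincipalDivisors (N : ℕ) [NeZero N] :
    HasPrincipalDivisors (AlgebraicClosure ℚ) ↥(modularFunctionFieldBar N) :=
  Fermat.Agent.H58.hasPrincipalDivisors_modularFunctionFieldBar N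

/-- The inclusion `ℚ̄(X₀(N)) ≤ ℚ̄(X₀(N'))` is finite. -/
theorem wild_finiteAlong_bar {N N' : ℕ} [NeZero N] [NeZero N']
    (h : modularFunctionFieldBar N ≤ modularFunctionFieldBar N') :
    FiniteAlong (AlgebraicClosure ℚ) (IntermediateField.inclusion h) := by
  refine Fermat.Agent.H9.ESD.lc_finiteAlong_of_finrankAlong_ne_zero _ ?_
  haveI : FiniteDimensional
      (AlgebraicClosure ℚ)⟮IntermediateField.inclusion h (Fermat.Agent.H23.jBar N)⟯
      ↥(modularFunctionFieldBar N') := (Fermat.Agent.H69.DegC.finrank_bar_eq N').1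
  exact Fermat.Agent.H9.ESD.lc_finrankAlong_inclusion_ne_zero h (Fermat.Agent.H23.jBar N)

theorem wild_isIntegral_bar {N N' : ℕ} [NeZero N] [NeZero N']
    (h : modularFunctionFieldBar N ≤ modularFunctionFieldBar N') :
    (IntermediateField.inclusion h).toRingHom.IsIntegral :=
  Fermat.Agent.H9.ESD.lc_isIntegral_of_finiteAlong _ (wild_finiteAlong_bar h)

theorem wild_fundamentalIdentity_bar {N N' : ℕ} [NeZero N] [NeZero N']
    (h : modularFunctionFieldBar N ≤ modularFunctionFieldBar N') :
    FundamentalIdentityAlong (AlgebraicClosure ℚ) (IntermediateField.inclusion h)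
      (wild_isIntegral_bar h) :=
  Fermat.Agent.H9.ESD.lc_fundamentalIdentityAlong_of
    Fermat.Agent.H49.relFundamentalIdentityStatement _ (wild_finiteAlong_bar h)
    (wild_isIntegral_bar h) (Fermat.Agent.H9.ESD.lc_isFunctionField_bar N)

theorem wild_normFormula_bar {N N' : ℕ} [NeZero N] [NeZero N']
    (h : modularFunctionFieldBar N ≤ modularFunctionFieldBar N') :
    NormFormulaAlong (AlgebraicClosure ℚ) (IntermediateField.inclusion h)
      (wild_finiteAlong_bar h) :=
  Fermat.Agent.H9.ESD.lc_normFormulaAlong_of Fermat.Agent.H49.relNormFormulaStatement _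
    (wild_finiteAlong_bar h) (Fermat.Agent.H9.ESD.lc_isFunctionField_bar N)

/-- `∑ e f = n` for the inclusion `ℚ̄(X₀(N)) ≤ ℚ̄(X₀(N'))`. -/
theorem wild_sum_bar {N N' : ℕ} [NeZero N] [NeZero N']
    (h : modularFunctionFieldBar N ≤ modularFunctionFieldBar N')
    (v : Place (AlgebraicClosure ℚ) ↥(modularFunctionFieldBar N)) :
    ∑ w ∈ Place.fiberAlong (IntermediateField.inclusion h) (wild_isIntegral_bar h) v,
      (Place.ramificationIndexAlong (IntermediateField.inclusion h) w : ℤ) *
        (Place.inertiaDegAlong (IntermediateField.inclusion h) (wild_isIntegral_bar h) w : ℤ)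
      = (finrankAlong (AlgebraicClosure ℚ) (IntermediateField.inclusion h) : ℤ) := by
  letI := algebraAlong (IntermediateField.inclusion h)
  haveI := isScalarTower_along (IntermediateField.inclusion h)
  haveI := isIntegral_along (IntermediateField.inclusion h) (wild_isIntegral_bar h)
  haveI : FundamentalIdentity (AlgebraicClosure ℚ) ↥(modularFunctionFieldBar N)
      ↥(modularFunctionFieldBar N') := wild_fundamentalIdentity_bar h
  haveI := Fermat.Agent.H96.sumRamificationInertia_of_deg_one
    (K := AlgebraicClosure ℚ) (F := ↥(modularFunctionFieldBar N))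
    (F' := ↥(modularFunctionFieldBar N'))
    (Fermat.Agent.H9.ESD.lc_deg_eq_one_bar N) (Fermat.Agent.H9.ESD.lc_deg_eq_one_bar N')
  exact SumRamificationInertia.sum_ramificationIndex_mul_inertiaDeg
    (K := AlgebraicClosure ℚ) (F := ↥(modularFunctionFieldBar N))
    (F' := ↥(modularFunctionFieldBar N')) v

variable (N M : ℕ) [NeZero N] [NeZero M]

/-- `ℚ̄(X₀(N)) ≤ ℚ̄(X₀(N M))`. -/
theorem wild_le : modularFunctionFieldBar N ≤ modularFunctionFieldBar (N * M) :=
  Fermat.Agent.H9.ESD.lc_bar_le (dvd_mul_right N M)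

/-- **The degeneracy pullback** `J₀(N) → J₀(N M)`. -/
def wildPull : JZero N →+ JZero (N * M) :=
  wildPullbackPic0 (IntermediateField.inclusion (wild_le N M)) (wild_isIntegral_bar _)
    (wild_fundamentalIdentity_bar _)

/-- The degeneracy pullback is Galois equivariant. -/
theorem wildPull_galois (σ : AlgebraicClosure ℚ ≃ₐ[ℚ] AlgebraicClosure ℚ) (x : JZero N) :
    wildPull N M (σ • x) = σ • wildPull N M x := by
  rw [galois_smul_pic0_def, galois_smul_pic0_def]
  exact wildPullbackPic0_smul _ _ _
    (Fermat.Agent.H49.intertwines_heckeAlphaBar (AlgebraicClosure ℚ) N M σ) x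

/-- The degree of `ℚ̄(X₀(N M))` over `ℚ̄(X₀(N))`, `M ∤ N` prime. -/
theorem wild_finrank (hM : M.Prime) (hMN : ¬ M ∣ N) :
    finrankAlong (AlgebraicClosure ℚ) (IntermediateField.inclusion (wild_le N M)) = M + 1 :=
  Fermat.Agent.H9.ESD.lc_finrankAlong_bar (mul_comm N M) hM hMN _

/-- The degeneracy pullback is injective on torsion prime to `M + 1`. -/
theorem wildPull_injective (hM : M.Prime) (hMN : ¬ M ∣ N) {n : ℕ}
    (hcop : Nat.Coprime (M + 1) n) (x : JZero N) (hnx : n • x = 0)
    (hx : wildPull N M x = 0) : x = 0 := by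
  refine wildPullbackPic0_injective_of_coprime _ _ _ (wild_finiteAlong_bar _)
    (wild_normFormula_bar _) (wild_sum_bar _) ?_ x hnx hx
  rw [wild_finrank N M hM hMN]
  exact hcop

end Modular

end Fermat.Agent.H36

end
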