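import Fermat.Agent.H36.ESE.WildBaseChange
import Fermat.Agent.H49.ES.GalEquivariance

/-!
# P-ES / S37 at the wild pairs, part 4: the pullback on `Pic⁰`

The pullback `m^* : Pic⁰(F) → Pic⁰(F')` along a finite homomorphism of function fields:

* it commutes with correspondences sitting in two commutative squares, as soon as base change
  holds for the pushforward square (`wildPullbackPic0_correspondence`);
* it is equivariant for intertwined semilinear automorphisms (`wildPullbackPic0_smul`);
* its kernel is killed by the degree (`wildPullbackPic0_eq_zero`).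

Prelude only (plus the generic equivariance lemmas of `H49`).
-/

set_option autoImplicit false
set_option linter.style.haveILetI false
set_option linter.unusedSectionVars false

noncomputable section

namespace Fermat.Agent.H36

open AlgebraicCurve

section Def

variable {K F F' : Type*} [Field K] [Field F] [Field F'] [Algebra K F] [Algebra K F']
  [HasPrincipalDivisors K F']
variable (m : F →ₐ[K] F') (hm : m.toRingHom.IsIntegral) (hFI : FundamentalIdentityAlong K m hm)

/-- The pullback on divisors of degree zero. -/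
def wildPullbackDegZero :
    Divisor.degZero (K := K) (F := F) →+ Divisor.degZero (K := K) (F := F') :=
  ((Divisor.pullbackAlong m hm).domRestrict (Divisor.degZero (K := K) (F := F))).codRestrict _
    fun D => Divisor.pullbackAlong_mem_degZero m hm hFI D.2

@[simp]
theorem coe_wildPullbackDegZero (D : Divisor.degZero (K := K) (F := F)) :
    (wildPullbackDegZero m hm hFI D : Divisor K F') =
      Divisor.pullbackAlong m hm (D : Divisor K F) :=
  rfl

/-- The pullback on `Pic⁰`. -/
def wildPullbackPic0 : Pic0 K F →+ Pic0 K F' :=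
  QuotientAddGroup.map _ _ (wildPullbackDegZero m hm hFI) (by
    rintro ⟨D, hD0⟩ hD
    simp only [AddSubgroup.mem_addSubgroupOf] at hD ⊢
    exact Divisor.isPrincipal_pullbackAlong m hm hD)

theorem wildPullbackPic0_mk (D : Divisor.degZero (K := K) (F := F)) :
    wildPullbackPic0 m hm hFI (Pic0.mk D) = Pic0.mk (wildPullbackDegZero m hm hFI D) :=
  rfl

/-- A class of `Pic⁰` vanishes iff the divisor is principal. -/
theorem wild_pic0_mk_eq_zero_iff {K F : Type*} [Field K] [Field F] [Algebra K F]
    (D : Divisor.degZero (K := K) (F := F)) :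
    Pic0.mk D = 0 ↔ (D : Divisor K F) ∈ Divisor.principal (K := K) (F := F) := by
  rw [Pic0.mk, QuotientAddGroup.eq_zero_iff, AddSubgroup.mem_addSubgroupOf]

/-- Equivariance of the pullback for intertwined semilinear automorphisms. -/
theorem wildPullbackPic0_smul {g : SemilinearAut K F} {g' : SemilinearAut K F'}
    (h : SemilinearAut.IntertwinesAlong m.toRingHom g g') (x : Pic0 K F) :
    wildPullbackPic0 m hm hFI (g • x) = g' • wildPullbackPic0 m hm hFI x := by
  obtain ⟨D, rfl⟩ := Pic0.mk_surjective x
  rw [SemilinearAut.pic0_smul_mk, wildPullbackPic0_mk, wildPullbackPic0_mk,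
    SemilinearAut.pic0_smul_mk]
  refine congrArg Pic0.mk (Subtype.ext ?_)
  rw [coe_wildPullbackDegZero, SemilinearAut.coe_degZeroSMulHom,
    SemilinearAut.coe_degZeroSMulHom, coe_wildPullbackDegZero]
  exact Fermat.Agent.H49.pullbackAlong_smul_of_intertwines m hm h (D : Divisor K F)

/-- `pushforward ∘ pullback` is multiplication by the degree, provided `∑ e f = n`. -/
theorem wild_pushforwardAlong_pullbackAlong
    (hsum : ∀ v : Place K F, ∑ w ∈ Place.fiberAlong m hm v,
      (Place.ramificationIndexAlong m w : ℤ) * (Place.inertiaDegAlong m hm w : ℤ)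
        = (finrankAlong K m : ℤ))
    (D : Divisor K F) :
    Divisor.pushforwardAlong m hm (Divisor.pullbackAlong m hm D) = finrankAlong K m • D := by
  classical
  induction D using Finsupp.induction with
  | zero => simp
  | single_add v a D _ _ ih =>
    rw [map_add, map_add, ih, smul_add]
    congr 1
    rw [Divisor.pullbackAlong_single, map_sum]
    have h1 : ∀ w ∈ Place.fiberAlong m hm v,
        Divisor.pushforwardAlong m hm (Finsupp.single w (a * (w.ramificationIndexAlong m : ℤ)))
          = Finsupp.single v (a * ((w.ramificationIndexAlong m : ℤ) *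
              (w.inertiaDegAlong m hm : ℤ))) := by
      intro w hw
      rw [Divisor.pushforwardAlong_single, Place.mem_fiberAlong.mp hw, mul_assoc]
    rw [Finset.sum_congr rfl h1, ← Finsupp.single_finsetSum, ← Finset.mul_sum, hsum v]
    rw [Finsupp.smul_single, nsmul_eq_mul, mul_comm]

/-- The kernel of the pullback is killed by the degree. -/
theorem wildPullbackPic0_eq_zero
    (hfin : FiniteAlong K m) (hNF : NormFormulaAlong K m hfin)
    (hsum : ∀ v : Place K F, ∑ w ∈ Place.fiberAlong m hm v,
      (Place.ramificationIndexAlong m w : ℤ) * (Place.inertiaDegAlong m hm w : ℤ)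
        = (finrankAlong K m : ℤ))
    (x : Pic0 K F) (hx : wildPullbackPic0 m hm hFI x = 0) :
    finrankAlong K m • x = 0 := by
  obtain ⟨D, rfl⟩ := Pic0.mk_surjective x
  rw [wildPullbackPic0_mk, wild_pic0_mk_eq_zero_iff, coe_wildPullbackDegZero] at hx
  show Pic0.mk (finrankAlong K m • D) = 0
  rw [wild_pic0_mk_eq_zero_iff]
  have h := Divisor.isPrincipal_pushforwardAlong m hm hfin hNF hx
  rw [wild_pushforwardAlong_pullbackAlong m hm hsum] at h
  exact h

/-- The pullback is injective on torsion prime to the degree. -/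
theorem wildPullbackPic0_injective_of_coprime
    (hfin : FiniteAlong K m) (hNF : NormFormulaAlong K m hfin)
    (hsum : ∀ v : Place K F, ∑ w ∈ Place.fiberAlong m hm v,
      (Place.ramificationIndexAlong m w : ℤ) * (Place.inertiaDegAlong m hm w : ℤ)
        = (finrankAlong K m : ℤ))
    {n : ℕ} (hcop : Nat.Coprime (finrankAlong K m) n)
    (x : Pic0 K F) (hnx : n • x = 0) (hx : wildPullbackPic0 m hm hFI x = 0) : x = 0 := by
  have h1 : addOrderOf x ∣ finrankAlong K m :=
    addOrderOf_dvd_of_nsmul_eq_zero (wildPullbackPic0_eq_zero m hm hFI hfin hNF hsum x hx)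
  have h2 : addOrderOf x ∣ n := addOrderOf_dvd_of_nsmul_eq_zero hnx
  have h3 : addOrderOf x ∣ 1 := by
    have := Nat.dvd_gcd h1 h2
    rwa [hcop.gcd_eq_one] at this
  exact AddMonoid.addOrderOf_eq_one_iff.mp (Nat.dvd_one.mp h3)

end Def

section Correspondence

variable {K F F' E E' : Type*} [Field K] [Field F] [Field F'] [Field E] [Field E']
  [Algebra K F] [Algebra K F'] [Algebra K E] [Algebra K E']
  [HasPrincipalDivisors K E] [HasPrincipalDivisors K E'] [HasPrincipalDivisors K F']
variable (φ ψ : F →ₐ[K] E) (φ' ψ' : F' →ₐ[K] E') (m : F →ₐ[K] F') (g : E →ₐ[K] E')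
variable (hφ : φ.toRingHom.IsIntegral) (hψ : ψ.toRingHom.IsIntegral)
  (hφ' : φ'.toRingHom.IsIntegral) (hψ' : ψ'.toRingHom.IsIntegral)
  (hm : m.toRingHom.IsIntegral) (hg : g.toRingHom.IsIntegral)

/-- The pullback commutes with correspondences, on divisors. -/
theorem wild_pullbackAlong_correspondence
    (hsqφ : φ'.comp m = g.comp φ)
    (hBC : ∀ D : Divisor K E, Divisor.pullbackAlong m hm (Divisor.pushforwardAlong ψ hψ D) =
      Divisor.pushforwardAlong ψ' hψ' (Divisor.pullbackAlong g hg D))
    (D : Divisor K F) :
    Divisor.pullbackAlong m hm (Divisor.correspondence φ ψ hφ hψ D) =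
      Divisor.correspondence φ' ψ' hφ' hψ' (Divisor.pullbackAlong m hm D) := by
  rw [Divisor.correspondence_apply, Divisor.correspondence_apply, hBC,
    ← wild_pullbackAlong_comp φ g hφ hg (wild_isIntegral_comp φ g hφ hg),
    ← wild_pullbackAlong_comp m φ' hm hφ' (wild_isIntegral_comp m φ' hm hφ')]
  congr 1
  exact wild_pullbackAlong_congr hsqφ.symm _ _ D

/-- The pullback commutes with correspondences, on `Pic⁰`. -/
theorem wildPullbackPic0_correspondence
    (hFIm : FundamentalIdentityAlong K m hm)
    (hFI : FundamentalIdentityAlong K φ hφ) (hfin : FiniteAlong K ψ)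
    (hN : NormFormulaAlong K ψ hfin)
    (hFI' : FundamentalIdentityAlong K φ' hφ') (hfin' : FiniteAlong K ψ')
    (hN' : NormFormulaAlong K ψ' hfin')
    (hsqφ : φ'.comp m = g.comp φ)
    (hBC : ∀ D : Divisor K E, Divisor.pullbackAlong m hm (Divisor.pushforwardAlong ψ hψ D) =
      Divisor.pushforwardAlong ψ' hψ' (Divisor.pullbackAlong g hg D))
    (x : Pic0 K F) :
    wildPullbackPic0 m hm hFIm (Pic0.correspondence φ ψ hφ hψ hFI hfin hN x) =
      Pic0.correspondence φ' ψ' hφ' hψ' hFI' hfin' hN' (wildPullbackPic0 m hm hFIm x) := by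
  obtain ⟨D, rfl⟩ := Pic0.mk_surjective x
  rw [Pic0.correspondence_mk, wildPullbackPic0_mk, wildPullbackPic0_mk, Pic0.correspondence_mk]
  refine congrArg Pic0.mk (Subtype.ext ?_)
  rw [coe_wildPullbackDegZero, Pic0.coe_degZeroCorrespondence, Pic0.coe_degZeroCorrespondence,
    coe_wildPullbackDegZero]
  exact wild_pullbackAlong_correspondence φ ψ φ' ψ' m g hφ hψ hφ' hψ' hm hg hsqφ hBC
    (D : Divisor K F)

end Correspondence

end Fermat.Agent.H36

end
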