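import Fermat.Agent.H36.ESE.WildHecke
import Fermat.Agent.H36.ESE.S37Inputs

/-!
# P-ES / S37: the wild pairs from the tame auxiliary level

`JZeroReductionDatum.wild`: a reduction datum at level `N * M` gives one at level `N`
(`red := red_{N M} ∘ wildPull N M`), for primes `M ∤ N`, `ℓ ∤ N M p` with `M + 1` a power of
`ℓ` and `ℓ + 1` prime to `M + 1`; in particular for `(M, ℓ) = (3, 2)` and `(2, 3)`.

`s37_of_tame`: the frozen statement `S37` for every level `N`, from the inputs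
`S37InputsAt N' ℓ A` at the TAME pairs `(N', ℓ)` only.
-/

set_option autoImplicit false
set_option linter.style.haveILetI false
set_option linter.unusedSectionVars false
set_option synthInstance.maxHeartbeats 400000
set_option maxHeartbeats 1600000

noncomputable section

namespace Fermat.Agent.H36

open ModularCurve AlgebraicCurve

/-- A reduction datum at the auxiliary level `N * M` gives a reduction datum at level `N`. -/
def JZeroReductionDatum.wild {N M p ℓ : ℕ} [NeZero N] [NeZero M]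
    {A : ValuationSubring (AlgebraicClosure ℚ)} {hℓ : ℓ.Prime}
    {J₀ : Type} [AddCommGroup J₀]
    (hM : M.Prime) (hMN : ¬ M ∣ N) (hℓNM : ¬ ℓ ∣ N * M) (hℓp : ¬ ℓ ∣ p)
    (hcop : Nat.Coprime (ℓ + 1) (M + 1)) (hpow : ∃ a : ℕ, M + 1 = ℓ ^ a)
    (D : JZeroReductionDatum (N * M) p A ℓ hℓ J₀) : JZeroReductionDatum N p A ℓ hℓ J₀ where
  red := D.red.comp (wildPull N M)
  frob := D.frob
  ver := D.ver
  ver_frob := D.ver_frob
  red_inertia σ hσ x := by
    rw [AddMonoidHom.comp_apply, AddMonoidHom.comp_apply, wildPull_galois,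
      D.red_inertia σ hσ]
  red_frobenius σ hσ x := by
    rw [AddMonoidHom.comp_apply, AddMonoidHom.comp_apply, wildPull_galois,
      D.red_frobenius σ hσ]
  red_hecke x := by
    haveI : NeZero ℓ := ⟨hℓ.ne_zero⟩
    rw [AddMonoidHom.comp_apply, AddMonoidHom.comp_apply,
      wildPull_hecke N M ℓ hℓ hM hMN hℓNM hcop x]
    exact D.red_hecke (wildPull N M x)
  red_injective x := by
    rintro ⟨n, hn⟩ hx
    rw [AddMonoidHom.comp_apply] at hx
    have h1 : wildPull N M x = 0 :=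
      D.red_injective (wildPull N M x) ⟨n, by rw [← map_nsmul, hn, map_zero]⟩ hx
    obtain ⟨a, ha⟩ := hpow
    refine wildPull_injective N M hM hMN ?_ x hn h1
    rw [ha]
    exact Nat.Coprime.pow a n ((Nat.Prime.coprime_iff_not_dvd hℓ).mpr hℓp)

/-- `ReductionDataStatement N p` from the inputs at the tame pairs. -/
theorem reductionDataStatement_of_tame (N p : ℕ) [NeZero N]
    (h : ∀ (N' : ℕ) [NeZero N'] (ℓ : ℕ), ℓ.Prime → ¬ ℓ ∣ N' →
      Fermat.Agent.H27.ESD.TamePair N' ℓ →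
      ∀ A : ValuationSubring (AlgebraicClosure ℚ), A.LiesOverPrime ℓ → S37InputsAt N' ℓ A) :
    ReductionDataStatement N p := by
  intro ℓ hℓ hℓNp A hA
  have hℓN : ¬ ℓ ∣ N := fun hd => hℓNp (Dvd.dvd.mul_right hd p)
  have hℓp : ¬ ℓ ∣ p := fun hd => hℓNp (Dvd.dvd.mul_left hd N)
  rcases Fermat.Agent.H27.ESD.tamePair_or_wild N ℓ hℓ with ht | ⟨rfl, h3⟩ | ⟨rfl, h2⟩
  · exact ⟨JZeroC (IsLocalRing.ResidueField A) N, inferInstance,
      jZeroReductionDatum_of_inputs N p ℓ hℓ hℓNp A hA (h N ℓ hℓ hℓN ht A hA)⟩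
  · -- `ℓ = 2`, auxiliary level `N * 3`
    have h2N3 : ¬ 2 ∣ N * 3 := fun hd =>
      (Nat.Prime.dvd_mul Nat.prime_two).mp hd |>.elim hℓN (by norm_num)
    have h2N3p : ¬ 2 ∣ N * 3 * p := fun hd =>
      (Nat.Prime.dvd_mul Nat.prime_two).mp hd |>.elim h2N3 hℓp
    obtain ⟨D'⟩ := jZeroReductionDatum_of_inputs (N * 3) p 2 hℓ h2N3p A hA
      (h (N * 3) 2 hℓ h2N3 (Or.inr (Or.inr ⟨rfl, dvd_mul_left 3 N⟩)) A hA)
    exact ⟨JZeroC (IsLocalRing.ResidueField A) (N * 3), inferInstance,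
      ⟨D'.wild Nat.prime_three h3 h2N3 hℓp (by norm_num) ⟨2, by norm_num⟩⟩⟩
  · -- `ℓ = 3`, auxiliary level `N * 2`
    have h3N2 : ¬ 3 ∣ N * 2 := fun hd =>
      (Nat.Prime.dvd_mul Nat.prime_three).mp hd |>.elim hℓN (by norm_num)
    have h3N2p : ¬ 3 ∣ N * 2 * p := fun hd =>
      (Nat.Prime.dvd_mul Nat.prime_three).mp hd |>.elim h3N2 hℓp
    obtain ⟨D'⟩ := jZeroReductionDatum_of_inputs (N * 2) p 3 hℓ h3N2p A hA
      (h (N * 2) 3 hℓ h3N2 (Or.inr (Or.inl ⟨rfl, dvd_mul_left 2 N⟩)) A hA)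
    exact ⟨JZeroC (IsLocalRing.ResidueField A) (N * 2), inferInstance,
      ⟨D'.wild Nat.prime_two h2 h3N2 hℓp (by norm_num) ⟨1, by norm_num⟩⟩⟩

/-- **`S37` from the inputs at the tame pairs** (exact shape of the frozen statement). -/
theorem s37_of_tame
    (h : ∀ (N' : ℕ) [NeZero N'] (ℓ : ℕ), ℓ.Prime → ¬ ℓ ∣ N' →
      Fermat.Agent.H27.ESD.TamePair N' ℓ →
      ∀ A : ValuationSubring (AlgebraicClosure ℚ), A.LiesOverPrime ℓ → S37InputsAt N' ℓ A)
    (N p : ℕ) [NeZero N] (hcomm : ModularCurve.HeckeOperatorsCommuteBar N) :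
    letI := ModularCurve.heckeModuleBar N
    ∀ (_ : SMulCommClass (AlgebraicClosure ℚ ≃ₐ[ℚ] AlgebraicClosure ℚ) ModularCurve.HeckeAlg
      (ModularCurve.JZero N)),
      ModularCurve.SpecializationExists (K := ℚ) (L := AlgebraicClosure ℚ) N p
        (ModularCurve.JZero N) :=
  specializationExists_of_reductionData N p hcomm (reductionDataStatement_of_tame N p h)

end Fermat.Agent.H36

end
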